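/-
PROGRAM MR (S44), strand G, brick (Ram) — helper127.

`Qb = AlgebraicClosure ℚ`, `A` a valuation subring of `Qb` over the prime number `p`,
`I = A.inertiaSubgroupIn ℚ`, `v = A.valuation`, `ζ` a primitive `p`-th root of unity, `λ = ζ - 1`.

* `exists_valuation_eq_zpow_of_fixed` (R1): an `I`-fixed `x ≠ 0` has `v x = v p ^ n`;
* `exists_valuation_eq_zpow_lam_of_fixed` (R2): `y ≠ 0` fixed by the stabiliser of `ζ` in `I`
  has `v y = v (ζ - 1) ^ n`;
* `exists_inertia_kummer` (R3): if `b ^ p` has valuation `v p ^ m` with `p ∤ m` (très ramifié)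
  and `I` acts on `b` through `p`-th roots of unity, some `σ ∈ I` fixes `ζ` and has `σ b = ζ b`;
* `ram` (Ram): in that situation every `z ∈ A` fixed by the stabiliser of `ζ` and `b` in `I`
  satisfies `v (σ z - z) ^ p ≤ v (ζ - 1) ^ (p + 1)` (the wild break of `L₁(b) / L₁` is `p + 1`).
-/
import Mathlib
import Fermat.Agent.S36.CycloBase
import Fermat.Agent.Lib.ValAut

set_option autoImplicit false

open scoped IntermediateField

noncomputable section

namespace Fermat.Agent.S44.G.Ram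

local notation "Qb" => AlgebraicClosure ℚ
local notation "GQb" => (AlgebraicClosure ℚ ≃ₐ[ℚ] AlgebraicClosure ℚ)

open Fermat.Agent.S36.CycloBase

/-- An automorphism fixing `x` fixes `ℚ(x)` pointwise. -/
theorem apply_eq_of_mem_adjoin_simple (τ : GQb) {x : Qb} (hx : τ x = x) {y : Qb}
    (hy : y ∈ ℚ⟮x⟯) : τ y = y := by
  have halg : IsAlgebraic ℚ x := (AlgebraicClosure.isAlgebraic ℚ).isAlgebraic x
  have h1 : (ℚ⟮x⟯).toSubalgebra = Algebra.adjoin ℚ {x} :=
    IntermediateField.adjoin_simple_toSubalgebra_of_isAlgebraic halg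
  have hy' : y ∈ Algebra.adjoin ℚ {x} := by
    rw [← h1]; exact hy
  have hle : Algebra.adjoin ℚ {x} ≤ AlgHom.equalizer (τ : Qb →ₐ[ℚ] Qb) (AlgHom.id ℚ Qb) := by
    refine Algebra.adjoin_le ?_
    intro w hw
    rw [Set.mem_singleton_iff] at hw
    subst hw
    exact hx
  exact hle hy'

variable (A : ValuationSubring Qb) {p : ℕ} (hp : p.Prime) (hA : A.LiesOverPrime p)

include hp hA in
/-- **(R1)** An element fixed by the inertia group has the valuation of a power of `p`. -/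
theorem exists_valuation_eq_zpow_of_fixed (x : Qb) (hx0 : x ≠ 0)
    (hx : ∀ τ ∈ A.inertiaSubgroupIn ℚ, τ x = x) :
    ∃ n : ℤ, A.valuation x = A.valuation (p : Qb) ^ n := by
  have hint : IsIntegral ℚ x := ((AlgebraicClosure.isAlgebraic ℚ).isAlgebraic x).isIntegral
  have : FiniteDimensional ℚ ℚ⟮x⟯ := IntermediateField.adjoin.finiteDimensional hint
  have hK : A.inertiaSubgroupIn ℚ ≤ (ℚ⟮x⟯).fixingSubgroup := by
    intro τ hτ
    rw [IntermediateField.mem_fixingSubgroup_iff]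
    intro y hy
    exact apply_eq_of_mem_adjoin_simple τ (hx τ hτ) hy
  exact exists_valuation_eq_zpow A hp hA ℚ⟮x⟯ hK x (IntermediateField.mem_adjoin_simple_self ℚ x)
    hx0

/-- Elements of the inertia group preserve the valuation. -/
theorem valuation_apply (τ : GQb) (hτ : τ ∈ A.inertiaSubgroupIn ℚ) (x : Qb) :
    A.valuation (τ x) = A.valuation x :=
  Fermat.Agent.Lib.ValAut.valuation_map_eq_of_mem_inertia A τ hτ x

/-! ### Powers of an automorphism -/

theorem pow_apply_fixed (σ : GQb) {x : Qb} (hx : σ x = x) (k : ℕ) : (σ ^ k) x = x := by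
  induction k with
  | zero => simp
  | succ k ih => rw [pow_succ, AlgEquiv.mul_apply, hx, ih]

theorem pow_apply_kummer (σ : GQb) {ζ b : Qb} (j : ℕ) (hσζ : σ ζ = ζ) (hσb : σ b = ζ ^ j * b)
    (k : ℕ) : (σ ^ k) b = ζ ^ (j * k) * b := by
  induction k with
  | zero => simp
  | succ k ih =>
    rw [pow_succ, AlgEquiv.mul_apply, hσb, map_mul, map_pow, pow_apply_fixed σ hσζ k, ih]
    ring

/-! ### The stabiliser of `ζ` in the inertia group -/

section Lam

variable {ζ : Qb} (hζ : IsPrimitiveRoot ζ p)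

include hp in
theorem apply_zeta_of_autToPow_eq_one [NeZero p] (ι : GQb) (h : hζ.autToPow ℚ ι = 1) :
    ι ζ = ζ := by
  have hs := hζ.autToPow_spec ℚ ι
  rw [h] at hs
  have : Fact (1 < p) := ⟨hp.one_lt⟩
  rw [Units.val_one, ZMod.val_one, pow_one] at hs
  exact hs.symm

include hp hA in
/-- The norm over `I / I₁`: for `y ≠ 0` fixed by the stabiliser `I₁` of `ζ` in `I`,
`v y ^ [I : I₁]` is the valuation of a power of `p`. -/
theorem exists_valuation_pow_card_eq [NeZero p] (y : Qb) (hy0 : y ≠ 0)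
    (hy : ∀ τ ∈ A.inertiaSubgroupIn ℚ, τ ζ = ζ → τ y = y) :
    ∃ n : ℤ, A.valuation y ^ Nat.card ((A.inertiaSubgroupIn ℚ).map (hζ.autToPow ℚ))
      = A.valuation (p : Qb) ^ n := by
  classical
  set I := A.inertiaSubgroupIn ℚ with hI
  set χ := hζ.autToPow ℚ with hχ
  let _ : Fintype (I.map χ) := Fintype.ofFinite _
  have hrep : ∀ s : I.map χ, ∃ τ ∈ I, χ τ = s := fun s => Subgroup.mem_map.mp s.2
  choose rep hrepI hrepχ using hrep
  set Ny : Qb := ∏ s : I.map χ, rep s y with hNy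
  have hNy0 : Ny ≠ 0 :=
    Finset.prod_ne_zero_iff.mpr fun s _ => (map_ne_zero_iff _ (rep s).injective).mpr hy0
  have hfix : ∀ τ ∈ I, τ Ny = Ny := by
    intro τ hτ
    let e : I.map χ ≃ I.map χ := Equiv.mulLeft ⟨χ τ, Subgroup.mem_map_of_mem χ hτ⟩
    have key : ∀ s : I.map χ, τ (rep s y) = rep (e s) y := by
      intro s
      have hιI : (rep (e s))⁻¹ * τ * rep s ∈ I :=
        I.mul_mem (I.mul_mem (I.inv_mem (hrepI _)) hτ) (hrepI s)
      have hιχ : χ ((rep (e s))⁻¹ * τ * rep s) = 1 := by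
        rw [map_mul, map_mul, map_inv, hrepχ, hrepχ]
        have he : ((e s : I.map χ) : (ZMod p)ˣ) = χ τ * (s : (ZMod p)ˣ) := rfl
        rw [he]
        group
      have hιy : ((rep (e s))⁻¹ * τ * rep s) y = y :=
        hy _ hιI (apply_zeta_of_autToPow_eq_one hp hζ _ hιχ)
      have h2 : rep (e s) (((rep (e s))⁻¹ * τ * rep s) y) = τ (rep s y) := by
        rw [AlgEquiv.mul_apply, AlgEquiv.mul_apply, ← AlgEquiv.mul_apply, mul_inv_cancel,
          AlgEquiv.one_apply]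
      rw [← h2, hιy]
    rw [hNy, map_prod, Finset.prod_congr rfl (fun s _ => key s)]
    exact Equiv.prod_comp e (fun s => rep s y)
  obtain ⟨n, hn⟩ := exists_valuation_eq_zpow_of_fixed A hp hA Ny hNy0 hfix
  refine ⟨n, ?_⟩
  rw [← hn, hNy, map_prod,
    Finset.prod_congr rfl (fun s _ => valuation_apply A (rep s) (hrepI s) y),
    Finset.prod_const, Finset.card_univ, Nat.card_eq_fintype_card]

include hp hA in
/-- The inertia group acts on `μ_p` through the full group `(ℤ/p)ˣ`. -/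
theorem card_map_autToPow [NeZero p] :
    Nat.card ((A.inertiaSubgroupIn ℚ).map (hζ.autToPow ℚ)) = p - 1 := by
  have hlam := valuation_lam A hp hA hζ
  have hpos := valuation_lam_pos A hp hζ
  obtain ⟨n, hn⟩ := exists_valuation_pow_card_eq A hp hA hζ (ζ - 1)
    (zeta_sub_one_ne_zero hp hζ) (fun τ _ hτζ => by rw [map_sub, hτζ, map_one])
  set d := Nat.card ((A.inertiaSubgroupIn ℚ).map (hζ.autToPow ℚ)) with hd
  have hd1 : 1 ≤ d := Nat.card_pos
  have hd2 : d ≤ p - 1 := by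
    have h1 : d ≤ Nat.card (ZMod p)ˣ := Subgroup.card_le_card_group _
    have h2 : Nat.card (ZMod p)ˣ = p - 1 := by
      rw [Nat.card_eq_fintype_card, ZMod.card_units_eq_totient, Nat.totient_prime hp]
    omega
  have he : A.valuation (ζ - 1) ^ (d : ℤ) = A.valuation (ζ - 1) ^ (((p - 1 : ℕ) : ℤ) * n) := by
    rw [zpow_natCast, hn, ← hlam.2, zpow_mul, zpow_natCast]
  have hinj := zpow_right_injective₀ hpos hlam.1.ne he
  have hp1 : 1 ≤ p - 1 := by have := hp.two_le; omega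
  have hn1 : n = 1 := by
    have h3 : (0 : ℤ) < ((p - 1 : ℕ) : ℤ) := by exact_mod_cast hp1
    have h4 : (1 : ℤ) ≤ (d : ℤ) := by exact_mod_cast hd1
    have h5 : (d : ℤ) ≤ ((p - 1 : ℕ) : ℤ) := by exact_mod_cast hd2
    rw [hinj] at h4 h5
    have h6 : 0 < n := by
      by_contra hcon
      have : ((p - 1 : ℕ) : ℤ) * n ≤ 0 := mul_nonpos_of_nonneg_of_nonpos h3.le (not_lt.mp hcon)
      omega
    have h7 : n < 2 := by
      by_contra hcon
      have : ((p - 1 : ℕ) : ℤ) * 2 ≤ ((p - 1 : ℕ) : ℤ) * n :=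
        mul_le_mul_of_nonneg_left (not_lt.mp hcon) h3.le
      omega
    omega
  rw [hn1, mul_one] at hinj
  exact_mod_cast hinj

include hp hA hζ in
/-- **(R2)** An element fixed by the stabiliser of `ζ` in the inertia group has the valuation of
a power of `ζ - 1`. -/
theorem exists_valuation_eq_zpow_lam_of_fixed (y : Qb) (hy0 : y ≠ 0)
    (hy : ∀ τ ∈ A.inertiaSubgroupIn ℚ, τ ζ = ζ → τ y = y) :
    ∃ n : ℤ, A.valuation y = A.valuation (ζ - 1) ^ n := by
  have : NeZero p := ⟨hp.ne_zero⟩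
  have hlam := valuation_lam A hp hA hζ
  obtain ⟨n, hn⟩ := exists_valuation_pow_card_eq A hp hA hζ y hy0 hy
  rw [card_map_autToPow A hp hA hζ] at hn
  refine ⟨n, ?_⟩
  have hp1 : p - 1 ≠ 0 := by have := hp.two_le; omega
  have h1 : A.valuation y ^ (p - 1) = (A.valuation (ζ - 1) ^ n) ^ (p - 1) := by
    rw [hn, ← hlam.2, ← zpow_natCast, ← zpow_natCast, ← zpow_mul, ← zpow_mul, mul_comm]
  exact (pow_left_inj₀ zero_le zero_le hp1).mp h1

/-! ### The Kummer character on the stabiliser of `ζ` -/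

include hp hA hζ in
/-- **(R3)** If the inertia group acts on `b` through `p`-th roots of unity and the valuation of
`b ^ p` is `v p ^ m` with `p ∤ m` (très ramifié), then some `σ` in the inertia group fixes `ζ`
and has `σ b = ζ b`. -/
theorem exists_inertia_kummer (b : Qb) (hb0 : b ≠ 0)
    (hb : ∀ τ ∈ A.inertiaSubgroupIn ℚ, ∃ j : ℕ, τ b = ζ ^ j * b) (m : ℤ)
    (hm : A.valuation (b ^ p) = A.valuation (p : Qb) ^ m) (hpm : ¬ (p : ℤ) ∣ m) :
    ∃ σ ∈ A.inertiaSubgroupIn ℚ, σ ζ = ζ ∧ σ b = ζ * b := by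
  by_contra hcon
  push Not at hcon
  have hfix : ∀ τ ∈ A.inertiaSubgroupIn ℚ, τ ζ = ζ → τ b = b := by
    intro τ hτ hτζ
    obtain ⟨j, hj⟩ := hb τ hτ
    by_cases hpj : p ∣ j
    · obtain ⟨c, rfl⟩ := hpj
      rw [hj, pow_mul, hζ.pow_eq_one, one_pow, one_mul]
    · exfalso
      have hcop : Nat.Coprime j p := ((Nat.Prime.coprime_iff_not_dvd hp).mpr hpj).symm
      obtain ⟨k, -, hk⟩ := Nat.exists_mul_mod_eq_one_of_coprime hcop hp.one_lt
      apply hcon (τ ^ k) (Subgroup.pow_mem _ hτ k) (pow_apply_fixed τ hτζ k)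
      rw [pow_apply_kummer τ j hτζ hj k]
      congr 1
      rw [← Nat.mod_add_div (j * k) p, hk, pow_add, pow_mul, hζ.pow_eq_one, one_pow, mul_one,
        pow_one]
  obtain ⟨n, hn⟩ := exists_valuation_eq_zpow_lam_of_fixed A hp hA hζ b hb0 hfix
  have hlam := valuation_lam A hp hA hζ
  have hpos := valuation_lam_pos A hp hζ
  have he : A.valuation (ζ - 1) ^ (n * (p : ℤ))
      = A.valuation (ζ - 1) ^ (((p - 1 : ℕ) : ℤ) * m) := by
    rw [zpow_mul, ← hn, zpow_natCast, ← map_pow, hm, ← hlam.2, zpow_mul, zpow_natCast]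
  have hinj : n * (p : ℤ) = ((p - 1 : ℕ) : ℤ) * m := zpow_right_injective₀ hpos hlam.1.ne he
  apply hpm
  have hdvd : (p : ℤ) ∣ ((p - 1 : ℕ) : ℤ) * m := ⟨n, by rw [← hinj, mul_comm]⟩
  have hprime : Prime (p : ℤ) := Nat.prime_iff_prime_int.mp hp
  rcases hprime.dvd_or_dvd hdvd with h | h
  · exfalso
    have h1 : p ∣ p - 1 := by exact_mod_cast h
    have h2 := Nat.le_of_dvd (by have := hp.two_le; omega) h1
    have := hp.two_le
    omega
  · exact h

include hp hA hζ in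
/-- **(Ram)** The wild break.  Let the inertia group act on `b` through `p`-th roots of unity,
`v (b ^ p) = v p ^ m` with `p ∤ m`, and let `σ` in the inertia group fix `ζ` with `σ b = ζ b`.
Then every `z ∈ A` fixed by the stabiliser of `ζ` and `b` in the inertia group satisfies
`v (σ z - z) ^ p ≤ v (ζ - 1) ^ (p + 1)`. -/
theorem ram (b : Qb) (hb0 : b ≠ 0)
    (hb : ∀ τ ∈ A.inertiaSubgroupIn ℚ, ∃ j : ℕ, τ b = ζ ^ j * b) (m : ℤ)
    (hm : A.valuation (b ^ p) = A.valuation (p : Qb) ^ m) (hpm : ¬ (p : ℤ) ∣ m)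
    (σ : GQb) (hσ : σ ∈ A.inertiaSubgroupIn ℚ) (hσζ : σ ζ = ζ) (hσb : σ b = ζ * b)
    (z : Qb) (hzA : z ∈ A)
    (hz : ∀ τ ∈ A.inertiaSubgroupIn ℚ, τ ζ = ζ → τ b = b → τ z = z) :
    A.valuation (σ z - z) ^ p ≤ A.valuation (ζ - 1) ^ (p + 1) := by
  classical
  set I := A.inertiaSubgroupIn ℚ with hI
  have hζ0 : ζ ≠ 0 := hζ.ne_zero hp.ne_zero
  have hp0 : (p : Qb) ≠ 0 := Nat.cast_ne_zero.mpr hp.ne_zero
  have hlam := valuation_lam A hp hA hζ
  have hpos := valuation_lam_pos A hp hζ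
  have hσb' : σ b = ζ ^ 1 * b := by rw [pow_one]; exact hσb
  have hprime : Prime (p : ℤ) := Nat.prime_iff_prime_int.mp hp
  have hp1not : ¬ (p : ℤ) ∣ ((p - 1 : ℕ) : ℤ) := by
    intro h
    have h1 : p ∣ p - 1 := by exact_mod_cast h
    have h2 := Nat.le_of_dvd (by have := hp.two_le; omega) h1
    have := hp.two_le
    omega
  -- elements fixed by the stabiliser of `ζ` and `b`
  have hσinvζ : σ⁻¹ ζ = ζ := by
    have h := congrArg (σ⁻¹ : GQb) hσζ
    rw [← AlgEquiv.mul_apply, inv_mul_cancel, AlgEquiv.one_apply] at h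
    exact h.symm
  have hHFσ : ∀ w : Qb, (∀ τ ∈ I, τ ζ = ζ → τ b = b → τ w = w) →
      ∀ τ ∈ I, τ ζ = ζ → τ b = b → τ (σ w) = σ w := by
    intro w hw τ hτ hτζ hτb
    have h1 : (σ⁻¹ * τ * σ) w = w := by
      apply hw _ (I.mul_mem (I.mul_mem (I.inv_mem hσ) hτ) hσ)
      · rw [AlgEquiv.mul_apply, AlgEquiv.mul_apply, hσζ, hτζ, hσinvζ]
      · rw [AlgEquiv.mul_apply, AlgEquiv.mul_apply, hσb, map_mul, hτζ, hτb, ← hσb,
          ← AlgEquiv.mul_apply, inv_mul_cancel, AlgEquiv.one_apply]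
    have h2 : σ ((σ⁻¹ * τ * σ) w) = τ (σ w) := by
      rw [AlgEquiv.mul_apply, AlgEquiv.mul_apply, ← AlgEquiv.mul_apply σ σ⁻¹, mul_inv_cancel,
        AlgEquiv.one_apply]
    rw [← h2, h1]
  have hHFpow : ∀ k : ℕ, ∀ τ ∈ I, τ ζ = ζ → τ b = b → τ ((σ ^ k) z) = (σ ^ k) z := by
    intro k
    induction k with
    | zero => simpa using hz
    | succ k ih =>
      rw [pow_succ']
      exact hHFσ _ ih
  have hσp : (σ ^ p) z = z := by
    apply hz _ (I.pow_mem hσ p) (pow_apply_fixed σ hσζ p)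
    rw [pow_apply_kummer σ 1 hσζ hσb' p, one_mul, hζ.pow_eq_one, one_mul]
  -- the Lagrange resolvents
  set g : ℕ → ℕ → Qb := fun i k => ((ζ ^ i)⁻¹) ^ k * (σ ^ k) z with hg
  set zc : ℕ → Qb := fun i => (p : Qb)⁻¹ * ∑ k ∈ Finset.range p, g i k with hzc
  -- (a) the resolvents sum to `z`
  have hsum : ∑ i ∈ Finset.range p, zc i = z := by
    have h1 : ∑ i ∈ Finset.range p, zc i
        = (p : Qb)⁻¹ * ∑ k ∈ Finset.range p,
            (∑ i ∈ Finset.range p, ((ζ ^ k)⁻¹) ^ i) * (σ ^ k) z := by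
      simp only [hzc, hg]
      rw [← Finset.mul_sum, Finset.sum_comm]
      congr 1
      refine Finset.sum_congr rfl fun k _ => ?_
      rw [Finset.sum_mul]
      refine Finset.sum_congr rfl fun i _ => ?_
      rw [inv_pow, inv_pow, ← pow_mul, ← pow_mul, mul_comm i k]
    have h2 : ∀ k ∈ Finset.range p, k ≠ 0 →
        (∑ i ∈ Finset.range p, ((ζ ^ k)⁻¹) ^ i) * (σ ^ k) z = 0 := by
      intro k hk hk0
      have hkp : k < p := Finset.mem_range.mp hk
      have hne : (ζ ^ k)⁻¹ ≠ 1 := by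
        rw [Ne, inv_eq_one]
        exact hζ.pow_ne_one_of_pos_of_lt hk0 hkp
      have hgeom := geom_sum_mul ((ζ ^ k)⁻¹) p
      have hpow : ((ζ ^ k)⁻¹) ^ p = 1 := by
        rw [inv_pow, ← pow_mul, mul_comm, pow_mul, hζ.pow_eq_one, one_pow, inv_one]
      rw [hpow, sub_self] at hgeom
      have h0 : ∑ i ∈ Finset.range p, ((ζ ^ k)⁻¹) ^ i = 0 := by
        rcases mul_eq_zero.mp hgeom with h | h
        · exact h
        · exact absurd (sub_eq_zero.mp h) hne
      rw [h0, zero_mul]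
    rw [h1, Finset.sum_eq_single 0 (fun k hk hk0 => h2 k hk hk0)
      (fun h => absurd (Finset.mem_range.mpr hp.pos) h)]
    simp only [pow_zero, inv_one, one_pow, Finset.sum_const, Finset.card_range, nsmul_eq_mul,
      mul_one, AlgEquiv.one_apply]
    rw [← mul_assoc, inv_mul_cancel₀ hp0, one_mul]
  -- (b) the resolvents are eigenvectors of `σ`
  have hσzc : ∀ i : ℕ, σ (zc i) = ζ ^ i * zc i := by
    intro i
    have hζi : ζ ^ i ≠ 0 := pow_ne_zero i hζ0
    have h1 : σ (zc i) = (p : Qb)⁻¹ * ∑ k ∈ Finset.range p, ζ ^ i * g i (k + 1) := by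
      simp only [hzc, hg]
      rw [map_mul, map_inv₀, map_natCast, map_sum]
      congr 1
      refine Finset.sum_congr rfl fun k _ => ?_
      rw [map_mul, map_pow, map_inv₀, map_pow, hσζ, ← AlgEquiv.mul_apply, ← pow_succ',
        pow_succ ((ζ ^ i)⁻¹) k, ← mul_assoc, ← mul_assoc, mul_comm (ζ ^ i) (((ζ ^ i)⁻¹) ^ k),
        mul_assoc (((ζ ^ i)⁻¹) ^ k), mul_inv_cancel₀ hζi, mul_one]
    have h2 : ∑ k ∈ Finset.range p, g i (k + 1) = ∑ k ∈ Finset.range p, g i k := by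
      have e1 := Finset.sum_range_succ' (g i) p
      have e2 := Finset.sum_range_succ (g i) p
      have e3 : g i p = g i 0 := by
        have e4 : ((ζ ^ i)⁻¹) ^ p = 1 := by
          rw [inv_pow, ← pow_mul, mul_comm i p, pow_mul, hζ.pow_eq_one, one_pow, inv_one]
        simp only [hg]
        rw [hσp, e4, pow_zero, pow_zero, AlgEquiv.one_apply]
      rw [e2, e3] at e1
      exact (add_right_cancel e1).symm
    rw [h1, ← Finset.mul_sum, h2, hzc]
    ring
  -- (c) `zc i / b ^ i` is fixed by the stabiliser of `ζ`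
  have hHFzc : ∀ i : ℕ, ∀ τ ∈ I, τ ζ = ζ → τ b = b → τ (zc i) = zc i := by
    intro i τ hτ hτζ hτb
    simp only [hzc, hg]
    rw [map_mul, map_inv₀, map_natCast, map_sum]
    congr 1
    refine Finset.sum_congr rfl fun k _ => ?_
    rw [map_mul, map_pow, map_inv₀, map_pow, hτζ, hHFpow k τ hτ hτζ hτb]
  have hafix : ∀ i : ℕ, ∀ τ ∈ I, τ ζ = ζ → τ (zc i * (b ^ i)⁻¹) = zc i * (b ^ i)⁻¹ := by
    intro i
    have hσa : σ (zc i * (b ^ i)⁻¹) = zc i * (b ^ i)⁻¹ := by
      have hζi : ζ ^ i ≠ 0 := pow_ne_zero i hζ0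
      rw [map_mul, map_inv₀, map_pow, hσzc, hσb, mul_pow, mul_inv, ← mul_assoc,
        mul_comm (ζ ^ i) (zc i), mul_assoc (zc i), mul_inv_cancel₀ hζi, mul_one]
    have hHa : ∀ ρ ∈ I, ρ ζ = ζ → ρ b = b → ρ (zc i * (b ^ i)⁻¹) = zc i * (b ^ i)⁻¹ := by
      intro ρ hρ hρζ hρb
      rw [map_mul, map_inv₀, map_pow, hHFzc i ρ hρ hρζ hρb, hρb]
    intro τ hτ hτζ
    obtain ⟨j, hj⟩ := hb τ hτ
    have hσjζ : (σ ^ j) ζ = ζ := pow_apply_fixed σ hσζ j
    have hσjb : (σ ^ j) b = ζ ^ j * b := by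
      rw [pow_apply_kummer σ 1 hσζ hσb' j, one_mul]
    have hinvζ : (σ ^ j)⁻¹ ζ = ζ := by
      have h := congrArg ((σ ^ j)⁻¹ : GQb) hσjζ
      rw [← AlgEquiv.mul_apply, inv_mul_cancel, AlgEquiv.one_apply] at h
      exact h.symm
    have hρI : (σ ^ j)⁻¹ * τ ∈ I := I.mul_mem (I.inv_mem (I.pow_mem hσ j)) hτ
    have hρζ : ((σ ^ j)⁻¹ * τ) ζ = ζ := by rw [AlgEquiv.mul_apply, hτζ, hinvζ]
    have hρb : ((σ ^ j)⁻¹ * τ) b = b := by
      rw [AlgEquiv.mul_apply, hj, ← hσjb, ← AlgEquiv.mul_apply, inv_mul_cancel,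
        AlgEquiv.one_apply]
    have h1 := hHa _ hρI hρζ hρb
    have h2 : (σ ^ j) (((σ ^ j)⁻¹ * τ) (zc i * (b ^ i)⁻¹)) = τ (zc i * (b ^ i)⁻¹) := by
      rw [AlgEquiv.mul_apply, ← AlgEquiv.mul_apply (σ ^ j) (σ ^ j)⁻¹, mul_inv_cancel,
        AlgEquiv.one_apply]
    rw [← h2, h1]
    exact pow_apply_fixed σ hσa j
  -- (d) valuations of the resolvents
  have hval : ∀ i : ℕ, zc i ≠ 0 → ∃ n : ℤ, A.valuation (zc i) ^ p
      = A.valuation (ζ - 1) ^ ((p : ℤ) * n + ((p - 1 : ℕ) : ℤ) * m * (i : ℤ)) := by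
    intro i hi
    have hbi : (b ^ i)⁻¹ ≠ 0 := inv_ne_zero (pow_ne_zero i hb0)
    obtain ⟨n, hn⟩ := exists_valuation_eq_zpow_lam_of_fixed A hp hA hζ (zc i * (b ^ i)⁻¹)
      (mul_ne_zero hi hbi) (hafix i)
    refine ⟨n, ?_⟩
    have e1 : zc i = (zc i * (b ^ i)⁻¹) * b ^ i := by
      rw [mul_assoc, inv_mul_cancel₀ (pow_ne_zero i hb0), mul_one]
    have e2 : A.valuation (b ^ i) ^ p
        = A.valuation (ζ - 1) ^ (((p - 1 : ℕ) : ℤ) * m * (i : ℤ)) := by
      have h1 : A.valuation (b ^ i) ^ p = A.valuation (b ^ p) ^ i := by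
        rw [← map_pow, ← map_pow, ← pow_mul, ← pow_mul, mul_comm]
      rw [h1, hm, ← hlam.2, ← zpow_natCast (A.valuation (ζ - 1)) (p - 1), ← zpow_mul,
        ← zpow_natCast _ i, ← zpow_mul]
    rw [e1, map_mul, mul_pow, hn, e2, ← zpow_natCast (A.valuation (ζ - 1) ^ n) p, ← zpow_mul,
      ← zpow_add₀ hpos.ne', mul_comm n (p : ℤ)]
  -- (e) the nonzero resolvents have pairwise distinct valuations
  have hdist : ∀ i ∈ Finset.range p, ∀ j ∈ Finset.range p, A.valuation (zc i) ≠ 0 →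
      A.valuation (zc i) = A.valuation (zc j) → i = j := by
    intro i hi j hj h0 h
    have hi0 : zc i ≠ 0 := by rwa [Ne, map_eq_zero] at h0
    have hj0 : zc j ≠ 0 := by rw [h] at h0; rwa [Ne, map_eq_zero] at h0
    obtain ⟨n, hn⟩ := hval i hi0
    obtain ⟨n', hn'⟩ := hval j hj0
    have he := zpow_right_injective₀ hpos hlam.1.ne (hn.symm.trans ((congrArg (· ^ p) h).trans hn'))
    have he' : (p : ℤ) * n + ((p - 1 : ℕ) : ℤ) * m * (i : ℤ)
        = (p : ℤ) * n' + ((p - 1 : ℕ) : ℤ) * m * (j : ℤ) := he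
    have hd : (p : ℤ) ∣ ((p - 1 : ℕ) : ℤ) * m * ((i : ℤ) - (j : ℤ)) := ⟨n' - n, by linarith⟩
    have hd' : (p : ℤ) ∣ (i : ℤ) - (j : ℤ) := by
      rcases hprime.dvd_or_dvd hd with h1 | h1
      · rcases hprime.dvd_or_dvd h1 with h2 | h2
        · exact absurd h2 hp1not
        · exact absurd h2 hpm
      · exact h1
    have hi' := Finset.mem_range.mp hi
    have hj' := Finset.mem_range.mp hj
    have habs : |(i : ℤ) - (j : ℤ)| < (p : ℤ) := by
      rw [abs_lt]
      constructor <;> omega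
    have h0' := Int.eq_zero_of_abs_lt_dvd hd' habs
    omega
  have hle := (val_sum_of_distinct A.valuation (Finset.range p) zc hdist).1
  rw [hsum] at hle
  have hz1 : A.valuation z ≤ 1 := (A.valuation_le_one_iff z).mpr hzA
  -- (g) the resolvents of index `≥ 1` are deep
  have hdeep : ∀ i ∈ Finset.range p, i ≠ 0 → A.valuation (zc i) ^ p ≤ A.valuation (ζ - 1) := by
    intro i hi hi0
    by_cases hz0 : zc i = 0
    · rw [hz0, map_zero, zero_pow hp.ne_zero]
      exact zero_le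
    obtain ⟨n, hn⟩ := hval i hz0
    have h1 : A.valuation (zc i) ^ p ≤ 1 := pow_le_one₀ zero_le ((hle i hi).trans hz1)
    rw [hn] at h1 ⊢
    have h2 : 0 ≤ (p : ℤ) * n + ((p - 1 : ℕ) : ℤ) * m * (i : ℤ) :=
      (zpow_le_one_iff_right_of_lt_one₀ hpos hlam.1).mp h1
    have h3 : (p : ℤ) * n + ((p - 1 : ℕ) : ℤ) * m * (i : ℤ) ≠ 0 := by
      intro h0
      have hd : (p : ℤ) ∣ ((p - 1 : ℕ) : ℤ) * m * (i : ℤ) := ⟨-n, by linarith⟩
      rcases hprime.dvd_or_dvd hd with h4 | h4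
      · rcases hprime.dvd_or_dvd h4 with h5 | h5
        · exact hp1not h5
        · exact hpm h5
      · have h5 : p ∣ i := by exact_mod_cast h4
        have h6 := Nat.le_of_dvd (Nat.pos_of_ne_zero hi0) h5
        have := Finset.mem_range.mp hi
        omega
    have h4 := zpow_le_zpow_right_of_le_one₀ hpos hlam.1.le
      (show (1 : ℤ) ≤ (p : ℤ) * n + ((p - 1 : ℕ) : ℤ) * m * (i : ℤ) by omega)
    rwa [zpow_one] at h4
  -- (h) `σ z - z` in terms of the resolvents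
  have hdiff : σ z - z = ∑ i ∈ Finset.range p, (ζ ^ i - 1) * zc i := by
    conv_lhs => rw [← hsum]
    rw [map_sum, ← Finset.sum_sub_distrib]
    refine Finset.sum_congr rfl fun i _ => ?_
    rw [hσzc i]
    ring
  -- (i) every term is deep
  have hterm : ∀ i ∈ Finset.range p,
      A.valuation ((ζ ^ i - 1) * zc i) ^ p ≤ A.valuation (ζ - 1) ^ (p + 1) := by
    intro i hi
    by_cases hi0 : i = 0
    · subst hi0
      rw [pow_zero, sub_self, zero_mul, map_zero, zero_pow hp.ne_zero]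
      exact zero_le
    have h1 : A.valuation (ζ ^ i - 1) ≤ A.valuation (ζ - 1) := by
      rw [← mul_geom_sum ζ i, map_mul]
      have h2 : A.valuation (∑ k ∈ Finset.range i, ζ ^ k) ≤ 1 := by
        rw [A.valuation_le_one_iff]
        exact sum_mem fun k _ => pow_mem (zeta_mem A hp hζ) k
      calc A.valuation (ζ - 1) * A.valuation (∑ k ∈ Finset.range i, ζ ^ k)
          ≤ A.valuation (ζ - 1) * 1 := by gcongr
        _ = A.valuation (ζ - 1) := mul_one _
    rw [map_mul, mul_pow, pow_succ]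
    exact mul_le_mul' (pow_le_pow_left₀ zero_le h1 p) (hdeep i hi hi0)
  -- (j) conclusion
  obtain ⟨i₀, hi₀, hmax⟩ := Finset.exists_max_image (Finset.range p)
    (fun i => A.valuation ((ζ ^ i - 1) * zc i)) ⟨0, Finset.mem_range.mpr hp.pos⟩
  have hfin : A.valuation (σ z - z) ≤ A.valuation ((ζ ^ i₀ - 1) * zc i₀) := by
    rw [hdiff]
    exact A.valuation.map_sum_le hmax
  exact (pow_le_pow_left₀ zero_le hfin p).trans (hterm i₀ hi₀)

end Lam

end Fermat.Agent.S44.G.Ram
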