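import Mathlib.AlgebraicGeometry.EllipticCurve.Affine.Point
import Mathlib.RingTheory.Valuation.Integers
import Mathlib.RingTheory.Ideal.Quotient.Operations
import Mathlib.Tactic.LinearCombination
import Mathlib.Tactic.FieldSimp
import Fermat.Agent.Lib.KerRedGen

set_option autoImplicit false

/-!
# Program MR (S44), strand G: the sign-refined estimate in the kernel of reduction

`K` a field with a valuation `v`, `W` a Weierstrass curve over `K` with `v`-integral coefficients,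
`T = (x, y)` an affine point of the kernel of reduction (`1 < v x`), `t(T) = x / y` its parameter.
The landed `Lib/KerRedGen` gives `x(kT)⁻¹ ≡ k² x(T)⁻¹`, which determines `t(kT)` only up to sign.
Here: for a point `T` of prime order `p` with `v k = 1` for `0 < k < p`,

  `v (t(kT) - k t(T)) < v (t(T))`   for all `0 < k < p`.

Consequently an automorphism acting on `T` by `T ↦ kT` multiplies `t(T)` by `k` modulo the
maximal ideal; this is what pins `σ T = χ(σ) T` (and not `-χ(σ) T`) for `σ` in inertia.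
-/

namespace Fermat.Agent.S44.G.Sign

open WeierstrassCurve WeierstrassCurve.Affine
open Fermat.Agent.Lib.TorsionCard Fermat.Agent.Lib.KerRedGen

variable {K : Type*} [Field K] {Γ₀ : Type*} [LinearOrderedCommGroupWithZero Γ₀]
  (v : Valuation K Γ₀) {W : WeierstrassCurve.Affine K}

/-- A point of the kernel of reduction of an integral model: `v x < v y`, `v y ^ 2 = v x ^ 3`,
and `y² ≡ x³` to higher order. -/
theorem val_kernel (h₁ : v W.a₁ ≤ 1) (h₂ : v W.a₂ ≤ 1) (h₃ : v W.a₃ ≤ 1) (h₄ : v W.a₄ ≤ 1)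
    (h₆ : v W.a₆ ≤ 1) {x y : K} (E : W.Equation x y) (hx : 1 < v x) :
    v x < v y ∧ v y ^ 2 = v x ^ 3 ∧ v (y ^ 2 - x ^ 3) < v x ^ 3 := by
  rw [Affine.equation_iff] at E
  have hx0 : 0 < v x := lt_trans zero_lt_one hx
  have hxx : v x < v x ^ 2 := by
    calc v x = v x * 1 := (mul_one _).symm
      _ < v x * v x := mul_lt_mul_of_pos_left hx hx0
      _ = v x ^ 2 := (sq _).symm
  have hxx0 : 0 < v x ^ 2 := lt_trans hx0 hxx
  have hxxx : v x ^ 2 < v x ^ 3 := by
    calc v x ^ 2 = v x ^ 2 * 1 := (mul_one _).symm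
      _ < v x ^ 2 * v x := mul_lt_mul_of_pos_left hx hxx0
      _ = v x ^ 3 := (pow_succ (v x) 2).symm
  have hone : (1 : Γ₀) < v x ^ 3 := lt_trans hx (lt_trans hxx hxxx)
  have t2 : v (W.a₂ * x ^ 2) < v x ^ 3 := by
    rw [map_mul, map_pow]
    calc v W.a₂ * v x ^ 2 ≤ 1 * v x ^ 2 := mul_le_mul' h₂ le_rfl
      _ = v x ^ 2 := one_mul _
      _ < v x ^ 3 := hxxx
  have t4 : v (W.a₄ * x) < v x ^ 3 := by
    rw [map_mul]
    calc v W.a₄ * v x ≤ 1 * v x := mul_le_mul' h₄ le_rfl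
      _ = v x := one_mul _
      _ < v x ^ 2 := hxx
      _ < v x ^ 3 := hxxx
  have t6 : v W.a₆ < v x ^ 3 := lt_of_le_of_lt h₆ hone
  have hR : v (x ^ 3 + W.a₂ * x ^ 2 + W.a₄ * x + W.a₆) = v x ^ 3 := by
    have s1 : v (x ^ 3 + W.a₂ * x ^ 2) = v x ^ 3 := by
      rw [v.map_add_eq_of_lt_left (by rw [map_pow]; exact t2), map_pow]
    have s2 : v (x ^ 3 + W.a₂ * x ^ 2 + W.a₄ * x) = v x ^ 3 := by
      rw [v.map_add_eq_of_lt_left (by rw [s1]; exact t4), s1]
    rw [v.map_add_eq_of_lt_left (by rw [s2]; exact t6), s2]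
  have hlt : v x < v y := by
    by_contra hcon
    rw [not_lt] at hcon
    have u1 : v (y ^ 2) ≤ v x ^ 2 := by
      rw [map_pow]
      exact pow_le_pow_left₀ zero_le hcon 2
    have u2 : v (W.a₁ * x * y) ≤ v x ^ 2 := by
      rw [map_mul, map_mul, sq]
      calc v W.a₁ * v x * v y ≤ 1 * v x * v x := mul_le_mul' (mul_le_mul' h₁ le_rfl) hcon
        _ = v x * v x := by rw [one_mul]
    have u3 : v (W.a₃ * y) ≤ v x ^ 2 := by
      rw [map_mul]
      calc v W.a₃ * v y ≤ 1 * v x := mul_le_mul' h₃ hcon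
        _ = v x := one_mul _
        _ ≤ v x ^ 2 := hxx.le
    have u4 : v (y ^ 2 + W.a₁ * x * y + W.a₃ * y) ≤ v x ^ 2 :=
      v.map_add_le (v.map_add_le u1 u2) u3
    rw [E, hR] at u4
    exact absurd hxxx (not_lt.mpr u4)
  have hy0 : 0 < v y := lt_trans hx0 hlt
  have hy1 : 1 < v y := lt_trans hx hlt
  have hyy : v y < v y ^ 2 := by
    calc v y = v y * 1 := (mul_one _).symm
      _ < v y * v y := mul_lt_mul_of_pos_left hy1 hy0
      _ = v y ^ 2 := (sq _).symm
  have w1 : v (W.a₁ * x * y) < v y ^ 2 := by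
    rw [map_mul, map_mul, sq]
    calc v W.a₁ * v x * v y ≤ 1 * v x * v y := mul_le_mul' (mul_le_mul' h₁ le_rfl) le_rfl
      _ = v x * v y := by rw [one_mul]
      _ < v y * v y := mul_lt_mul_of_pos_right hlt hy0
  have w3 : v (W.a₃ * y) < v y ^ 2 := by
    rw [map_mul]
    calc v W.a₃ * v y ≤ 1 * v y := mul_le_mul' h₃ le_rfl
      _ = v y := one_mul _
      _ < v y ^ 2 := hyy
  have hL : v (y ^ 2 + W.a₁ * x * y + W.a₃ * y) = v y ^ 2 := by
    have s1 : v (y ^ 2 + W.a₁ * x * y) = v y ^ 2 := by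
      rw [v.map_add_eq_of_lt_left (by rw [map_pow]; exact w1), map_pow]
    rw [v.map_add_eq_of_lt_left (by rw [s1]; exact w3), s1]
  have hyx : v y ^ 2 = v x ^ 3 := by rw [← hL, E, hR]
  refine ⟨hlt, hyx, ?_⟩
  have e : y ^ 2 - x ^ 3 = W.a₂ * x ^ 2 + W.a₄ * x + W.a₆ - W.a₁ * x * y - W.a₃ * y := by
    linear_combination E
  rw [e]
  refine v.map_sub_lt (v.map_sub_lt (v.map_add_lt (v.map_add_lt t2 t4) t6) ?_) ?_
  · rw [← hyx]; exact w1
  · rw [← hyx]; exact w3

/-- In the kernel of reduction `v y < v x ^ 2`. -/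
theorem val_y_lt_sq {x y : K} (hx : 1 < v x) (hy : v y ^ 2 = v x ^ 3) : v y < v x ^ 2 := by
  have hx0 : 0 < v x := lt_trans zero_lt_one hx
  by_contra hcon
  rw [not_lt] at hcon
  have h1 : (v x ^ 2) ^ 2 ≤ v y ^ 2 := pow_le_pow_left₀ zero_le hcon 2
  rw [hy] at h1
  have h2 : v x ^ 3 < (v x ^ 2) ^ 2 := by
    have h3 : 0 < v x ^ 3 := pow_pos hx0 3
    calc v x ^ 3 = v x ^ 3 * 1 := (mul_one _).symm
      _ < v x ^ 3 * v x := mul_lt_mul_of_pos_left hx h3
      _ = (v x ^ 2) ^ 2 := by rw [← pow_succ, ← pow_mul]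
  exact absurd h2 (not_lt.mpr h1)

/-- The chord through two points `(x₁, y₁)`, `(x, y)` of the kernel of reduction with
`v x₁ = v x`: `(x₃ + x₁ + x)(x₁ - x)² ≡ (y₁ - y)²` to higher order. -/
theorem chord_cong [DecidableEq K] (h₁ : v W.a₁ ≤ 1) (h₂ : v W.a₂ ≤ 1) {x y x₁ y₁ : K}
    (hx : 1 < v x) (hx₁ : v x₁ = v x) (hy : v y ^ 2 = v x ^ 3) (hy₁ : v y₁ ^ 2 = v x ^ 3)
    (hne : x₁ ≠ x) :
    v ((W.addX x₁ x (W.slope x₁ x y₁ y) + x₁ + x) * (x₁ - x) ^ 2 - (y₁ - y) ^ 2) < v x ^ 3 := by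
  have hx0 : 0 < v x := lt_trans zero_lt_one hx
  have hd : x₁ - x ≠ 0 := sub_ne_zero.mpr hne
  have e : (W.addX x₁ x (W.slope x₁ x y₁ y) + x₁ + x) * (x₁ - x) ^ 2 - (y₁ - y) ^ 2
      = W.a₁ * (y₁ - y) * (x₁ - x) - W.a₂ * (x₁ - x) ^ 2 := by
    rw [Affine.slope_of_X_ne hne, Affine.addX]
    field_simp
    ring
  have hyy : v y₁ = v y := by
    have : v y₁ ^ 2 = v y ^ 2 := by rw [hy₁, hy]
    exact (pow_left_inj₀ zero_le zero_le two_ne_zero).mp this
  have hdx : v (x₁ - x) ≤ v x := v.map_sub_le hx₁.le le_rfl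
  have hdy : v (y₁ - y) ≤ v y := v.map_sub_le hyy.le le_rfl
  have hylt : v y < v x ^ 2 := val_y_lt_sq v hx hy
  have hxx : v x ^ 2 < v x ^ 3 := by
    have hxx0 : 0 < v x ^ 2 := pow_pos hx0 2
    calc v x ^ 2 = v x ^ 2 * 1 := (mul_one _).symm
      _ < v x ^ 2 * v x := mul_lt_mul_of_pos_left hx hxx0
      _ = v x ^ 3 := (pow_succ (v x) 2).symm
  rw [e]
  refine v.map_sub_lt ?_ ?_
  · rw [map_mul, map_mul]
    calc v W.a₁ * v (y₁ - y) * v (x₁ - x) ≤ 1 * v y * v x :=
          mul_le_mul' (mul_le_mul' h₁ hdy) hdx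
      _ = v y * v x := by rw [one_mul]
      _ < v x ^ 2 * v x := mul_lt_mul_of_pos_right hylt hx0
      _ = v x ^ 3 := (pow_succ (v x) 2).symm
  · rw [map_mul, map_pow]
    calc v W.a₂ * v (x₁ - x) ^ 2 ≤ 1 * v x ^ 2 :=
          mul_le_mul' h₂ (pow_le_pow_left₀ zero_le hdx 2)
      _ = v x ^ 2 := one_mul _
      _ < v x ^ 3 := hxx

/-! ### The residue ring `O_v / m_v` -/

/-- An integral element is in the maximal ideal iff its valuation is `< 1`. -/
theorem mk_eq_zero_iff (a : v.integer) :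
    Ideal.Quotient.mk (v.ltIdeal 1) a = 0 ↔ v (a : K) < 1 := by
  rw [Ideal.Quotient.eq_zero_iff_mem, Valuation.mem_ltIdeal_iff, Units.val_one]

/-- The algebra behind the sign: `c²X = 1`, `(c+1)²X' = 1`, the chord relation and
`c³Y = -1` force `4c³(c+1)² = 0`. -/
theorem sign_cert {R : Type*} [CommRing R] (c X X' Y : R)
    (h1 : c ^ 2 * X = 1) (h2 : (c + 1) ^ 2 * X' = 1)
    (h3 : (X' + X + 1) * (X - 1) ^ 2 = (Y - 1) ^ 2) (h4 : c ^ 3 * Y = -1) :
    4 * c ^ 3 * (c + 1) ^ 2 = 0 := by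
  linear_combination (-(c ^ 6 * (c + 1) ^ 2)) * h3
    + ((c ^ 2 + (c + 1) ^ 2 + c ^ 2 * (c + 1) ^ 2) * (2 * (1 - c ^ 2) + (c ^ 2 * X - 1))
        + (c + 1) ^ 2 * ((1 - c ^ 2) + (c ^ 2 * X - 1)) ^ 2) * h1
    + (c ^ 2 * ((1 - c ^ 2) + (c ^ 2 * X - 1)) ^ 2) * h2
    - ((c + 1) ^ 2 * (-2 * (1 + c ^ 3) + (c ^ 3 * Y + 1))) * h4

/-- **The sign-refined estimate, chord case.** `T = (x, y)` in the kernel of reduction,
`kT = (x', y')` with `x' ≠ x`, and `k`, `k + 1`, `4` units: `t(kT) ≡ k t(T)`. -/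
theorem param_of_chord [DecidableEq K] (h₁ : v W.a₁ ≤ 1) (h₂ : v W.a₂ ≤ 1) (h₃ : v W.a₃ ≤ 1)
    (h₄ : v W.a₄ ≤ 1) (h₆ : v W.a₆ ≤ 1) {x y x' y' : K} (hT : W.Nonsingular x y)
    (hT' : W.Nonsingular x' y') (hx : 1 < v x) {k : ℕ}
    (hk : k • Point.some x y hT = Point.some x' y' hT') (hne : x' ≠ x)
    (hku : v (k : K) = 1) (hk1u : v ((k + 1 : ℕ) : K) = 1) (h4u : v (4 : K) = 1) :
    v (x' / y' - (k : K) * (x / y)) < v (x / y) := by
  have hW : BInt v W := BInt.of_a h₁ h₂ h₃ h₄ h₆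
  have hP : HasXc W (Point.some x y hT) x := hasXc_some hT
  have hx0 : 0 < v x := lt_trans zero_lt_one hx
  have hxne : x ≠ 0 := (v.ne_zero_iff).mp hx0.ne'
  obtain ⟨hxy, hyx, hrho⟩ := val_kernel v h₁ h₂ h₃ h₄ h₆ hT.1 hx
  have hy0 : 0 < v y := lt_trans hx0 hxy
  have hyne : y ≠ 0 := (v.ne_zero_iff).mp hy0.ne'
  -- the point `kT`
  have hP' : HasXc W (k • Point.some x y hT) x' := by rw [hk]; exact hasXc_some hT'
  have hvx' : v x' = v x := val_eq_of_hasXc_nsmul hW hP hx hku hP'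
  have hx' : 1 < v x' := by rw [hvx']; exact hx
  obtain ⟨-, hyx', hrho'⟩ := val_kernel v h₁ h₂ h₃ h₄ h₆ hT'.1 hx'
  rw [hvx'] at hyx' hrho'
  obtain ⟨hx'ne, hest⟩ := (nsmul_kernel hW hP hx k).2 x' hP'
  have hvy' : v y' = v y := by
    have : v y' ^ 2 = v y ^ 2 := by rw [hyx', hyx]
    exact (pow_left_inj₀ zero_le zero_le two_ne_zero).mp this
  have hy'ne : y' ≠ 0 := (v.ne_zero_iff).mp (by rw [hvy']; exact hy0.ne')
  -- the point `(k+1)T`
  have hadd : (k + 1) • Point.some x y hT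
      = Point.some _ _ (nonsingular_add hT' hT fun hxy' => hne hxy'.left) := by
    rw [succ_nsmul, hk]
    exact Point.add_of_X_ne hne
  have hP'' : HasXc W ((k + 1) • Point.some x y hT) (W.addX x' x (W.slope x' x y' y)) := by
    rw [hadd]; exact hasXc_some _
  have hvx'' : v (W.addX x' x (W.slope x' x y' y)) = v x :=
    val_eq_of_hasXc_nsmul hW hP hx hk1u hP''
  obtain ⟨hx''ne, hest''⟩ := (nsmul_kernel hW hP hx (k + 1)).2 _ hP''
  have hchord := chord_cong (W := W) v h₁ h₂ hx hvx' hyx hyx' hne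
  -- notation
  set x'' := W.addX x' x (W.slope x' x y' y) with hx''def
  have hx3 : 0 < v x ^ 3 := pow_pos hx0 3
  have hvinv : v x⁻¹ * v x = 1 := by
    rw [map_inv₀]; exact inv_mul_cancel₀ hx0.ne'
  -- integral ratios
  have hξ : v (x' / x) = 1 := by rw [map_div₀, hvx']; exact div_self hx0.ne'
  have hξ'' : v (x'' / x) = 1 := by rw [map_div₀, hvx'']; exact div_self hx0.ne'
  have hη : v (y' / y) = 1 := by rw [map_div₀, hvy']; exact div_self hy0.ne'
  let ξ : v.integer := ⟨x' / x, hξ.le⟩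
  let ξ'' : v.integer := ⟨x'' / x, hξ''.le⟩
  let η : v.integer := ⟨y' / y, hη.le⟩
  let π := Ideal.Quotient.mk (v.ltIdeal 1)
  -- relation 1 : k² ξ ≡ 1
  have r1 : (k : v.integer ⧸ v.ltIdeal 1) ^ 2 * π ξ = 1 := by
    have : π ((k : v.integer) ^ 2 * ξ - 1) = 0 := by
      rw [mk_eq_zero_iff]
      push_cast
      have e : (k : K) ^ 2 * (x' / x) - 1 = -((x'⁻¹ - (k : K) ^ 2 * x⁻¹) * x') := by
        field_simp
        ring
      rw [e, Valuation.map_neg, map_mul, hvx']
      calc v (x'⁻¹ - (k : K) ^ 2 * x⁻¹) * v x < v x⁻¹ * v x := mul_lt_mul_of_pos_right hest hx0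
        _ = 1 := hvinv
    rw [map_sub, map_mul, map_pow, map_natCast, map_one, sub_eq_zero] at this
    exact this
  -- relation 2 : (k+1)² ξ'' ≡ 1
  have r2 : ((k : v.integer ⧸ v.ltIdeal 1) + 1) ^ 2 * π ξ'' = 1 := by
    have : π (((k + 1 : ℕ) : v.integer) ^ 2 * ξ'' - 1) = 0 := by
      rw [mk_eq_zero_iff]
      push_cast
      have e : ((k : K) + 1) ^ 2 * (x'' / x) - 1
          = -((x''⁻¹ - (((k + 1 : ℕ) : K)) ^ 2 * x⁻¹) * x'') := by
        push_cast
        field_simp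
        ring
      rw [e, Valuation.map_neg, map_mul, hvx'']
      calc v (x''⁻¹ - (((k + 1 : ℕ) : K)) ^ 2 * x⁻¹) * v x < v x⁻¹ * v x :=
            mul_lt_mul_of_pos_right hest'' hx0
        _ = 1 := hvinv
    rw [map_sub, map_mul, map_pow, map_natCast, map_one, sub_eq_zero] at this
    push_cast at this
    exact this
  -- `ρ = y² / x³ ≡ 1`
  have hrho1 : v (y ^ 2 / x ^ 3 - 1) < 1 := by
    have e : y ^ 2 / x ^ 3 - 1 = (y ^ 2 - x ^ 3) / x ^ 3 := by
      field_simp
    rw [e, map_div₀, map_pow]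
    exact (div_lt_one₀ hx3).mpr hrho
  -- relation 3 : the chord
  have r3 : (π ξ'' + π ξ + 1) * (π ξ - 1) ^ 2 = (π η - 1) ^ 2 := by
    have : π ((ξ'' + ξ + 1) * (ξ - 1) ^ 2 - (η - 1) ^ 2) = 0 := by
      rw [mk_eq_zero_iff]
      push_cast
      have e : (x'' / x + x' / x + 1) * (x' / x - 1) ^ 2 - (y' / y - 1) ^ 2
          = ((x'' + x' + x) * (x' - x) ^ 2 - (y' - y) ^ 2) / x ^ 3
            + (y' / y - 1) ^ 2 * (y ^ 2 / x ^ 3 - 1) := by
        field_simp
        ring
      rw [e]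
      refine v.map_add_lt ?_ ?_
      · rw [map_div₀, map_pow]
        exact (div_lt_one₀ hx3).mpr hchord
      · rw [map_mul, map_pow]
        have hle : v (y' / y - 1) ≤ 1 := v.map_sub_le hη.le (by rw [map_one])
        calc v (y' / y - 1) ^ 2 * v (y ^ 2 / x ^ 3 - 1)
            ≤ 1 * v (y ^ 2 / x ^ 3 - 1) := mul_le_mul' (pow_le_one₀ zero_le hle) le_rfl
          _ = v (y ^ 2 / x ^ 3 - 1) := one_mul _
          _ < 1 := hrho1
    rw [map_sub, map_mul, map_pow, map_pow, map_sub, map_sub, map_add, map_add, map_one,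
      sub_eq_zero] at this
    exact this
  -- relation 5 : η² ≡ ξ³
  have r5 : π η ^ 2 = π ξ ^ 3 := by
    have : π (η ^ 2 - ξ ^ 3) = 0 := by
      rw [mk_eq_zero_iff]
      push_cast
      have e : (y' / y) ^ 2 - (x' / x) ^ 3
          = (y' ^ 2 - x' ^ 3) / y ^ 2 - (x' / x) ^ 3 * ((y ^ 2 - x ^ 3) / y ^ 2) := by
        field_simp
        ring
      rw [e]
      refine v.map_sub_lt ?_ ?_
      · rw [map_div₀, map_pow, hyx]
        exact (div_lt_one₀ hx3).mpr hrho'
      · rw [map_mul, map_pow, hξ, one_pow, one_mul, map_div₀, map_pow, hyx]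
        exact (div_lt_one₀ hx3).mpr hrho
    rw [map_sub, map_pow, map_pow, sub_eq_zero] at this
    exact this
  -- the dichotomy `k³ η ≡ ± 1`
  have hprod : π (((k : v.integer) ^ 3 * η - 1) * ((k : v.integer) ^ 3 * η + 1)) = 0 := by
    rw [map_mul, map_sub, map_add, map_mul, map_pow, map_natCast, map_one]
    linear_combination (k : v.integer ⧸ v.ltIdeal 1) ^ 6 * r5
      + ((k : v.integer ⧸ v.ltIdeal 1) ^ 4 * π ξ ^ 2
          + (k : v.integer ⧸ v.ltIdeal 1) ^ 2 * π ξ + 1) * r1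
  rw [mk_eq_zero_iff] at hprod
  push_cast at hprod
  have hA1 : v ((k : K) ^ 3 * (y' / y) - 1) ≤ 1 :=
    v.map_sub_le (by rw [map_mul, map_pow, hku, hη, one_pow, one_mul]) (by rw [map_one])
  have hB1 : v ((k : K) ^ 3 * (y' / y) + 1) ≤ 1 :=
    v.map_add_le (by rw [map_mul, map_pow, hku, hη, one_pow, one_mul]) (by rw [map_one])
  have hdich : v ((k : K) ^ 3 * (y' / y) - 1) < 1 ∨ v ((k : K) ^ 3 * (y' / y) + 1) < 1 := by
    by_contra hcon
    rw [not_or, not_lt, not_lt] at hcon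
    have ha : v ((k : K) ^ 3 * (y' / y) - 1) = 1 := le_antisymm hA1 hcon.1
    have hb : v ((k : K) ^ 3 * (y' / y) + 1) = 1 := le_antisymm hB1 hcon.2
    rw [map_mul, ha, hb, one_mul] at hprod
    exact lt_irrefl _ hprod
  rcases hdich with hA | hB
  · -- the good sign
    have r4 : (k : v.integer ⧸ v.ltIdeal 1) ^ 3 * π η = 1 := by
      have : π ((k : v.integer) ^ 3 * η - 1) = 0 := by
        rw [mk_eq_zero_iff]
        push_cast
        exact hA
      rw [map_sub, map_mul, map_pow, map_natCast, map_one, sub_eq_zero] at this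
      exact this
    have hfin : π ((k : v.integer) ^ 2 * (ξ - (k : v.integer) * η)) = 0 := by
      rw [map_mul, map_sub, map_mul, map_pow, map_natCast]
      linear_combination r1 - r4
    rw [mk_eq_zero_iff] at hfin
    push_cast at hfin
    rw [map_mul, map_pow, hku, one_pow, one_mul] at hfin
    have hfin' : v (x' / x - (k : K) * (y' / y)) < 1 := hfin
    have e : x' / y' - (k : K) * (x / y) = (x / y) * ((x' / x - (k : K) * (y' / y)) / (y' / y)) := by
      field_simp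
    have hval : v ((x' / x - (k : K) * (y' / y)) / (y' / y)) = v (x' / x - (k : K) * (y' / y)) := by
      rw [map_div₀ v (x' / x - (k : K) * (y' / y)) (y' / y), hη, div_one]
    have hxy0 : 0 < v (x / y) := by
      rw [map_div₀]; exact div_pos hx0 hy0
    rw [e, map_mul, hval]
    calc v (x / y) * v (x' / x - (k : K) * (y' / y)) < v (x / y) * 1 :=
          mul_lt_mul_of_pos_left hfin' hxy0
      _ = v (x / y) := mul_one _
  · -- the bad sign is impossible
    exfalso
    have r4 : (k : v.integer ⧸ v.ltIdeal 1) ^ 3 * π η = -1 := by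
      have : π ((k : v.integer) ^ 3 * η + 1) = 0 := by
        rw [mk_eq_zero_iff]
        push_cast
        exact hB
      rw [map_add, map_mul, map_pow, map_natCast, map_one] at this
      linear_combination this
    have hcert := sign_cert (k : v.integer ⧸ v.ltIdeal 1) (π ξ) (π ξ'') (π η) r1 r2 r3 r4
    obtain ⟨four, hfour⟩ : ∃ n : ℕ, n = 4 := ⟨4, rfl⟩
    have h4u' : v ((four : ℕ) : K) = 1 := by
      rw [hfour, Nat.cast_ofNat]; exact h4u
    have : π ((four : v.integer) * (k : v.integer) ^ 3 * ((k + 1 : ℕ) : v.integer) ^ 2)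
        = 0 := by
      rw [map_mul, map_mul, map_pow, map_pow, map_natCast, map_natCast, map_natCast, hfour]
      push_cast
      exact hcert
    rw [mk_eq_zero_iff] at this
    push_cast at this
    have hk1u' : v ((k : K) + 1) = 1 := by
      have := hk1u
      push_cast at this
      exact this
    rw [map_mul, map_mul, map_pow, map_pow, h4u', hku, hk1u', one_pow, one_pow, one_mul,
      one_mul] at this
    exact lt_irrefl _ this

/-- **The sign-refined estimate for `-T`.** -/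
theorem param_neg (h₁ : v W.a₁ ≤ 1) (h₂ : v W.a₂ ≤ 1) (h₃ : v W.a₃ ≤ 1) (h₄ : v W.a₄ ≤ 1)
    (h₆ : v W.a₆ ≤ 1) {x y : K} (E : W.Equation x y) (hx : 1 < v x) :
    v (W.negY x y) = v y ∧ v (x / W.negY x y + x / y) < v (x / y) := by
  obtain ⟨hxy, -, -⟩ := val_kernel v h₁ h₂ h₃ h₄ h₆ E hx
  have hx0 : 0 < v x := lt_trans zero_lt_one hx
  have hy0 : 0 < v y := lt_trans hx0 hxy
  have hyne : y ≠ 0 := (v.ne_zero_iff).mp hy0.ne'
  have hsmall : v (W.a₁ * x + W.a₃) ≤ v x := by
    refine v.map_add_le ?_ (le_trans h₃ hx.le)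
    rw [map_mul]
    calc v W.a₁ * v x ≤ 1 * v x := mul_le_mul' h₁ le_rfl
      _ = v x := one_mul _
  have hnegY : W.negY x y = -y - (W.a₁ * x + W.a₃) := by
    rw [Affine.negY]; ring
  have hvn : v (W.negY x y) = v y := by
    rw [hnegY, v.map_sub_eq_of_lt_left (by rw [Valuation.map_neg]; exact lt_of_le_of_lt hsmall hxy),
      Valuation.map_neg]
  have hnne : W.negY x y ≠ 0 := (v.ne_zero_iff).mp (by rw [hvn]; exact hy0.ne')
  refine ⟨hvn, ?_⟩
  have e : x / W.negY x y + x / y = (x / y) * (-(W.a₁ * x + W.a₃) / W.negY x y) := by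
    field_simp
    rw [hnegY]
    ring
  have hxy0 : 0 < v (x / y) := by
    rw [map_div₀]; exact div_pos hx0 hy0
  rw [e, map_mul]
  have hlt : v (-(W.a₁ * x + W.a₃) / W.negY x y) < 1 := by
    rw [map_div₀, Valuation.map_neg, hvn]
    exact (div_lt_one₀ hy0).mpr (lt_of_le_of_lt hsmall hxy)
  calc v (x / y) * v (-(W.a₁ * x + W.a₃) / W.negY x y) < v (x / y) * 1 :=
        mul_lt_mul_of_pos_left hlt hxy0
    _ = v (x / y) := mul_one _

/-- **The sign-refined estimate.** `T = (x, y)` a point of prime order `p` in the kernel of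
reduction of an integral Weierstrass model, `v j = 1` for `0 < j < p`. For `0 < k < p` and
`kT = (x', y')`: `v (x'/y' - k (x/y)) < v (x/y)`, i.e. `t(kT) ≡ k t(T)` modulo `t(T) m_v`. -/
theorem val_param_nsmul [DecidableEq K] (h₁ : v W.a₁ ≤ 1) (h₂ : v W.a₂ ≤ 1) (h₃ : v W.a₃ ≤ 1)
    (h₄ : v W.a₄ ≤ 1) (h₆ : v W.a₆ ≤ 1) {p : ℕ} (hp : p.Prime)
    (hunit : ∀ j : ℕ, 0 < j → j < p → v (j : K) = 1) {x y : K} (hT : W.Nonsingular x y)
    (hx : 1 < v x) (hpT : p • Point.some x y hT = 0) {k : ℕ} (hk0 : 0 < k) (hkp : k < p)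
    {x' y' : K} (hT' : W.Nonsingular x' y')
    (hk : k • Point.some x y hT = Point.some x' y' hT') :
    v (x' / y' - (k : K) * (x / y)) < v (x / y) := by
  have hW : BInt v W := BInt.of_a h₁ h₂ h₃ h₄ h₆
  have hP : HasXc W (Point.some x y hT) x := hasXc_some hT
  obtain ⟨hxy, -, -⟩ := val_kernel v h₁ h₂ h₃ h₄ h₆ hT.1 hx
  have hx0 : 0 < v x := lt_trans zero_lt_one hx
  have hy0 : 0 < v y := lt_trans hx0 hxy
  have hxy0 : 0 < v (x / y) := by
    rw [map_div₀]; exact div_pos hx0 hy0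
  have hvp : v (p : K) < 1 := val_natCast_lt_one_of_nsmul_eq_zero hW hP hx hpT
  by_cases hxx : x' = x
  · -- `kT = ± T`
    subst hxx
    rcases Affine.Y_eq_of_X_eq hT'.1 hT.1 rfl with hyy | hyy
    · -- `kT = T`, so `k = 1`
      subst hyy
      have hk1 : (k - 1) • Point.some x' y' hT = 0 := by
        have h := hk
        obtain ⟨m, rfl⟩ : ∃ m, k = m + 1 := ⟨k - 1, by omega⟩
        rw [succ_nsmul] at h
        simpa using h
      have hk1' : k - 1 = 0 := by
        by_contra hcon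
        have h1 := (nsmul_kernel hW hP hx (k - 1)).1 hk1
        rw [hunit (k - 1) (by omega) (by omega)] at h1
        exact lt_irrefl _ h1
      have hk1'' : k = 1 := by omega
      subst hk1''
      rw [Nat.cast_one, one_mul, sub_self, map_zero]
      exact hxy0
    · -- `kT = -T`, so `k = p - 1`
      subst hyy
      have hneg : Point.some x' (W.negY x' y) hT' = -Point.some x' y hT := by
        rw [Point.neg_some]
      have hk1 : (k + 1) • Point.some x' y hT = 0 := by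
        rw [succ_nsmul, hk, hneg, neg_add_cancel]
      have hk1' : k + 1 = p := by
        by_contra hcon
        have h1 := (nsmul_kernel hW hP hx (k + 1)).1 hk1
        rw [hunit (k + 1) (by omega) (by omega)] at h1
        exact lt_irrefl _ h1
      obtain ⟨-, hneg'⟩ := param_neg v h₁ h₂ h₃ h₄ h₆ hT.1 hx
      have hkK : (k : K) = (p : K) - 1 := by
        rw [← hk1']; push_cast; ring
      have e : x' / W.negY x' y - (k : K) * (x' / y)
          = (x' / W.negY x' y + x' / y) - (p : K) * (x' / y) := by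
        rw [hkK]; ring
      rw [e]
      refine v.map_sub_lt hneg' ?_
      rw [map_mul]
      calc v (p : K) * v (x' / y) < 1 * v (x' / y) := mul_lt_mul_of_pos_right hvp hxy0
        _ = v (x' / y) := one_mul _
  · -- the chord case `2 ≤ k ≤ p - 2`
    have hk2 : 2 ≤ k := by
      by_contra hcon
      have hk1 : k = 1 := by omega
      subst hk1
      rw [one_nsmul] at hk
      exact hxx (Point.some.inj hk).1.symm
    have hkp2 : k + 1 < p := by
      by_contra hcon
      have hkp1 : k + 1 = p := by omega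
      have hneg : k • Point.some x y hT = -Point.some x y hT := by
        have h : k • Point.some x y hT + Point.some x y hT = 0 := by
          rw [← succ_nsmul, hkp1]; exact hpT
        exact eq_neg_of_add_eq_zero_left h
      rw [hk, Point.neg_some] at hneg
      exact hxx (Point.some.inj hneg).1
    have hp5 : 4 < p := by
      rcases Nat.lt_or_ge 4 p with h | h
      · exact h
      · exfalso
        have h3 : p = 4 := by omega
        rw [h3] at hp
        exact absurd hp (by decide)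
    have h4u : v (4 : K) = 1 := by
      have := hunit 4 (by norm_num) hp5
      rwa [Nat.cast_ofNat] at this
    exact param_of_chord v h₁ h₂ h₃ h₄ h₆ hT hT' hx hk hxx (hunit k hk0 hkp)
      (hunit (k + 1) (by omega) hkp2) h4u

/-! ### Consequences for an automorphism acting on `T` by `k` -/

/-- If `t = u λ`, `t' = u' λ'` with `u` a unit, `u' ≡ u`, `v λ' = v λ` and `t' ≡ k t` modulo
`t m_v`, then `λ' / λ ≡ k` modulo `m_v`. -/
theorem ratio_of_param {t t' l l' u u' k : K} (ht : t = u * l) (ht' : t' = u' * l')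
    (hu : v u = 1) (huu : v (u' - u) < 1) (hl : v l' = v l) (hl0 : l ≠ 0)
    (h : v (t' - k * t) < v t) : v (l' / l - k) < 1 := by
  have hl0' : 0 < v l := zero_lt_iff.mpr ((v.ne_zero_iff).mpr hl0)
  have hu0 : u ≠ 0 := (v.ne_zero_iff).mp (by rw [hu]; exact one_ne_zero)
  have hvt : v t = v l := by rw [ht, map_mul, hu, one_mul]
  have e : l' / l - k = ((t' - k * t) - (u' - u) * l') / (u * l) := by
    rw [ht, ht']
    field_simp
    ring
  rw [e, map_div₀, map_mul, hu, one_mul]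
  refine (div_lt_one₀ hl0').mpr (v.map_sub_lt (by rw [← hvt]; exact h) ?_)
  rw [map_mul, hl]
  calc v (u' - u) * v l < 1 * v l := mul_lt_mul_of_pos_right huu hl0'
    _ = v l := one_mul _

/-- `(z ^ n - 1) / (z - 1) ≡ n` modulo `m_v` when `z ≡ 1` (`z ≠ 1`). -/
theorem geom_ratio_cong {z : K} (hz : v (z - 1) < 1) (hz1 : z ≠ 1) (n : ℕ) :
    v ((z ^ n - 1) / (z - 1) - (n : K)) < 1 := by
  have hz0 : z - 1 ≠ 0 := sub_ne_zero.mpr hz1
  have hzle : v z ≤ 1 := by
    have e : z = (z - 1) + 1 := by ring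
    rw [e]
    exact v.map_add_le hz.le (by rw [map_one])
  induction n with
  | zero => simp
  | succ n ih =>
    have e : (z ^ (n + 1) - 1) / (z - 1) - ((n + 1 : ℕ) : K)
        = ((z ^ n - 1) / (z - 1) - (n : K)) + (z ^ n - 1) := by
      push_cast
      field_simp
      ring
    rw [e]
    refine v.map_add_lt ih ?_
    have e2 : z ^ n - 1 = (z - 1) * ((z ^ n - 1) / (z - 1)) := by
      field_simp
    have hint : v ((z ^ n - 1) / (z - 1)) ≤ 1 := by
      have e3 : (z ^ n - 1) / (z - 1) = ((z ^ n - 1) / (z - 1) - (n : K)) + (n : K) := by ring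
      rw [e3]
      exact v.map_add_le ih.le (val_natCast_le_one v n)
    rw [e2, map_mul]
    calc v (z - 1) * v ((z ^ n - 1) / (z - 1)) ≤ v (z - 1) * 1 := mul_le_mul' le_rfl hint
      _ = v (z - 1) := mul_one _
      _ < 1 := hz

/-- Two natural numbers congruent modulo `m_v` are congruent modulo `p`, when `v p < 1` and
`v j = 1` for `0 < j < p`. -/
theorem modEq_of_val_sub_lt_one {p : ℕ} (hp0 : 0 < p) (hvp : v (p : K) < 1)
    (hunit : ∀ j : ℕ, 0 < j → j < p → v (j : K) = 1) {a b : ℕ}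
    (h : v ((a : K) - (b : K)) < 1) : a ≡ b [MOD p] := by
  wlog hab : b ≤ a generalizing a b
  · have h' : v ((b : K) - (a : K)) < 1 := by rw [v.map_sub_swap]; exact h
    exact (this h' (by omega)).symm
  obtain ⟨d, rfl⟩ : ∃ d, a = b + d := ⟨a - b, by omega⟩
  have hd : v (d : K) < 1 := by
    have e : ((b + d : ℕ) : K) - (b : K) = (d : K) := by push_cast; ring
    rwa [e] at h
  have hmod : d % p = 0 := by
    by_contra hcon
    have hr := hunit (d % p) (Nat.pos_of_ne_zero hcon) (Nat.mod_lt _ hp0)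
    have e : (d : K) = (p : K) * ((d / p : ℕ) : K) + ((d % p : ℕ) : K) := by
      rw [← Nat.cast_mul, ← Nat.cast_add, Nat.div_add_mod]
    have hsmall : v ((p : K) * ((d / p : ℕ) : K)) < v ((d % p : ℕ) : K) := by
      rw [hr]
      exact lt_of_le_of_lt (val_mul_le_left v (val_natCast_le_one v _)) hvp
    rw [e, v.map_add_eq_of_lt_right hsmall, hr] at hd
    exact lt_irrefl _ hd
  have hdvd : p ∣ d := Nat.dvd_of_mod_eq_zero hmod
  have hfin : b + d ≡ b + 0 [MOD p] :=
    Nat.ModEq.add_left b ((Nat.modEq_zero_iff_dvd).mpr hdvd)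
  simpa using hfin

end Fermat.Agent.S44.G.Sign
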