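import Mathlib
import Fermat.Prelude.Def_FLTPrelim_GaloisRep
import Fermat.Prelude.Def_FLTPrelim_Ramification
import Fermat.Agent.S05.Glue
import Fermat.Agent.Lib.ValAut
import Fermat.Agent.S13.KerRedGroup
import Fermat.Agent.S44.G.Sign

set_option autoImplicit false

/-!
# Program MR (S44), strand G: the `χ`-line of `E[p]` at `p`

`E` a Weierstrass curve over `ℚ` whose coefficients are integral at a valuation subring `A` of
`ℚ̄` over the prime `p`; `T = (x, y)` a point of order `p` in the kernel of reduction with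
`v(x)^((p-1)/2) · v(p) = 1` (the kernel `p`-torsion is a line: `(P'')` with equality); `ζ` a
primitive `p`-th root of unity.  For `σ` in the inertia group of `A`:

  `σ T = k T  ⟹  σ ζ = ζ ^ k`        (`chi_line`),

i.e. the inertia group acts on the kernel line through the mod `p` cyclotomic character (the sign
is pinned by `Sign.val_param_nsmul`: `t(kT) ≡ k t(T)` for the parameter `t = x / y`).  Also
`v (x / y) = v (ζ - 1)` (`val_param_eq`).
-/

namespace Fermat.Agent.S44.G.Chi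

open WeierstrassCurve WeierstrassCurve.Affine WeierstrassCurve.Affine.Point
open Fermat.Agent.Lib.TorsionCard Fermat.Agent.S13.KerRedGroup

/-! ### Valuation lemmas -/

section Val

variable {K : Type*} [Field K] {Γ₀ : Type*} [LinearOrderedCommGroupWithZero Γ₀]
  (v : Valuation K Γ₀) {W : WeierstrassCurve.Affine K}

/-- A natural number prime to `p` is a unit where `v p < 1`. -/
theorem val_natCast_eq_one {p : ℕ} (hp : p.Prime) (hvp : v (p : K) < 1) {j : ℕ} (hj0 : 0 < j)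
    (hjp : j < p) : v (j : K) = 1 := by
  have hcop : Nat.Coprime j p :=
    Nat.coprime_comm.mp ((Nat.Prime.coprime_iff_not_dvd hp).mpr (Nat.not_dvd_of_pos_of_lt hj0 hjp))
  obtain ⟨m, -, hm⟩ := Nat.exists_mul_mod_eq_one_of_coprime hcop hp.one_lt
  have e : ((j * m : ℕ) : K) = (p : K) * ((j * m / p : ℕ) : K) + 1 := by
    have h := Nat.div_add_mod (j * m) p
    rw [hm] at h
    calc ((j * m : ℕ) : K) = ((p * (j * m / p) + 1 : ℕ) : K) := by rw [h]
      _ = (p : K) * ((j * m / p : ℕ) : K) + 1 := by push_cast; ring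
  have h1 : v ((j * m : ℕ) : K) = 1 := by
    rw [e]
    have hs : v ((p : K) * ((j * m / p : ℕ) : K)) < v (1 : K) := by
      rw [map_one, map_mul]
      exact mul_lt_one_of_lt_of_le hvp (Fermat.Agent.Lib.KerRedGen.val_natCast_le_one v _)
    rw [v.map_add_eq_of_lt_right hs, map_one]
  rw [Nat.cast_mul, map_mul] at h1
  have hj : v (j : K) ≤ 1 := Fermat.Agent.Lib.KerRedGen.val_natCast_le_one v j
  have hm' : v (m : K) ≤ 1 := Fermat.Agent.Lib.KerRedGen.val_natCast_le_one v m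
  by_contra hne
  have hlt : v (j : K) * v (m : K) < 1 := mul_lt_one_of_lt_of_le (lt_of_le_of_ne hj hne) hm'
  rw [h1] at hlt
  exact lt_irrefl _ hlt

/-- The congruence `m ≡ k (mod p)` read off from parameters `t = u (ζ - 1)`, `t' = u' (ζ^m - 1)`
with `u' ≡ u` a unit and `t' ≡ k t` modulo `t m_v`. -/
theorem modEq_of_param {p : ℕ} (hp : p.Prime) (hvp : v (p : K) < 1) {ζ : K} (hζ1 : ζ ≠ 1)
    (hζv : v (ζ - 1) < 1) {t t' u u' : K} {m k : ℕ} (ht : t = u * (ζ - 1))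
    (ht' : t' = u' * (ζ ^ m - 1)) (hu : v u = 1) (huu : v (u' - u) < 1)
    (hl : v (ζ ^ m - 1) = v (ζ - 1)) (h : v (t' - (k : K) * t) < v t) : m ≡ k [MOD p] := by
  have hunit : ∀ j : ℕ, 0 < j → j < p → v (j : K) = 1 :=
    fun j h0 hj => val_natCast_eq_one v hp hvp h0 hj
  have hl0 : ζ - 1 ≠ 0 := sub_ne_zero.mpr hζ1
  have h1 : v ((ζ ^ m - 1) / (ζ - 1) - (k : K)) < 1 :=
    Sign.ratio_of_param v ht ht' hu huu hl hl0 h
  have h2 : v ((ζ ^ m - 1) / (ζ - 1) - (m : K)) < 1 := Sign.geom_ratio_cong v hζv hζ1 m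
  have h3 : v ((m : K) - (k : K)) < 1 := by
    have e : (m : K) - (k : K)
        = ((ζ ^ m - 1) / (ζ - 1) - (k : K)) - ((ζ ^ m - 1) / (ζ - 1) - (m : K)) := by ring
    rw [e]
    exact v.map_sub_lt h1 h2
  exact Sign.modEq_of_val_sub_lt_one v hp.pos hvp hunit h3

/-- The parameter `t = x / y` of a point of the kernel of reduction: `v(t)² v(x) = 1`. -/
theorem val_param_sq (h₁ : v W.a₁ ≤ 1) (h₂ : v W.a₂ ≤ 1) (h₃ : v W.a₃ ≤ 1) (h₄ : v W.a₄ ≤ 1)
    (h₆ : v W.a₆ ≤ 1) {x y : K} (h : W.Equation x y) (hx : 1 < v x) :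
    v (x / y) ^ 2 * v x = 1 := by
  obtain ⟨-, hy2, -⟩ := Sign.val_kernel v h₁ h₂ h₃ h₄ h₆ h hx
  have hx0 : v x ≠ 0 := (lt_trans zero_lt_one hx).ne'
  rw [map_div₀, div_pow, hy2, div_mul_eq_mul_div, ← pow_succ]
  exact div_self (pow_ne_zero _ hx0)

/-- `v(x)^h v(p) = 1` with `p - 1 = 2 h` gives `v(t)^(p-1) = v(p)`. -/
theorem val_param_pow (h₁ : v W.a₁ ≤ 1) (h₂ : v W.a₂ ≤ 1) (h₃ : v W.a₃ ≤ 1) (h₄ : v W.a₄ ≤ 1)
    (h₆ : v W.a₆ ≤ 1) {x y : K} (h : W.Equation x y) (hx : 1 < v x) {p n : ℕ}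
    (hpn : p - 1 = 2 * n) (hPP : v x ^ n * v (p : K) = 1) :
    v (x / y) ^ (p - 1) = v (p : K) := by
  have hsq := val_param_sq v h₁ h₂ h₃ h₄ h₆ h hx
  have e1 : v (x / y) ^ (p - 1) * v x ^ n = 1 := by
    rw [hpn, pow_mul, ← mul_pow, hsq, one_pow]
  calc v (x / y) ^ (p - 1) = v (x / y) ^ (p - 1) * (v x ^ n * v (p : K)) := by
        rw [hPP, mul_one]
    _ = (v (x / y) ^ (p - 1) * v x ^ n) * v (p : K) := by rw [mul_assoc]
    _ = v (p : K) := by rw [e1, one_mul]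

end Val

/-! ### The inertia group acts on the kernel line through the cyclotomic character -/

section Galois

local notation "Qb" => AlgebraicClosure ℚ
local notation "GQb" => (AlgebraicClosure ℚ ≃ₐ[ℚ] AlgebraicClosure ℚ)

/-- `p` is odd when `v(x)^((p-1)/2) v(p) = 1` and `v(p) < 1`. -/
theorem exists_half {p : ℕ} (hp : p.Prime) {Γ₀ : Type*} [LinearOrderedCommGroupWithZero Γ₀]
    {a b : Γ₀} (hb : b < 1) (hPP : a ^ ((p - 1) / 2) * b = 1) :
    p - 1 = 2 * ((p - 1) / 2) := by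
  rcases hp.eq_two_or_odd' with h2 | hodd
  · exfalso
    subst h2
    have : (2 - 1) / 2 = 0 := by norm_num
    rw [this, pow_zero, one_mul] at hPP
    rw [hPP] at hb
    exact lt_irrefl _ hb
  · obtain ⟨m, rfl⟩ := hodd
    omega

/-- The parameter of a generator of the kernel line has the valuation of `ζ - 1`. -/
theorem val_param_eq (E : WeierstrassCurve ℚ) (A : ValuationSubring Qb) {p : ℕ} (hp : p.Prime)
    (hvp : A.valuation (p : Qb) < 1)
    (h₁ : A.valuation (E⁄Qb).a₁ ≤ 1) (h₂ : A.valuation (E⁄Qb).a₂ ≤ 1)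
    (h₃ : A.valuation (E⁄Qb).a₃ ≤ 1) (h₄ : A.valuation (E⁄Qb).a₄ ≤ 1)
    (h₆ : A.valuation (E⁄Qb).a₆ ≤ 1) {ζ : Qb}
    (hlam : A.valuation (ζ - 1) ^ (p - 1) = A.valuation (p : Qb))
    {x y : Qb} (hT : (E⁄Qb).Equation x y) (hx : 1 < A.valuation x)
    (hPP : A.valuation x ^ ((p - 1) / 2) * A.valuation (p : Qb) = 1) :
    A.valuation (x / y) = A.valuation (ζ - 1) := by
  have hpn := exists_half hp hvp hPP
  have h := val_param_pow A.valuation h₁ h₂ h₃ h₄ h₆ hT hx hpn hPP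
  have hp1 : p - 1 ≠ 0 := by have := hp.two_le; omega
  exact (pow_left_inj₀ zero_le zero_le hp1).mp (h.trans hlam.symm)

/-- **The `χ`-line.**  `σ` in the inertia group of `A` acting on the kernel `p`-torsion point
`T = (x, y)` by `σ T = k T` acts on `ζ` by `σ ζ = ζ ^ k`. -/
theorem chi_line (E : WeierstrassCurve ℚ) (A : ValuationSubring Qb) {p : ℕ} (hp : p.Prime)
    (hvp : A.valuation (p : Qb) < 1)
    (h₁ : A.valuation (E⁄Qb).a₁ ≤ 1) (h₂ : A.valuation (E⁄Qb).a₂ ≤ 1)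
    (h₃ : A.valuation (E⁄Qb).a₃ ≤ 1) (h₄ : A.valuation (E⁄Qb).a₄ ≤ 1)
    (h₆ : A.valuation (E⁄Qb).a₆ ≤ 1) {ζ : Qb} (hζ : IsPrimitiveRoot ζ p)
    (hlam : A.valuation (ζ - 1) ^ (p - 1) = A.valuation (p : Qb))
    {x y : Qb} (hT : (E⁄Qb).Nonsingular x y) (hx : 1 < A.valuation x)
    (hpT : p • Point.some x y hT = 0)
    (hPP : A.valuation x ^ ((p - 1) / 2) * A.valuation (p : Qb) = 1)
    {σ : GQb} (hσ : σ ∈ A.inertiaSubgroupIn ℚ) {k : ℕ}
    (hk : σ • Point.some x y hT = k • Point.some x y hT) : σ ζ = ζ ^ k := by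
  have hp0 : 0 < p := hp.pos
  have : NeZero p := ⟨hp.ne_zero⟩
  -- the point `σ T`
  have hσT : ∃ hT' : (E⁄Qb).Nonsingular (σ x) (σ y),
      σ • Point.some x y hT = Point.some (σ x) (σ y) hT' := by
    rw [algEquiv_smul_def, Point.map_some]
    exact ⟨_, rfl⟩
  obtain ⟨hT', hσT⟩ := hσT
  -- reduce `k` modulo `p`
  have hkmod : k • Point.some x y hT = (k % p) • Point.some x y hT := by
    conv_lhs => rw [← Nat.div_add_mod k p]
    rw [add_nsmul, mul_nsmul, hpT, nsmul_zero, zero_add]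
  have hk0 : 0 < k % p := by
    rcases Nat.eq_zero_or_pos (k % p) with h0 | h0
    · exfalso
      rw [hk, hkmod, h0, zero_nsmul] at hσT
      exact Point.some_ne_zero hT' hσT.symm
    · exact h0
  have hkp : k % p < p := Nat.mod_lt _ hp0
  have hk' : (k % p) • Point.some x y hT = Point.some (σ x) (σ y) hT' := by
    rw [← hkmod, ← hk, hσT]
  have hunit : ∀ j : ℕ, 0 < j → j < p → A.valuation (j : Qb) = 1 :=
    fun j h0 hj => val_natCast_eq_one A.valuation hp hvp h0 hj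
  have hsign : A.valuation (σ x / σ y - ((k % p : ℕ) : Qb) * (x / y)) < A.valuation (x / y) :=
    Sign.val_param_nsmul A.valuation h₁ h₂ h₃ h₄ h₆ hp hunit hT hx hpT hk0 hkp hT' hk'
  -- `σ ζ = ζ ^ m`
  have hσζp : (σ ζ) ^ p = 1 := by rw [← map_pow, hζ.pow_eq_one, map_one]
  obtain ⟨m, -, hm⟩ := hζ.eq_pow_of_pow_eq_one hσζp
  -- valuations
  have hζ1 : ζ ≠ 1 := hζ.ne_one hp.one_lt
  have hl0 : ζ - 1 ≠ 0 := sub_ne_zero.mpr hζ1
  have hteq : A.valuation (x / y) = A.valuation (ζ - 1) :=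
    val_param_eq E A hp hvp h₁ h₂ h₃ h₄ h₆ hlam hT.1 hx hPP
  have hζv : A.valuation (ζ - 1) < 1 := by
    by_contra hge
    have h1 : 1 ≤ A.valuation (ζ - 1) ^ (p - 1) := one_le_pow_of_one_le' (not_lt.mp hge) _
    rw [hlam] at h1
    exact absurd hvp (not_lt.mpr h1)
  set u : Qb := (x / y) / (ζ - 1) with hu
  have hvu : A.valuation u = 1 := by
    rw [hu, map_div₀, hteq]
    exact div_self ((A.valuation.ne_zero_iff).mpr hl0)
  have huA : u ∈ A := (A.valuation_le_one_iff u).mp hvu.le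
  have huu : A.valuation (σ u - u) < 1 :=
    Fermat.Agent.S05.Glue.valuation_sub_lt_one_of_mem_inertia ℚ A σ hσ u huA
  have ht : x / y = u * (ζ - 1) := by
    rw [hu, div_mul_cancel₀ _ hl0]
  have ht' : σ x / σ y = σ u * (ζ ^ m - 1) := by
    have h := congrArg σ ht
    rw [map_div₀, map_mul, map_sub, map_one, ← hm] at h
    exact h
  have hl : A.valuation (ζ ^ m - 1) = A.valuation (ζ - 1) := by
    have e : ζ ^ m - 1 = σ (ζ - 1) := by rw [map_sub, map_one, hm]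
    rw [e]
    exact Fermat.Agent.Lib.ValAut.valuation_map_eq_of_mem_inertia A σ hσ (ζ - 1)
  have hmod : m ≡ k % p [MOD p] :=
    modEq_of_param A.valuation hp hvp hζ1 hζv ht ht' hvu huu hl hsign
  -- conclude
  have hpow : ∀ a : ℕ, ζ ^ a = ζ ^ (a % p) := fun a => by
    conv_lhs => rw [← Nat.div_add_mod a p]
    rw [pow_add, pow_mul, hζ.pow_eq_one, one_pow, one_mul]
  have hmk : m % p = k % p := by
    have h := hmod
    rw [Nat.ModEq, Nat.mod_mod] at h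
    exact h
  rw [← hm, hpow m, hpow k, hmk]

/-- The `χ`-line in the `KerRed` / `HasXc` vocabulary: `T ≠ 0` a kernel `p`-torsion point with
`v(x_T)^((p-1)/2) v(p) = 1`; then `σ T = k T` forces `σ ζ = ζ ^ k` for `σ` in the inertia group. -/
theorem chi_line_kerRed (E : WeierstrassCurve ℚ) (A : ValuationSubring Qb) {p : ℕ} (hp : p.Prime)
    (hvp : A.valuation (p : Qb) < 1)
    (h₁ : A.valuation (E⁄Qb).a₁ ≤ 1) (h₂ : A.valuation (E⁄Qb).a₂ ≤ 1)
    (h₃ : A.valuation (E⁄Qb).a₃ ≤ 1) (h₄ : A.valuation (E⁄Qb).a₄ ≤ 1)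
    (h₆ : A.valuation (E⁄Qb).a₆ ≤ 1) {ζ : Qb} (hζ : IsPrimitiveRoot ζ p)
    (hlam : A.valuation (ζ - 1) ^ (p - 1) = A.valuation (p : Qb))
    {T : (E⁄Qb).Point} (hT0 : T ≠ 0) (hpT : p • T = 0) (hTk : KerRed A.valuation (E⁄Qb) T)
    (hPP : ∀ x : Qb, HasXc (E⁄Qb) T x →
      A.valuation x ^ ((p - 1) / 2) * A.valuation (p : Qb) = 1)
    {σ : GQb} (hσ : σ ∈ A.inertiaSubgroupIn ℚ) {k : ℕ} (hk : σ • T = k • T) : σ ζ = ζ ^ k := by
  rcases hTk with h0 | ⟨x, hxc, hx⟩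
  · exact absurd h0 hT0
  · have hPPx := hPP x hxc
    obtain ⟨y, hT, rfl⟩ := hxc
    exact chi_line E A hp hvp h₁ h₂ h₃ h₄ h₆ hζ hlam hT hx hpT hPPx hσ hk

/-- The shape clause: if every `σ` in the inertia group acts by `σ T = k T`, `σ R = R + j T`, the
same `k` satisfies `σ ζ = ζ ^ k`. -/
theorem shape_chi (E : WeierstrassCurve ℚ) (A : ValuationSubring Qb) {p : ℕ} (hp : p.Prime)
    (hvp : A.valuation (p : Qb) < 1)
    (h₁ : A.valuation (E⁄Qb).a₁ ≤ 1) (h₂ : A.valuation (E⁄Qb).a₂ ≤ 1)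
    (h₃ : A.valuation (E⁄Qb).a₃ ≤ 1) (h₄ : A.valuation (E⁄Qb).a₄ ≤ 1)
    (h₆ : A.valuation (E⁄Qb).a₆ ≤ 1) {ζ : Qb} (hζ : IsPrimitiveRoot ζ p)
    (hlam : A.valuation (ζ - 1) ^ (p - 1) = A.valuation (p : Qb))
    {T R : (E⁄Qb).Point} (hT0 : T ≠ 0) (hpT : p • T = 0) (hTk : KerRed A.valuation (E⁄Qb) T)
    (hPP : ∀ x : Qb, HasXc (E⁄Qb) T x →
      A.valuation x ^ ((p - 1) / 2) * A.valuation (p : Qb) = 1)
    (hS : ∀ σ : GQb, σ ∈ A.inertiaSubgroupIn ℚ → ∃ k j : ℕ, σ • T = k • T ∧ σ • R = R + j • T) :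
    ∀ σ : GQb, σ ∈ A.inertiaSubgroupIn ℚ →
      ∃ k j : ℕ, σ ζ = ζ ^ k ∧ σ • T = k • T ∧ σ • R = R + j • T := by
  intro σ hσ
  obtain ⟨k, j, hk, hj⟩ := hS σ hσ
  exact ⟨k, j, chi_line_kerRed E A hp hvp h₁ h₂ h₃ h₄ h₆ hζ hlam hT0 hpT hTk hPP hσ hk, hk, hj⟩

end Galois

end Fermat.Agent.S44.G.Chi
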