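import Mathlib
import Fermat.Agent.S05.Shell

/-!
# S44, strand G: transport of the shape of `E[p]` from the Legendre model to the Frey model

`Shape E p A` is the body of `Contract.EShape` for an arbitrary curve `E` over `ℚ`
(`Contract.EShape P A` unfolds to `Shape P.freyCurve P.p A`, see `TransportContract.lean`).
The change of variables `X = 4x - e`, `Y = 8y + 4x` of `S05/Shell` (`Shell.rel`) is a Galois
equivariant additive bijection on `ℚ̄`-points, so the shape can be proved on the Legendre model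
`Y² = X (X - α) (X + β)`.

* `Rel.pointMap_surjective` : the point map of an admissible change of variables is onto.
* `shape_of_rel`            : `Shape (Leg α β) P.p A → Shape P.freyCurve P.p A`.
* `LegGStatement`           : the statement on the Legendre model (integer divisibility form).
* `LegGStatementVal`        : the same with valuation hypotheses (the vocabulary of `S05/Comp3`).
* `shape_frey`              : `LegGStatement → ∀ P, p ∣ abc → ∀ A over p, Shape P.freyCurve P.p A`.
-/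

set_option autoImplicit false

namespace Fermat.Agent.S44.G.Transport

open WeierstrassCurve WeierstrassCurve.Affine WeierstrassCurve.Affine.Point
open Fermat.Agent.S05.VarChange Fermat.Agent.S05.Shell

local notation "Qb" => AlgebraicClosure ℚ
local notation "GQb" => (AlgebraicClosure ℚ ≃ₐ[ℚ] AlgebraicClosure ℚ)

/-- The shape `[χ a; 0 1]`, `a` the Kummer cocycle of a unit, of the `p`-torsion of a curve `E`
over `ℚ` on the inertia group of `A` (the body of `Contract.EShape`, for any curve). -/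
def Shape (E : WeierstrassCurve ℚ) (p : ℕ) (A : ValuationSubring Qb) : Prop :=
  ∃ (T R : (E⁄Qb).Point) (ζ b : Qb),
    p • T = 0 ∧ p • R = 0 ∧ T ≠ 0 ∧ (∀ k : ℕ, R ≠ k • T) ∧
    IsPrimitiveRoot ζ p ∧ b ≠ 0 ∧ b ^ p ∈ A ∧ (b ^ p)⁻¹ ∈ A ∧
    ∀ σ : GQb, σ ∈ A.inertiaSubgroupIn ℚ →
      ∃ k j : ℕ, σ ζ = ζ ^ k ∧ σ • T = k • T ∧ σ b = ζ ^ j * b ∧ σ • R = R + j • T

section VarChange

variable {F : Type*} [Field F] {W W' : Affine F} {u r s t : F}

/-- The point map of an admissible change of variables is surjective. -/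
theorem pointMap_surjective (H : Rel W W' u r s t) : Function.Surjective H.pointMap := by
  rintro (_ | ⟨X, Y, h⟩)
  · exact ⟨0, rfl⟩
  · have hu2 : u ^ 2 ≠ 0 := pow_ne_zero _ H.hu
    have hu3 : u ^ 3 ≠ 0 := pow_ne_zero _ H.hu
    obtain ⟨x, hx⟩ : ∃ x : F, u ^ 2 * x + r = X :=
      ⟨(X - r) / u ^ 2, by rw [mul_div_cancel₀ _ hu2]; ring⟩
    obtain ⟨y, hy⟩ : ∃ y : F, u ^ 3 * y + u ^ 2 * s * x + t = Y :=
      ⟨(Y - u ^ 2 * s * x - t) / u ^ 3, by rw [mul_div_cancel₀ _ hu3]; ring⟩
    have h' : W'.Nonsingular x y := (H.nonsingular_iff x y).mpr (by rw [hx, hy]; exact h)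
    refine ⟨.some x y h', ?_⟩
    rw [Rel.pointMap_some]
    simp only [Point.some.injEq]
    exact ⟨hx, hy⟩

end VarChange

/-- **Transport.**  If the Frey model is related to the Legendre model `Leg α β` by the change
of variables of `Shell.rel`, the shape on the Legendre model gives the shape on the Frey model. -/
theorem shape_of_rel (P : FreyPackage) (e α β : ℤ)
    (h2 : β - α = P.b ^ P.p - P.a ^ P.p + 3 * e)
    (h4 : -(P.a ^ P.p * P.b ^ P.p) = -(α * β) - 2 * e * (β - α) + 3 * e ^ 2)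
    (h6 : 0 = e * (α * β) + e ^ 2 * (β - α) - e ^ 3)
    (A : ValuationSubring Qb) (h : Shape (Leg (α : ℚ) (β : ℚ)) P.p A) :
    Shape P.freyCurve P.p A := by
  have H := rel P e α β h2 h4 h6
  obtain ⟨T', R', ζ, b, hT', hR', hT0', hRT', hζ, hb0, hb1, hb2, hσ⟩ := h
  obtain ⟨T, rfl⟩ := pointMap_surjective H T'
  obtain ⟨R, rfl⟩ := pointMap_surjective H R'
  have hinj := H.pointMap_injective
  have hnsmul : ∀ (n : ℕ) (Q : (P.freyCurve⁄Qb).Point),
      H.pointMap (n • Q) = n • H.pointMap Q := fun n Q => map_nsmul H.pointHom n Q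
  have hadd : ∀ Q Q' : (P.freyCurve⁄Qb).Point,
      H.pointMap (Q + Q') = H.pointMap Q + H.pointMap Q' := fun Q Q' => H.pointMap_add Q Q'
  refine ⟨T, R, ζ, b, ?_, ?_, ?_, ?_, hζ, hb0, hb1, hb2, ?_⟩
  · apply hinj
    rw [hnsmul, hT']
    rfl
  · apply hinj
    rw [hnsmul, hR']
    rfl
  · rintro rfl
    exact hT0' rfl
  · intro k hk
    apply hRT' k
    rw [hk, hnsmul]
  · intro σ hσI
    obtain ⟨k, j, h1, h2', h3, h4'⟩ := hσ σ hσI
    refine ⟨k, j, h1, ?_, h3, ?_⟩
    · apply hinj
      rw [pointMap_smul H σ T, h2', hnsmul]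
    · apply hinj
      rw [pointMap_smul H σ R, h4', hadd, hnsmul]

/-- **Strand G on the Legendre model** (integer form): for a prime `p ≥ 5`, a place `A` over `p`
and integers `α = ± d ^ p` with `p ∣ d`, `d ≠ 0`, `p ∤ β`, `p ∤ α + β`, the `p`-torsion of
`Y² = X (X - α) (X + β)` has the shape `[χ a; 0 1]` on the inertia group of `A`, with `a` the
Kummer cocycle of a unit. -/
def LegGStatement : Prop :=
  ∀ (A : ValuationSubring Qb) (p : ℕ) (α β d : ℤ), p.Prime → 5 ≤ p → A.LiesOverPrime p →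
    d ≠ 0 → (p : ℤ) ∣ d → (α = d ^ p ∨ α = -d ^ p) → ¬ (p : ℤ) ∣ β → ¬ (p : ℤ) ∣ α + β →
    Shape (Leg (α : ℚ) (β : ℚ)) p A

/-- **Strand G on the Legendre model** (valuation form, the vocabulary of `S05/Comp3.part3` and
`Shell.LegStatement`, with `v p < 1` instead of `v p = 1`). -/
def LegGStatementVal : Prop :=
  ∀ (A : ValuationSubring Qb) (p : ℕ) (α β d : ℤ), p.Prime → 5 ≤ p → α ≠ 0 →
    A.valuation (p : Qb) < 1 → A.valuation (2 : Qb) = 1 →
    A.valuation (β : Qb) = 1 → A.valuation ((α : Qb) + β) = 1 →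
    A.valuation (α : Qb) = A.valuation (d : Qb) ^ p → A.valuation (d : Qb) < 1 →
    Shape (Leg (α : ℚ) (β : ℚ)) p A

/-- In a valuation subring over `p`, an integer divisible by `p` has valuation `< 1`. -/
theorem valuation_intCast_lt_one {A : ValuationSubring Qb} {p : ℕ} (hA : A.LiesOverPrime p)
    {d : ℤ} (hd : (p : ℤ) ∣ d) : A.valuation (d : Qb) < 1 := by
  obtain ⟨c, rfl⟩ := hd
  have hp : A.valuation (p : Qb) < 1 := A.mem_nonunits_iff.mp hA
  have hc : A.valuation (c : Qb) ≤ 1 := (A.valuation_le_one_iff _).mpr (intCast_mem A c)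
  push_cast
  rw [map_mul]
  calc A.valuation (p : Qb) * A.valuation (c : Qb) ≤ A.valuation (p : Qb) * 1 := by gcongr
    _ < 1 := by rw [mul_one]; exact hp

/-- The valuation form implies the integer form. -/
theorem legGStatement_of_val (h : LegGStatementVal) : LegGStatement := by
  intro A p α β d hp hp5 hA hd hpd hα hβ hαβ
  have hα0 : α ≠ 0 := by
    rcases hα with h | h
    · rw [h]; exact pow_ne_zero _ hd
    · rw [h]; exact neg_ne_zero.mpr (pow_ne_zero _ hd)
  have v2 : A.valuation (2 : Qb) = 1 := by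
    have := valuation_intCast_eq_one A p hp hA 2 (by
      intro h2
      have h' : p ∣ 2 := by exact_mod_cast h2
      have := Nat.le_of_dvd (by norm_num) h'
      omega)
    simpa using this
  have vβ : A.valuation (β : Qb) = 1 := valuation_intCast_eq_one A p hp hA β hβ
  have vαβ : A.valuation ((α : Qb) + β) = 1 := by
    have := valuation_intCast_eq_one A p hp hA (α + β) hαβ
    simpa using this
  have vα : A.valuation (α : Qb) = A.valuation (d : Qb) ^ p := by
    rcases hα with h | h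
    · rw [h]; simp
    · rw [h]; simp
  exact h A p α β d hp hp5 hα0 (A.mem_nonunits_iff.mp hA) v2 vβ vαβ vα
    (valuation_intCast_lt_one hA hpd)

/-- **Strand G from the Legendre model.**  Three cases `p ∣ b`, `p ∣ c`, `p ∣ a`, as in
`Shell.result_of_leg`. -/
theorem shape_frey (hLeg : LegGStatement) (P : FreyPackage)
    (hp : (P.p : ℤ) ∣ P.a * P.b * P.c) (A : ValuationSubring Qb) (hA : A.LiesOverPrime P.p) :
    Shape P.freyCurve P.p A := by
  have hpZ : Prime (P.p : ℤ) := Nat.prime_iff_prime_int.mp P.pp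
  have hFLT := P.hFLT
  by_cases hb : (P.p : ℤ) ∣ P.b
  · -- node at X = 0, with α = -b^p, β = -a^p
    have ha : ¬ (P.p : ℤ) ∣ P.a := by
      intro ha
      have := dvd_gcd ha hb
      rw [P.hgcdab] at this
      exact hpZ.not_dvd_one this
    have hc : ¬ (P.p : ℤ) ∣ P.c := by
      intro hc
      have := dvd_gcd hb hc
      rw [P.hgcdbc] at this
      exact hpZ.not_dvd_one this
    refine shape_of_rel P 0 (-(P.b ^ P.p)) (-(P.a ^ P.p)) (by ring) (by ring) (by ring) A
      (hLeg A P.p _ _ P.b P.pp P.hp5 hA P.hb0 hb (Or.inr rfl) ?_ ?_)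
    · rw [dvd_neg]; exact fun h => ha (hpZ.dvd_of_dvd_pow h)
    · have : -(P.b ^ P.p) + -(P.a ^ P.p) = -(P.c ^ P.p) := by rw [← hFLT]; ring
      rw [this, dvd_neg]; exact fun h => hc (hpZ.dvd_of_dvd_pow h)
  by_cases hc : (P.p : ℤ) ∣ P.c
  · -- node at X = a^p: translate by e = a^p, α = -c^p, β = a^p
    have ha : ¬ (P.p : ℤ) ∣ P.a := by
      intro ha
      have := dvd_gcd ha hc
      rw [P.hgcdac] at this
      exact hpZ.not_dvd_one this
    refine shape_of_rel P (P.a ^ P.p) (-(P.c ^ P.p)) (P.a ^ P.p) (by rw [← hFLT]; ring)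
      (by rw [← hFLT]; ring) (by rw [← hFLT]; ring) A
      (hLeg A P.p _ _ P.c P.pp P.hp5 hA P.hc0 hc (Or.inr rfl) ?_ ?_)
    · exact fun h => ha (hpZ.dvd_of_dvd_pow h)
    · have : -(P.c ^ P.p) + P.a ^ P.p = -(P.b ^ P.p) := by rw [← hFLT]; ring
      rw [this, dvd_neg]; exact fun h => hb (hpZ.dvd_of_dvd_pow h)
  · -- node at X = 0 with α = a^p, β = b^p
    have ha : (P.p : ℤ) ∣ P.a := by
      rcases hpZ.dvd_or_dvd hp with h | h
      · rcases hpZ.dvd_or_dvd h with h | h
        · exact h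
        · exact absurd h hb
      · exact absurd h hc
    refine shape_of_rel P 0 (P.a ^ P.p) (P.b ^ P.p) (by ring) (by ring) (by ring) A
      (hLeg A P.p _ _ P.a P.pp P.hp5 hA P.ha0 ha (Or.inl rfl) ?_ ?_)
    · exact fun h => hb (hpZ.dvd_of_dvd_pow h)
    · rw [hFLT]; exact fun h => hc (hpZ.dvd_of_dvd_pow h)

end Fermat.Agent.S44.G.Transport
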