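import Mathlib
import Fermat.Agent.S44.Contract
import Fermat.Agent.S44.G.Transport

/-!
# S44, strand G: the contract statement `GStatement` from the Legendre-model statement

`Contract.EShape P A` is `Transport.Shape P.freyCurve P.p A` (same body), so the transport of
`S44/G/Transport.lean` turns the Legendre-model statement into `Contract.GStatement`.
-/

set_option autoImplicit false

namespace Fermat.Agent.S44.G.GShell

open Fermat.Agent.S44 Fermat.Agent.S44.G

local notation "Qb" => AlgebraicClosure ℚ

/-- `Contract.EShape` is the `Shape` of the Frey curve. -/
theorem eShape_iff_shape (P : FreyPackage) (A : ValuationSubring Qb) :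
    Contract.EShape P A ↔ Transport.Shape P.freyCurve P.p A := Iff.rfl

/-- **Strand G from the Legendre model** (integer form). -/
theorem gStatement_of_leg (h : Transport.LegGStatement) : Contract.GStatement :=
  fun P hp A hA => (eShape_iff_shape P A).mpr (Transport.shape_frey h P hp A hA)

/-- **Strand G from the Legendre model** (valuation form). -/
theorem gStatement_of_legVal (h : Transport.LegGStatementVal) : Contract.GStatement :=
  gStatement_of_leg (Transport.legGStatement_of_val h)

end Fermat.Agent.S44.G.GShell
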