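import Fermat.Agent.S44.G.TwoTors
import Fermat.Agent.S13.KerRedGen
import Fermat.Agent.S13.KerRedGroup

set_option autoImplicit false

/-!
# The `p`-torsion of the kernel of reduction is a line (row MR.G.Ker)

`F` algebraically closed of characteristic zero with a valuation `v` (multiplicative), `W` an
elliptic curve over `F` with `v`-integral `b`-invariants, `p` an odd prime with `v p < 1`.

* `val_sub_eq_one_of_torsion`: if `c` is an integral 2-torsion abscissa with `phiTwo c` a unit,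
  no point of odd order has an integral abscissa congruent to `c`.
* `exists_big_set`: (with such a `c`) `v p * ∏ v x = 1`, the product over the non-integral
  abscissae of the nonzero `p`-torsion points.
* `exists_torsion_kerRed`: hence the kernel of reduction contains a nonzero `p`-torsion point;
* `val_mul_pow_le_one`: hence `v p * v (x T) ^ ((p-1)/2) ≤ 1` for every `p`-torsion point `T`
  of the kernel of reduction, with equality (`val_mul_pow_eq_one`) when the `p`-torsion of the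
  kernel of reduction is cyclic.
* `exists_torsion_not_kerRed`: if `c` is an integral 2-torsion abscissa with
  `v (phiTwo c) ^ ((p²-1)/4) < v p ^ 2`, some `p`-torsion point is outside the kernel.
* `exists_kernel_line`: with both kinds of 2-torsion abscissae, the `p`-torsion of the kernel of
  reduction is a line, with the exact valuation.
-/

namespace Fermat.Agent.S44.G.KerLine

open Polynomial WeierstrassCurve WeierstrassCurve.Affine
open Fermat.Agent.Lib.TorsionCard Fermat.Agent.S13 Fermat.Agent.S44.G.TwoTors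

section Val

variable {F : Type*} [Field F] {Γ₀ : Type*} [LinearOrderedCommGroupWithZero Γ₀]
  (v : Valuation F Γ₀)

theorem eq_one_of_sq_eq_one {a : Γ₀} (h : a ^ 2 = 1) : a = 1 := by
  rcases lt_trichotomy a 1 with h1 | h1 | h1
  · exact absurd h (pow_lt_one' h1 two_ne_zero).ne
  · exact h1
  · exact absurd h (one_lt_pow' h1 two_ne_zero).ne'

theorem val_psi_sub_lt {b₂ b₄ b₆ x c : F} (h₂ : v b₂ ≤ 1) (h₄ : v b₄ ≤ 1) (hx : v x ≤ 1)
    (hc : v c ≤ 1) (hxc : v (x - c) < 1) :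
    v ((4 * x ^ 3 + b₂ * x ^ 2 + 2 * b₄ * x + b₆)
      - (4 * c ^ 3 + b₂ * c ^ 2 + 2 * b₄ * c + b₆)) < 1 := by
  have i2 := KerRedGen.val_two_le_one v
  have i4 := KerRedGen.val_four_le_one v
  have hx2 : v (x ^ 2) ≤ 1 := by rw [sq]; exact KerRedGen.int_mul hx hx
  have hc2 : v (c ^ 2) ≤ 1 := by rw [sq]; exact KerRedGen.int_mul hc hc
  have hcof : v (4 * (x ^ 2 + x * c + c ^ 2) + b₂ * (x + c) + 2 * b₄) ≤ 1 :=
    KerRedGen.int_add (KerRedGen.int_add
      (KerRedGen.int_mul i4 (KerRedGen.int_add (KerRedGen.int_add hx2 (KerRedGen.int_mul hx hc))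
        hc2)) (KerRedGen.int_mul h₂ (KerRedGen.int_add hx hc))) (KerRedGen.int_mul i2 h₄)
  have e : (4 * x ^ 3 + b₂ * x ^ 2 + 2 * b₄ * x + b₆)
      - (4 * c ^ 3 + b₂ * c ^ 2 + 2 * b₄ * c + b₆)
      = (x - c) * (4 * (x ^ 2 + x * c + c ^ 2) + b₂ * (x + c) + 2 * b₄) := by ring
  rw [e, v.map_mul]
  exact lt_of_le_of_lt (mul_le_of_le_one_right' hcof) hxc

theorem val_phi_sub_lt {b₄ b₆ b₈ x c : F} (h₄ : v b₄ ≤ 1) (h₆ : v b₆ ≤ 1) (hx : v x ≤ 1)
    (hc : v c ≤ 1) (hxc : v (x - c) < 1) :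
    v ((x ^ 4 - b₄ * x ^ 2 - 2 * b₆ * x - b₈) - (c ^ 4 - b₄ * c ^ 2 - 2 * b₆ * c - b₈)) < 1 := by
  have i2 := KerRedGen.val_two_le_one v
  have hx2 : v (x ^ 2) ≤ 1 := by rw [sq]; exact KerRedGen.int_mul hx hx
  have hc2 : v (c ^ 2) ≤ 1 := by rw [sq]; exact KerRedGen.int_mul hc hc
  have hx3 : v (x ^ 3) ≤ 1 := by rw [pow_succ]; exact KerRedGen.int_mul hx2 hx
  have hc3 : v (c ^ 3) ≤ 1 := by rw [pow_succ]; exact KerRedGen.int_mul hc2 hc
  have hcof : v (x ^ 3 + x ^ 2 * c + x * c ^ 2 + c ^ 3 - b₄ * (x + c) - 2 * b₆) ≤ 1 :=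
    v.map_sub_le (v.map_sub_le
      (KerRedGen.int_add (KerRedGen.int_add (KerRedGen.int_add hx3 (KerRedGen.int_mul hx2 hc))
        (KerRedGen.int_mul hx hc2)) hc3) (KerRedGen.int_mul h₄ (KerRedGen.int_add hx hc)))
      (KerRedGen.int_mul i2 h₆)
  have e : (x ^ 4 - b₄ * x ^ 2 - 2 * b₆ * x - b₈) - (c ^ 4 - b₄ * c ^ 2 - 2 * b₆ * c - b₈)
      = (x - c) * (x ^ 3 + x ^ 2 * c + x * c ^ 2 + c ^ 3 - b₄ * (x + c) - 2 * b₆) := by ring
  rw [e, v.map_mul]
  exact lt_of_le_of_lt (mul_le_of_le_one_right' hcof) hxc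

end Val

section Curve

variable {F : Type*} [Field F] [DecidableEq F] (W : WeierstrassCurve.Affine F)
  [IsAlgClosed F] [CharZero F] [W.IsElliptic]
  {Γ₀ : Type*} [LinearOrderedCommGroupWithZero Γ₀] (v : Valuation F Γ₀)

/-- **No odd-order torsion point reduces onto a 2-torsion abscissa at which `phiTwo` is a
unit.** -/
theorem val_sub_eq_one_of_torsion (hB : KerRedGen.IntB v W) {c : F}
    (hc : (psiSq W).eval c = 0) (hcv : v c ≤ 1) (hφ : v ((phiTwo W).eval c) = 1) {n : ℕ}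
    (hn : Odd n) {P : W.Point} {x : F} (hP : HasXc W P x) (hnP : n • P = 0) (hx : v x ≤ 1) :
    v (x - c) = 1 := by
  have hle : v (x - c) ≤ 1 := v.map_sub_le hx hcv
  by_contra hne
  have hlt : v (x - c) < 1 := lt_of_le_of_ne hle hne
  have hpsi : v ((psiSq W).eval x) < 1 := by
    have h := val_psi_sub_lt v hB.b₂ hB.b₄ (b₆ := W.b₆) hx hcv hlt
    rw [eval_psiSq] at hc ⊢
    rwa [hc, sub_zero] at h
  have hphi : v ((phiTwo W).eval x) = 1 := by
    have h := val_phi_sub_lt v hB.b₄ hB.b₆ (b₈ := W.b₈) hx hcv hlt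
    rw [eval_phiTwo] at hφ ⊢
    have e : x ^ 4 - W.b₄ * x ^ 2 - 2 * W.b₆ * x - W.b₈
        = ((x ^ 4 - W.b₄ * x ^ 2 - 2 * W.b₆ * x - W.b₈)
          - (c ^ 4 - W.b₄ * c ^ 2 - 2 * W.b₆ * c - W.b₈))
          + (c ^ 4 - W.b₄ * c ^ 2 - 2 * W.b₆ * c - W.b₈) := by ring
    rw [e, v.map_add_eq_of_lt_right (by rw [hφ]; exact h), hφ]
  obtain ⟨j, rfl⟩ := hn
  by_cases h0 : (psiSq W).eval x = 0
  · have h2P : 2 • P = 0 :=
      (denX_eval_eq_zero_iff W 2 (by norm_num) hP).mp (by rw [denX_two]; exact h0)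
    have h1 : (2 * j + 1) • P = j • (2 • P) + P := by
      rw [← mul_nsmul, succ_nsmul]
    rw [h1, h2P, smul_zero, zero_add] at hnP
    exact hP.ne_zero hnP
  · have h2P : 2 • P ≠ 0 := by
      intro h
      have := (denX_eval_eq_zero_iff W 2 (by norm_num) hP).mpr h
      rw [denX_two] at this
      exact h0 this
    obtain ⟨x', hx'⟩ := exists_hasXc_of_ne_zero h2P
    have hmul := mul_denX_eval W 2 (by norm_num) hP hx'
    rw [denX_two, numX_two] at hmul
    have hx'v : 1 < v x' := by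
      have hv := congrArg v hmul
      rw [v.map_mul, hphi] at hv
      by_contra hcon
      have hcon' : v x' ≤ 1 := not_lt.mp hcon
      have : v x' * v ((psiSq W).eval x) < 1 :=
        lt_of_le_of_lt (mul_le_of_le_one_left' hcon') hpsi
      rw [hv] at this
      exact lt_irrefl _ this
    have hPe : (j + 1) • (2 • P) = P := by
      have h1 : (j + 1) • (2 • P) = (2 * j + 1) • P + P := by
        rw [← mul_nsmul, ← succ_nsmul]
        congr 1
      rw [h1, hnP, zero_add]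
    rcases KerRedGen.nsmul_kerRed hB hx' hx'v (j + 1) with ⟨h0', -⟩ | ⟨xn, hXn, hxn, -, -⟩
    · rw [hPe] at h0'
      exact hP.ne_zero h0'
    · rw [hPe] at hXn
      rw [hXn.unique hP] at hxn
      exact absurd hx (not_le.mpr hxn)

/-- The valuation of the product formula for `denX W p` (`p` odd), evaluated at any `c`. -/
theorem val_denX_eval {p : ℕ} (hp : Odd p) :
    ∃ T : Finset F, (∀ x, x ∈ T ↔ ∃ P : W.Point, P ≠ 0 ∧ p • P = 0 ∧ HasXc W P x) ∧
      ∀ c : F, v ((denX W p).eval c) = v (p : F) ^ 2 * (∏ x ∈ T, v (c - x)) ^ 2 := by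
  obtain ⟨T, hT, -, hden⟩ := denX_eq_prod W p hp
  refine ⟨T, hT, fun c => ?_⟩
  rw [hden, eval_mul, eval_C, eval_prod, v.map_mul, v.map_pow, map_prod, ← Finset.prod_pow]
  congr 1
  refine Finset.prod_congr rfl fun x _ => ?_
  rw [eval_pow, eval_sub, eval_X, eval_C, v.map_pow]

/-- **The product of the non-integral abscissae of the `p`-torsion points is `1 / p`** (in
valuation), given an integral 2-torsion abscissa at which `phiTwo` is a unit. -/
theorem exists_big_set (hB : KerRedGen.IntB v W) {p : ℕ} (hp : Odd p) {c : F}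
    (hc : (psiSq W).eval c = 0) (hcv : v c ≤ 1) (hφ : v ((phiTwo W).eval c) = 1) :
    ∃ S : Finset F, (∀ x, x ∈ S ↔ (1 < v x ∧ ∃ P : W.Point, p • P = 0 ∧ HasXc W P x)) ∧
      v (p : F) * ∏ x ∈ S, v x = 1 := by
  classical
  obtain ⟨T, hT, hval⟩ := val_denX_eval W v hp
  refine ⟨T.filter (fun x => 1 < v x), fun x => ?_, ?_⟩
  · rw [Finset.mem_filter, hT]
    constructor
    · rintro ⟨⟨P, -, hpP, hP⟩, hx⟩
      exact ⟨hx, P, hpP, hP⟩
    · rintro ⟨hx, P, hpP, hP⟩
      exact ⟨⟨P, hP.ne_zero, hpP, hP⟩, hx⟩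
  · have h := hval c
    rw [denX_eval_two_torsion W hc hp, v.map_pow, hφ, one_pow] at h
    have hprod : ∏ x ∈ T, v (c - x) = ∏ x ∈ T.filter (fun x => 1 < v x), v x := by
      rw [Finset.prod_filter]
      refine Finset.prod_congr rfl fun x hx => ?_
      obtain ⟨P, -, hpP, hP⟩ := (hT x).mp hx
      split_ifs with hbig
      · rw [v.map_sub_swap]
        exact v.map_sub_eq_of_lt_left (lt_of_le_of_lt hcv hbig)
      · rw [v.map_sub_swap]
        exact val_sub_eq_one_of_torsion W v hB hc hcv hφ hp hP hpP (not_lt.mp hbig)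
    rw [hprod, ← mul_pow] at h
    exact eq_one_of_sq_eq_one h.symm

/-- **The kernel of reduction contains a nonzero `p`-torsion point.** -/
theorem exists_torsion_kerRed (hB : KerRedGen.IntB v W) {p : ℕ} (hp : Odd p)
    (hpv : v (p : F) < 1) {c : F} (hc : (psiSq W).eval c = 0) (hcv : v c ≤ 1)
    (hφ : v ((phiTwo W).eval c) = 1) :
    ∃ P : W.Point, P ≠ 0 ∧ p • P = 0 ∧ KerRedGroup.KerRed v W P := by
  obtain ⟨S, hS, hprod⟩ := exists_big_set W v hB hp hc hcv hφ
  rcases S.eq_empty_or_nonempty with rfl | ⟨x, hx⟩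
  · rw [Finset.prod_empty, mul_one] at hprod
    exact absurd hprod hpv.ne
  · obtain ⟨hxv, P, hpP, hP⟩ := (hS x).mp hx
    exact ⟨P, hP.ne_zero, hpP, Or.inr ⟨x, hP, hxv⟩⟩

/-- **Some `p`-torsion point lies outside the kernel of reduction**, given an integral
2-torsion abscissa at which `phiTwo` is small. -/
theorem exists_torsion_not_kerRed {p : ℕ} (hp : Odd p) {c : F}
    (hc : (psiSq W).eval c = 0) (hcv : v c ≤ 1)
    (hφ : v ((phiTwo W).eval c) ^ ((p ^ 2 - 1) / 4) < v (p : F) ^ 2) :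
    ∃ R : W.Point, p • R = 0 ∧ ¬ KerRedGroup.KerRed v W R := by
  obtain ⟨T, hT, hval⟩ := val_denX_eval W v hp
  have h := hval c
  rw [denX_eval_two_torsion W hc hp, v.map_pow] at h
  rw [h] at hφ
  have hPi : ∏ x ∈ T, v (c - x) < 1 := by
    by_contra hcon
    have h1 : 1 ≤ (∏ x ∈ T, v (c - x)) ^ 2 := one_le_pow_of_one_le' (not_lt.mp hcon) 2
    have h2 : v (p : F) ^ 2 ≤ v (p : F) ^ 2 * (∏ x ∈ T, v (c - x)) ^ 2 :=
      le_mul_of_one_le_right' h1
    exact absurd hφ (not_lt.mpr h2)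
  obtain ⟨x, hxT, hx⟩ : ∃ x ∈ T, v (c - x) < 1 := by
    by_contra hcon
    push Not at hcon
    exact absurd hPi (not_lt.mpr (Finset.one_le_prod' hcon))
  obtain ⟨R, -, hpR, hR⟩ := (hT x).mp hxT
  refine ⟨R, hpR, ?_⟩
  rintro (h0 | ⟨x', hx', hv⟩)
  · exact hR.ne_zero h0
  · rw [hx'.unique hR] at hv
    have hxle : v x ≤ 1 := by
      have e : x = c - (c - x) := by ring
      rw [e]
      exact v.map_sub_le hcv hx.le
    exact absurd hxle (not_le.mpr hv)

omit [IsAlgClosed F] [CharZero F] [W.IsElliptic] in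
/-- The multiples `m • P`, `0 < m < p`, of a point of the kernel of reduction stay in the
kernel of reduction with the same `|x|`. -/
theorem nsmul_of_lt (hB : KerRedGen.IntB v W) {p : ℕ} (hp : p.Prime) (hpv : v (p : F) < 1)
    {P : W.Point} {x : F} (hP : HasXc W P x) (hx : 1 < v x) {m : ℕ} (hm0 : 0 < m)
    (hmp : m < p) : ∃ xm, HasXc W (m • P) xm ∧ v xm = v x :=
  KerRedGen.nsmul_of_not_dvd hB hP hx hp hpv m (Nat.not_dvd_of_pos_of_lt hm0 hmp)

omit [IsAlgClosed F] [CharZero F] [W.IsElliptic] in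
/-- The `(p-1)/2` abscissae of the multiples `k • P`, `1 ≤ k ≤ (p-1)/2`, of a `p`-torsion point
`P` of the kernel of reduction. -/
theorem exists_half_orbit (hB : KerRedGen.IntB v W) {p : ℕ} (hp : p.Prime) (hp2 : p ≠ 2)
    (hpv : v (p : F) < 1) {P : W.Point} {x : F} (hP : HasXc W P x) (hpP : p • P = 0)
    (hx : 1 < v x) :
    ∃ I : Finset F, I.card = (p - 1) / 2 ∧
      (∀ y ∈ I, v y = v x ∧ ∃ Q : W.Point, p • Q = 0 ∧ HasXc W Q y) ∧
      (∀ k : ℕ, 1 ≤ k → k ≤ (p - 1) / 2 → xOf W (k • P) ∈ I) := by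
  classical
  have hodd : Odd p := hp.odd_of_ne_two hp2
  have hhalf : ∀ k : ℕ, 1 ≤ k → k ≤ (p - 1) / 2 → 0 < k ∧ k < p ∧ 2 * k < p := by
    intro k h1 h2
    obtain ⟨j, rfl⟩ := hodd
    omega
  have hkill : ∀ m : ℕ, 0 < m → m < p → m • P ≠ 0 := fun m h0 h1 =>
    (nsmul_of_lt W v hB hp hpv hP hx h0 h1).choose_spec.1.ne_zero
  refine ⟨(Finset.Icc 1 ((p - 1) / 2)).image (fun k => xOf W (k • P)), ?_, ?_, ?_⟩
  · rw [Finset.card_image_of_injOn, Nat.card_Icc]
    · omega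
    intro k hk k' hk' hkk'
    simp only [Finset.coe_Icc, Set.mem_Icc] at hk hk'
    obtain ⟨hk0, hkp, hk2⟩ := hhalf k hk.1 hk.2
    obtain ⟨hk0', hkp', hk2'⟩ := hhalf k' hk'.1 hk'.2
    obtain ⟨xk, hXk, -⟩ := nsmul_of_lt W v hB hp hpv hP hx hk0 hkp
    obtain ⟨xk', hXk', -⟩ := nsmul_of_lt W v hB hp hpv hP hx hk0' hkp'
    have hkk'' : xk = xk' := by
      have := hkk'
      simp only at this
      rwa [hXk.xOf_eq, hXk'.xOf_eq] at this
    subst hkk''
    by_contra hne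
    rcases hXk.eq_or_eq_neg hXk' with e | e
    · rcases Nat.lt_or_gt_of_ne hne with hlt | hlt
      · have h1 : k' • P = k • P + (k' - k) • P := by
          rw [← add_nsmul]
          congr 1
          omega
        rw [← e] at h1
        exact hkill (k' - k) (by omega) (by omega) (left_eq_add.mp h1)
      · have h1 : k • P = k' • P + (k - k') • P := by
          rw [← add_nsmul]
          congr 1
          omega
        rw [e] at h1
        exact hkill (k - k') (by omega) (by omega) (left_eq_add.mp h1)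
    · have h1 : (k + k') • P = 0 := by rw [add_nsmul, e, neg_add_cancel]
      exact hkill (k + k') (by omega) (by omega) h1
  · intro y hy
    rw [Finset.mem_image] at hy
    obtain ⟨k, hk, rfl⟩ := hy
    rw [Finset.mem_Icc] at hk
    obtain ⟨hk0, hkp, -⟩ := hhalf k hk.1 hk.2
    obtain ⟨xk, hXk, hv⟩ := nsmul_of_lt W v hB hp hpv hP hx hk0 hkp
    rw [hXk.xOf_eq]
    refine ⟨hv, k • P, ?_, hXk⟩
    rw [smul_comm, hpP, smul_zero]
  · intro k h1 h2
    exact Finset.mem_image_of_mem _ (Finset.mem_Icc.mpr ⟨h1, h2⟩)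

/-- **(P'')**: `v p * v (x T) ^ ((p-1)/2) ≤ 1` for every `p`-torsion point `T` of the kernel of
reduction (given an integral 2-torsion abscissa at which `phiTwo` is a unit). -/
theorem val_mul_pow_le_one (hB : KerRedGen.IntB v W) {p : ℕ} (hp : p.Prime) (hp2 : p ≠ 2)
    (hpv : v (p : F) < 1) {c : F} (hc : (psiSq W).eval c = 0) (hcv : v c ≤ 1)
    (hφ : v ((phiTwo W).eval c) = 1) {P : W.Point} {x : F} (hP : HasXc W P x)
    (hpP : p • P = 0) (hx : 1 < v x) : v (p : F) * v x ^ ((p - 1) / 2) ≤ 1 := by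
  have hodd := hp.odd_of_ne_two hp2
  obtain ⟨S, hS, hprod⟩ := exists_big_set W v hB hodd hc hcv hφ
  obtain ⟨I, hcard, hI, -⟩ := exists_half_orbit W v hB hp hp2 hpv hP hpP hx
  have hIS : I ⊆ S := by
    intro y hy
    obtain ⟨hv, Q, hpQ, hQ⟩ := hI y hy
    exact (hS y).mpr ⟨by rw [hv]; exact hx, Q, hpQ, hQ⟩
  have h1 : ∏ y ∈ I, v y = v x ^ ((p - 1) / 2) := by
    rw [← hcard]
    exact Finset.prod_eq_pow_card fun y hy => (hI y hy).1
  have h2 : ∏ y ∈ I, v y ≤ ∏ y ∈ S, v y :=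
    Finset.prod_le_prod_of_subset_of_one_le' hIS fun y hy _ => ((hS y).mp hy).1.le
  rw [← hprod, ← h1]
  exact mul_le_mul' le_rfl h2

/-- **(P'') with equality** when the `p`-torsion of the kernel of reduction is cyclic. -/
theorem val_mul_pow_eq_one (hB : KerRedGen.IntB v W) {p : ℕ} (hp : p.Prime) (hp2 : p ≠ 2)
    (hpv : v (p : F) < 1) {c : F} (hc : (psiSq W).eval c = 0) (hcv : v c ≤ 1)
    (hφ : v ((phiTwo W).eval c) = 1) {P : W.Point} {x : F} (hP : HasXc W P x)
    (hpP : p • P = 0) (hx : 1 < v x)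
    (hline : ∀ Q : W.Point, p • Q = 0 → KerRedGroup.KerRed v W Q → ∃ k : ℕ, Q = k • P) :
    v (p : F) * v x ^ ((p - 1) / 2) = 1 := by
  have hodd := hp.odd_of_ne_two hp2
  obtain ⟨S, hS, hprod⟩ := exists_big_set W v hB hodd hc hcv hφ
  obtain ⟨I, hcard, hI, hmem⟩ := exists_half_orbit W v hB hp hp2 hpv hP hpP hx
  have hIS : I ⊆ S := by
    intro y hy
    obtain ⟨hv, Q, hpQ, hQ⟩ := hI y hy
    exact (hS y).mpr ⟨by rw [hv]; exact hx, Q, hpQ, hQ⟩
  have hSI : S ⊆ I := by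
    intro y hy
    obtain ⟨hyv, Q, hpQ, hQ⟩ := (hS y).mp hy
    obtain ⟨k, rfl⟩ := hline Q hpQ (Or.inr ⟨y, hQ, hyv⟩)
    have hmod : k • P = (k % p) • P := by
      conv_lhs => rw [← Nat.mod_add_div k p]
      rw [add_nsmul, mul_nsmul, hpP, smul_zero, add_zero]
    rw [hmod] at hQ
    have hr0 : k % p ≠ 0 := by
      intro h
      rw [h, zero_smul] at hQ
      exact hQ.ne_zero rfl
    have hrp : k % p < p := Nat.mod_lt _ hp.pos
    generalize k % p = r at hQ hr0 hrp
    by_cases hle : r ≤ (p - 1) / 2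
    · have := hmem r (Nat.one_le_iff_ne_zero.mpr hr0) hle
      rwa [hQ.xOf_eq] at this
    · have hneg : (p - r) • P = -(r • P) := by
        rw [eq_neg_iff_add_eq_zero, ← add_nsmul, Nat.sub_add_cancel hrp.le, hpP]
      have h' : 1 ≤ p - r ∧ p - r ≤ (p - 1) / 2 := by
        obtain ⟨j, rfl⟩ := hodd
        omega
      have := hmem (p - r) h'.1 h'.2
      rw [hneg, hQ.neg.xOf_eq] at this
      exact this
  have h1 : ∏ y ∈ I, v y = v x ^ ((p - 1) / 2) := by
    rw [← hcard]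
    exact Finset.prod_eq_pow_card fun y hy => (hI y hy).1
  rw [← hprod, Finset.Subset.antisymm hSI hIS, h1]

/-- **The `p`-torsion of the kernel of reduction is a line, with the exact valuation.**
`cu`, `cn` are integral 2-torsion abscissae, `phiTwo cu` a unit and `phiTwo cn` small. -/
theorem exists_kernel_line (hB : KerRedGen.IntB v W) {p : ℕ} (hp : p.Prime) (hp2 : p ≠ 2)
    (hpv : v (p : F) < 1) {cu : F} (hcu : (psiSq W).eval cu = 0) (hcuv : v cu ≤ 1)
    (hφu : v ((phiTwo W).eval cu) = 1) {cn : F} (hcn : (psiSq W).eval cn = 0)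
    (hcnv : v cn ≤ 1) (hφn : v ((phiTwo W).eval cn) ^ ((p ^ 2 - 1) / 4) < v (p : F) ^ 2) :
    ∃ T : W.Point, T ≠ 0 ∧ p • T = 0 ∧ KerRedGroup.KerRed v W T ∧
      (∀ Q : W.Point, p • Q = 0 → KerRedGroup.KerRed v W Q → ∃ k : ℕ, Q = k • T) ∧
      (∃ R : W.Point, p • R = 0 ∧ ¬ KerRedGroup.KerRed v W R) ∧
      ∀ x, HasXc W T x → v (p : F) * v x ^ ((p - 1) / 2) = 1 := by
  have hodd := hp.odd_of_ne_two hp2
  obtain ⟨T, hT0, hpT, hTk⟩ := exists_torsion_kerRed W v hB hodd hpv hcu hcuv hφu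
  obtain ⟨R, hpR, hRk⟩ := exists_torsion_not_kerRed W v hodd hcn hcnv hφn
  let G : AddSubgroup W.Point :=
    { carrier := {Q | p • Q = 0}
      zero_mem' := smul_zero p
      add_mem' := fun {a b} (ha : p • a = 0) (hb : p • b = 0) =>
        show p • (a + b) = 0 by rw [smul_add, ha, hb, add_zero]
      neg_mem' := fun {a} (ha : p • a = 0) =>
        show p • (-a) = 0 by rw [smul_neg, ha, neg_zero] }
  let H : AddSubgroup W.Point :=
    { carrier := {Q | p • Q = 0 ∧ KerRedGroup.KerRed v W Q}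
      zero_mem' := ⟨smul_zero p, KerRedGroup.kerRed_zero v W⟩
      add_mem' := fun {a b} ha hb =>
        ⟨by rw [smul_add, ha.1, hb.1, add_zero],
          KerRedGroup.kerRed_add v hB.b₂ hB.b₄ hB.b₆ hB.b₈ ha.2 hb.2⟩
      neg_mem' := fun {a} ha =>
        ⟨by rw [smul_neg, ha.1, neg_zero], KerRedGroup.kerRed_neg v ha.2⟩ }
  have hHG : H ≤ G := fun Q hQ => hQ.1
  have hcardG : Nat.card G = p ^ 2 := card_torsion W p hp.pos
  have hfinG : Finite G := Nat.finite_of_card_ne_zero (by rw [hcardG]; exact pow_ne_zero 2 hp.ne_zero)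
  have hdvd : Nat.card H ∣ p ^ 2 := hcardG ▸ AddSubgroup.card_dvd_of_le hHG
  obtain ⟨i, hi, hcardH⟩ := (Nat.dvd_prime_pow hp).mp hdvd
  have hi1 : i = 1 := by
    interval_cases i
    · exfalso
      rw [pow_zero] at hcardH
      obtain ⟨hsub, -⟩ := Nat.card_eq_one_iff_unique.mp hcardH
      have := Subsingleton.elim (⟨T, hpT, hTk⟩ : H) 0
      exact hT0 (congrArg Subtype.val this)
    · rfl
    · exfalso
      have hHG' : H = G := AddSubgroup.eq_of_le_of_card_ge hHG (by rw [hcardH, hcardG])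
      have hR : R ∈ H := by rw [hHG']; exact hpR
      exact hRk hR.2
  rw [hi1, pow_one] at hcardH
  have hfact : Fact p.Prime := ⟨hp⟩
  have hgen : ∀ Q : W.Point, p • Q = 0 → KerRedGroup.KerRed v W Q → ∃ k : ℕ, Q = k • T := by
    intro Q hpQ hQk
    have hT' : (⟨T, hpT, hTk⟩ : H) ≠ 0 := fun h => hT0 (congrArg Subtype.val h)
    have hmem := mem_multiples_of_prime_card (G := H) hcardH (g' := ⟨Q, hpQ, hQk⟩) hT'
    obtain ⟨k, hk⟩ := (AddSubmonoid.mem_multiples_iff _ _).mp hmem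
    refine ⟨k, ?_⟩
    have := congrArg Subtype.val hk
    simpa using this.symm
  refine ⟨T, hT0, hpT, hTk, hgen, ⟨R, hpR, hRk⟩, fun x hx => ?_⟩
  have hxv : 1 < v x := by
    rcases hTk with h0 | ⟨x', hx', hv⟩
    · exact absurd h0 hT0
    · rwa [hx'.unique hx] at hv
  exact val_mul_pow_eq_one W v hB hp hp2 hpv hcu hcuv hφu hx hpT hxv hgen

end Curve

end Fermat.Agent.S44.G.KerLine
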