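import Mathlib.AlgebraicGeometry.EllipticCurve.Affine.Point
import Mathlib.RingTheory.Valuation.Basic
import Mathlib.Tactic.LinearCombination
import Mathlib.Tactic.FieldSimp

set_option autoImplicit false

/-!
# Program MR (S44), strand G: the addition estimate on the node model

`K` a field with a valuation `v` (multiplicative notation, no hypothesis on the residue
characteristic), `W` a Weierstrass curve over `K` in node form
`y² + a₁ x y = x³ + a₂ x² + a₄ x` (`a₃ = a₆ = 0`) with `v a₁ ≤ 1`, `v a₂ ≤ 1`, `v b₂ = 1`.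

For an affine point `R = (x₁, y₁)` close to the node but off the "middle" (`v a₄ < v x₁ < 1`) and
an affine point `T = (x₂, y₂)` of the kernel of reduction (`1 < v x₂`):

* `R + T = (x₃, y₃)` is affine and `v (x₃ - x₁) = v x₁ * v (x₂ / y₂)`, i.e.
  `v(x(R + T) - x(R)) = v(x(R)) + v(t(T))` additively, `t = -x/y` the parameter at the origin;
* in particular `v x₃ = v x₁`.

Also: `v y₂ ^ 2 = v x₂ ^ 3` and `v (x₂ / y₂) < 1` for the point `T` of the kernel of reduction.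
-/

namespace Fermat.Agent.S44.G.AddEst

open WeierstrassCurve WeierstrassCurve.Affine

variable {K : Type*} [Field K] {W : WeierstrassCurve K}

/-- The Weierstrass equation of the node model. -/
theorem equation_node (h₃ : W.a₃ = 0) (h₆ : W.a₆ = 0) {x y : K}
    (h : W.toAffine.Equation x y) :
    y ^ 2 + W.a₁ * x * y = x ^ 3 + W.a₂ * x ^ 2 + W.a₄ * x := by
  rw [Affine.equation_iff, h₃, h₆] at h
  linear_combination h

/-- The numerator of `x(R + T) - x(R)` on the node model. -/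
theorem addX_sub_eq [DecidableEq K] (h₃ : W.a₃ = 0) (h₆ : W.a₆ = 0) {x₁ y₁ x₂ y₂ : K}
    (E₁ : W.toAffine.Equation x₁ y₁) (E₂ : W.toAffine.Equation x₂ y₂) (hx : x₁ ≠ x₂) :
    W.toAffine.addX x₁ x₂ (W.toAffine.slope x₁ x₂ y₁ y₂) - x₁ =
      (-(y₂ * (2 * y₁ + W.a₁ * x₁)) + (-x₁ ^ 3 + 3 * x₁ ^ 2 * x₂ + 2 * W.a₂ * x₁ * x₂
        + W.a₄ * x₁ + W.a₄ * x₂ - W.a₁ * x₂ * y₁)) / (x₁ - x₂) ^ 2 := by
  have e₁ := equation_node h₃ h₆ E₁
  have e₂ := equation_node h₃ h₆ E₂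
  have hd : x₁ - x₂ ≠ 0 := sub_ne_zero.mpr hx
  have hd2 : (x₁ - x₂) ^ 2 ≠ 0 := pow_ne_zero 2 hd
  rw [Affine.slope_of_X_ne hx, Affine.addX, eq_div_iff hd2]
  field_simp
  linear_combination e₁ + e₂

/-- `(2y + a₁x)² = x (4x² + b₂ x + 4a₄)` on the node model. -/
theorem two_y_sq (h₃ : W.a₃ = 0) (h₆ : W.a₆ = 0) {x y : K}
    (E : W.toAffine.Equation x y) :
    (2 * y + W.a₁ * x) ^ 2 = x * (4 * x ^ 2 + W.b₂ * x + 4 * W.a₄) := by
  have e := equation_node h₃ h₆ E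
  rw [WeierstrassCurve.b₂]
  linear_combination 4 * e

section Valued

variable {Γ₀ : Type*} [LinearOrderedCommGroupWithZero Γ₀] (v : Valuation K Γ₀)

theorem val_two_le_one : v (2 : K) ≤ 1 := by
  have h : (2 : K) = 1 + 1 := by norm_num
  rw [h]
  exact v.map_add_le (by rw [map_one]) (by rw [map_one])

theorem val_three_le_one : v (3 : K) ≤ 1 := by
  have h : (3 : K) = 2 + 1 := by norm_num
  rw [h]
  exact v.map_add_le (val_two_le_one v) (by rw [map_one])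

theorem val_four_le_one : v (4 : K) ≤ 1 := by
  have h : (4 : K) = 2 * 2 := by norm_num
  rw [h, map_mul]
  calc v 2 * v 2 ≤ 1 * 1 := mul_le_mul' (val_two_le_one v) (val_two_le_one v)
    _ = 1 := mul_one 1

/-- A point of the kernel of reduction of the node model: `v y ^ 2 = v x ^ 3`, `v x < v y`. -/
theorem val_kernel (h₃ : W.a₃ = 0) (h₆ : W.a₆ = 0) (h₁ : v W.a₁ ≤ 1) (h₂ : v W.a₂ ≤ 1)
    (h₄ : v W.a₄ ≤ 1) {x y : K} (E : W.toAffine.Equation x y) (hx : 1 < v x) :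
    v x < v y ∧ v y ^ 2 = v x ^ 3 := by
  have e := equation_node h₃ h₆ E
  have hx0 : 0 < v x := lt_trans zero_lt_one hx
  have hxx : v x < v x ^ 2 := by
    calc v x = v x * 1 := (mul_one _).symm
      _ < v x * v x := mul_lt_mul_of_pos_left hx hx0
      _ = v x ^ 2 := (sq _).symm
  have hxx0 : 0 < v x ^ 2 := lt_trans hx0 hxx
  have hxxx : v x ^ 2 < v x ^ 3 := by
    calc v x ^ 2 = v x ^ 2 * 1 := (mul_one _).symm
      _ < v x ^ 2 * v x := mul_lt_mul_of_pos_left hx hxx0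
      _ = v x ^ 3 := (pow_succ (v x) 2).symm
  -- the right-hand side has valuation `v x ^ 3`
  have hR : v (x ^ 3 + W.a₂ * x ^ 2 + W.a₄ * x) = v x ^ 3 := by
    have t2 : v (W.a₂ * x ^ 2) < v (x ^ 3) := by
      rw [map_mul, map_pow, map_pow]
      calc v W.a₂ * v x ^ 2 ≤ 1 * v x ^ 2 := mul_le_mul' h₂ le_rfl
        _ = v x ^ 2 := one_mul _
        _ < v x ^ 3 := hxxx
    have t3 : v (W.a₄ * x) < v (x ^ 3) := by
      rw [map_mul, map_pow]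
      calc v W.a₄ * v x ≤ 1 * v x := mul_le_mul' h₄ le_rfl
        _ = v x := one_mul _
        _ < v x ^ 2 := hxx
        _ < v x ^ 3 := hxxx
    have s1 : v (x ^ 3 + W.a₂ * x ^ 2) = v (x ^ 3) := v.map_add_eq_of_lt_left t2
    rw [v.map_add_eq_of_lt_left (by rw [s1]; exact t3), s1, map_pow]
  have hlt : v x < v y := by
    by_contra hcon
    rw [not_lt] at hcon
    have u1 : v (y ^ 2) ≤ v x ^ 2 := by
      rw [map_pow]
      exact pow_le_pow_left₀ zero_le hcon 2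
    have u2 : v (W.a₁ * x * y) ≤ v x ^ 2 := by
      rw [map_mul, map_mul, sq]
      calc v W.a₁ * v x * v y ≤ 1 * v x * v x := mul_le_mul' (mul_le_mul' h₁ le_rfl) hcon
        _ = v x * v x := by rw [one_mul]
    have u3 : v (y ^ 2 + W.a₁ * x * y) ≤ v x ^ 2 := v.map_add_le u1 u2
    rw [e, hR] at u3
    exact absurd hxxx (not_lt.mpr u3)
  have hy0 : 0 < v y := lt_trans hx0 hlt
  have hL : v (y ^ 2 + W.a₁ * x * y) = v y ^ 2 := by
    have t : v (W.a₁ * x * y) < v (y ^ 2) := by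
      rw [map_mul, map_mul, map_pow, sq]
      calc v W.a₁ * v x * v y ≤ 1 * v x * v y := mul_le_mul' (mul_le_mul' h₁ le_rfl) le_rfl
        _ = v x * v y := by rw [one_mul]
        _ < v y * v y := mul_lt_mul_of_pos_right hlt hy0
    rw [v.map_add_eq_of_lt_left t, map_pow]
  refine ⟨hlt, ?_⟩
  rw [← hL, e, hR]

/-- The parameter `x / y` of a point of the kernel of reduction is small. -/
theorem val_param_lt_one (h₃ : W.a₃ = 0) (h₆ : W.a₆ = 0) (h₁ : v W.a₁ ≤ 1) (h₂ : v W.a₂ ≤ 1)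
    (h₄ : v W.a₄ ≤ 1) {x y : K} (E : W.toAffine.Equation x y) (hx : 1 < v x) :
    v (x / y) < 1 := by
  obtain ⟨hlt, -⟩ := val_kernel v h₃ h₆ h₁ h₂ h₄ E hx
  have hy0 : 0 < v y := lt_trans (lt_trans zero_lt_one hx) hlt
  rw [map_div₀]
  exact (div_lt_one₀ hy0).mpr hlt

/-- Near the node, off the middle: `v (2y + a₁x) = v x` and `v y ≤ v x`. -/
theorem val_near_node (h₃ : W.a₃ = 0) (h₆ : W.a₆ = 0) (h₁ : v W.a₁ ≤ 1) (h₂ : v W.a₂ ≤ 1)
    (hb₂ : v W.b₂ = 1) {x y : K} (E : W.toAffine.Equation x y) (hx1 : v x < 1)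
    (hx4 : v W.a₄ < v x) :
    v (2 * y + W.a₁ * x) = v x ∧ v y ≤ v x := by
  have e := equation_node h₃ h₆ E
  have hx0 : 0 < v x := lt_of_le_of_lt zero_le hx4
  have hxx : v x ^ 2 < v x := by
    calc v x ^ 2 = v x * v x := sq _
      _ < v x * 1 := mul_lt_mul_of_pos_left hx1 hx0
      _ = v x := mul_one _
  constructor
  · have hsq := two_y_sq h₃ h₆ E
    have t1 : v (4 * x ^ 2) < v (W.b₂ * x) := by
      rw [map_mul, map_mul, hb₂, one_mul, map_pow]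
      calc v 4 * v x ^ 2 ≤ 1 * v x ^ 2 := mul_le_mul' (val_four_le_one v) le_rfl
        _ = v x ^ 2 := one_mul _
        _ < v x := hxx
    have t2 : v (4 * W.a₄) < v (W.b₂ * x) := by
      rw [map_mul, map_mul, hb₂, one_mul]
      calc v 4 * v W.a₄ ≤ 1 * v W.a₄ := mul_le_mul' (val_four_le_one v) le_rfl
        _ = v W.a₄ := one_mul _
        _ < v x := hx4
    have s1 : v (4 * x ^ 2 + W.b₂ * x) = v (W.b₂ * x) := v.map_add_eq_of_lt_right t1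
    have s2 : v (4 * x ^ 2 + W.b₂ * x + 4 * W.a₄) = v x := by
      rw [v.map_add_eq_of_lt_left (by rw [s1]; exact t2), s1, map_mul, hb₂, one_mul]
    have s3 : v (2 * y + W.a₁ * x) ^ 2 = v x ^ 2 := by
      rw [← map_pow, hsq, map_mul, s2, sq]
    exact (pow_left_inj₀ zero_le zero_le two_ne_zero).mp s3
  · by_contra hcon
    rw [not_le] at hcon
    have hy0 : 0 < v y := lt_trans hx0 hcon
    have t : v (W.a₁ * x * y) < v (y ^ 2) := by
      rw [map_mul, map_mul, map_pow, sq]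
      calc v W.a₁ * v x * v y ≤ 1 * v x * v y := mul_le_mul' (mul_le_mul' h₁ le_rfl) le_rfl
        _ = v x * v y := by rw [one_mul]
        _ < v y * v y := mul_lt_mul_of_pos_right hcon hy0
    have hL : v (y ^ 2 + W.a₁ * x * y) = v y ^ 2 := by
      rw [v.map_add_eq_of_lt_left t, map_pow]
    have hR : v (x ^ 3 + W.a₂ * x ^ 2 + W.a₄ * x) ≤ v x ^ 2 := by
      refine v.map_add_le (v.map_add_le ?_ ?_) ?_
      · rw [map_pow, pow_succ (v x) 2]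
        calc v x ^ 2 * v x ≤ v x ^ 2 * 1 := mul_le_mul' le_rfl hx1.le
          _ = v x ^ 2 := mul_one _
      · rw [map_mul, map_pow]
        calc v W.a₂ * v x ^ 2 ≤ 1 * v x ^ 2 := mul_le_mul' h₂ le_rfl
          _ = v x ^ 2 := one_mul _
      · rw [map_mul, sq]
        exact mul_le_mul' hx4.le le_rfl
    rw [← e, hL] at hR
    have : v x ^ 2 < v y ^ 2 := pow_lt_pow_left₀ hcon zero_le two_ne_zero
    exact absurd this (not_lt.mpr hR)

/-- **The addition estimate** (coordinate form): for `R = (x₁, y₁)` near the node off the middle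
(`v a₄ < v x₁ < 1`) and `T = (x₂, y₂)` in the kernel of reduction (`1 < v x₂`),
`v (x(R + T) - x(R)) * v y₂ = v x₁ * v x₂`. -/
theorem val_addX_sub [DecidableEq K] (h₃ : W.a₃ = 0) (h₆ : W.a₆ = 0) (h₁ : v W.a₁ ≤ 1)
    (h₂ : v W.a₂ ≤ 1) (hb₂ : v W.b₂ = 1) {x₁ y₁ x₂ y₂ : K}
    (E₁ : W.toAffine.Equation x₁ y₁) (E₂ : W.toAffine.Equation x₂ y₂)
    (hx1 : v x₁ < 1) (hx4 : v W.a₄ < v x₁) (hx2 : 1 < v x₂) :
    x₁ ≠ x₂ ∧
    v (W.toAffine.addX x₁ x₂ (W.toAffine.slope x₁ x₂ y₁ y₂) - x₁) * v y₂ = v x₁ * v x₂ := by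
  have h₄ : v W.a₄ ≤ 1 := (lt_trans hx4 hx1).le
  have hne : x₁ ≠ x₂ := by
    rintro rfl
    exact absurd (lt_trans hx1 hx2) (lt_irrefl _)
  obtain ⟨hxy2, hy2sq⟩ := val_kernel v h₃ h₆ h₁ h₂ h₄ E₂ hx2
  obtain ⟨h2y, hy1⟩ := val_near_node v h₃ h₆ h₁ h₂ hb₂ E₁ hx1 hx4
  have hX1 : 0 < v x₁ := lt_of_le_of_lt zero_le hx4
  have hX2 : 0 < v x₂ := lt_trans zero_lt_one hx2
  have hY2 : 0 < v y₂ := lt_trans hX2 hxy2
  have hY2one : 1 < v y₂ := lt_trans hx2 hxy2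
  -- the bound: everything else is `< v x₁ * v y₂`
  have key : v x₁ * v x₂ < v x₁ * v y₂ := mul_lt_mul_of_pos_left hxy2 hX1
  have hD : v (-(y₂ * (2 * y₁ + W.a₁ * x₁))) = v x₁ * v y₂ := by
    rw [Valuation.map_neg, map_mul, h2y, mul_comm]
  have c1 : v (-x₁ ^ 3) < v x₁ * v y₂ := by
    rw [Valuation.map_neg, map_pow]
    calc v x₁ ^ 3 = v x₁ * v x₁ ^ 2 := by rw [pow_succ (v x₁) 2, mul_comm]
      _ ≤ v x₁ * 1 := mul_le_mul' le_rfl (pow_le_one₀ zero_le hx1.le)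
      _ < v x₁ * v y₂ := mul_lt_mul_of_pos_left hY2one hX1
  have c2 : v (3 * x₁ ^ 2 * x₂) < v x₁ * v y₂ := by
    rw [map_mul, map_mul, map_pow]
    calc v 3 * v x₁ ^ 2 * v x₂ ≤ 1 * v x₁ * v x₂ :=
          mul_le_mul' (mul_le_mul' (val_three_le_one v)
            (by rw [sq]; exact mul_le_of_le_one_right' hx1.le)) le_rfl
      _ = v x₁ * v x₂ := by rw [one_mul]
      _ < v x₁ * v y₂ := key
  have c3 : v (2 * W.a₂ * x₁ * x₂) < v x₁ * v y₂ := by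
    rw [map_mul, map_mul, map_mul]
    calc v 2 * v W.a₂ * v x₁ * v x₂ ≤ 1 * 1 * v x₁ * v x₂ :=
          mul_le_mul' (mul_le_mul' (mul_le_mul' (val_two_le_one v) h₂) le_rfl) le_rfl
      _ = v x₁ * v x₂ := by rw [one_mul, one_mul]
      _ < v x₁ * v y₂ := key
  have c4 : v (W.a₄ * x₁) < v x₁ * v y₂ := by
    rw [map_mul]
    calc v W.a₄ * v x₁ ≤ 1 * v x₁ := mul_le_mul' h₄ le_rfl
      _ = v x₁ * 1 := by rw [one_mul, mul_one]
      _ < v x₁ * v y₂ := mul_lt_mul_of_pos_left hY2one hX1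
  have c5 : v (W.a₄ * x₂) < v x₁ * v y₂ := by
    rw [map_mul]
    calc v W.a₄ * v x₂ ≤ v x₁ * v x₂ := mul_le_mul' hx4.le le_rfl
      _ < v x₁ * v y₂ := key
  have c6 : v (W.a₁ * x₂ * y₁) < v x₁ * v y₂ := by
    rw [map_mul, map_mul]
    calc v W.a₁ * v x₂ * v y₁ ≤ 1 * v x₂ * v x₁ := mul_le_mul' (mul_le_mul' h₁ le_rfl) hy1
      _ = v x₁ * v x₂ := by rw [one_mul, mul_comm]
      _ < v x₁ * v y₂ := key
  have hE : v (-x₁ ^ 3 + 3 * x₁ ^ 2 * x₂ + 2 * W.a₂ * x₁ * x₂ + W.a₄ * x₁ + W.a₄ * x₂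
      - W.a₁ * x₂ * y₁) < v x₁ * v y₂ :=
    v.map_sub_lt (v.map_add_lt (v.map_add_lt (v.map_add_lt (v.map_add_lt c1 c2) c3) c4) c5) c6
  have hN : v (-(y₂ * (2 * y₁ + W.a₁ * x₁)) + (-x₁ ^ 3 + 3 * x₁ ^ 2 * x₂ + 2 * W.a₂ * x₁ * x₂
      + W.a₄ * x₁ + W.a₄ * x₂ - W.a₁ * x₂ * y₁)) = v x₁ * v y₂ := by
    rw [v.map_add_eq_of_lt_left (by rw [hD]; exact hE), hD]
  have hden : v (x₁ - x₂) = v x₂ := v.map_sub_eq_of_lt_right (lt_trans hx1 hx2)
  refine ⟨hne, ?_⟩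
  rw [addX_sub_eq h₃ h₆ E₁ E₂ hne, map_div₀, hN, map_pow, hden]
  -- `v x₁ * v y₂ / v x₂ ^ 2 * v y₂ = v x₁ * v x₂` from `v y₂ ^ 2 = v x₂ ^ 3`
  have hX2ne : v x₂ ^ 2 ≠ 0 := pow_ne_zero 2 hX2.ne'
  rw [div_mul_eq_mul_div, div_eq_iff hX2ne]
  calc v x₁ * v y₂ * v y₂ = v x₁ * v y₂ ^ 2 := by rw [sq, mul_assoc]
    _ = v x₁ * v x₂ ^ 3 := by rw [hy2sq]
    _ = v x₁ * v x₂ * v x₂ ^ 2 := by rw [pow_succ (v x₂) 2, mul_assoc, mul_comm (v x₂ ^ 2)]

/-- **The addition estimate** (point form): for `R = (x₁, y₁)` near the node off the middle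
(`v a₄ < v x₁ < 1`) and `T = (x₂, y₂)` in the kernel of reduction (`1 < v x₂`), the sum
`R + T = (x₃, y₃)` is affine, `v (x₃ - x₁) = v x₁ * v (x₂ / y₂)` and `v x₃ = v x₁`. -/
theorem exists_add_val [DecidableEq K] (h₃ : W.a₃ = 0) (h₆ : W.a₆ = 0) (h₁ : v W.a₁ ≤ 1)
    (h₂ : v W.a₂ ≤ 1) (hb₂ : v W.b₂ = 1) {x₁ y₁ x₂ y₂ : K}
    (hR : W.toAffine.Nonsingular x₁ y₁) (hT : W.toAffine.Nonsingular x₂ y₂)
    (hx1 : v x₁ < 1) (hx4 : v W.a₄ < v x₁) (hx2 : 1 < v x₂) :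
    ∃ (x₃ y₃ : K) (hS : W.toAffine.Nonsingular x₃ y₃),
      Point.some x₁ y₁ hR + Point.some x₂ y₂ hT = Point.some x₃ y₃ hS ∧
      v (x₃ - x₁) * v y₂ = v x₁ * v x₂ ∧
      v (x₃ - x₁) = v x₁ * v (x₂ / y₂) ∧
      v (x₃ - x₁) < v x₁ ∧ v x₃ = v x₁ := by
  have h₄ : v W.a₄ ≤ 1 := (lt_trans hx4 hx1).le
  obtain ⟨hne, hval⟩ := val_addX_sub v h₃ h₆ h₁ h₂ hb₂ hR.1 hT.1 hx1 hx4 hx2
  obtain ⟨hxy2, -⟩ := val_kernel v h₃ h₆ h₁ h₂ h₄ hT.1 hx2
  have hX1 : 0 < v x₁ := lt_of_le_of_lt zero_le hx4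
  have hY2 : 0 < v y₂ := lt_trans (lt_trans zero_lt_one hx2) hxy2
  have hpar : v (x₂ / y₂) < 1 := val_param_lt_one v h₃ h₆ h₁ h₂ h₄ hT.1 hx2
  have hform : v (W.toAffine.addX x₁ x₂ (W.toAffine.slope x₁ x₂ y₁ y₂) - x₁)
      = v x₁ * v (x₂ / y₂) := by
    rw [map_div₀, ← mul_div_assoc, eq_div_iff hY2.ne']
    exact hval
  have hlt : v (W.toAffine.addX x₁ x₂ (W.toAffine.slope x₁ x₂ y₁ y₂) - x₁) < v x₁ := by
    rw [hform]
    calc v x₁ * v (x₂ / y₂) < v x₁ * 1 := mul_lt_mul_of_pos_left hpar hX1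
      _ = v x₁ := mul_one _
  refine ⟨_, _, _, Point.add_of_X_ne hne, hval, hform, hlt, ?_⟩
  have hsplit : W.toAffine.addX x₁ x₂ (W.toAffine.slope x₁ x₂ y₁ y₂)
      = (W.toAffine.addX x₁ x₂ (W.toAffine.slope x₁ x₂ y₁ y₂) - x₁) + x₁ := by ring
  rw [hsplit]
  exact v.map_add_eq_of_lt_right hlt

end Valued

end Fermat.Agent.S44.G.AddEst
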