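import Mathlib
import Fermat.Prelude.Def_FLTPrelim_GaloisRep
import Fermat.Agent.Lib.KerRedAny

/-!
# S44 (Mazur's principle at `p`), strand G: the Kummer cocycle by Lagrange resolvents

`E` a Weierstrass curve over `ℚ`, `T`, `R` points of `E(ℚ̄)` with `p • T = 0`, `T ≠ 0`,
`p • R = 0`, `R ∉ ⟨T⟩`, `ζ` a primitive `p`-th root of unity (`p` an odd prime), and `S` a set of
automorphisms `σ` of `ℚ̄` acting by `σ ζ = ζ ^ k`, `σ T = k T`, `σ R = R + j T`.

`exists_resolvent`: there is `b ≠ 0` in `ℚ̄` with `σ b = ζ ^ j b` for the same `j`, for all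
`σ ∈ S` simultaneously.  (`b = ∑_{i mod p} ζ^{-i} x(R + i T)^m` for a suitable `m < p`.)

`exists_unit_resolvent`: if moreover the valuation of `b ^ p` at a valuation subring `A` is a
`p`-th power of the valuation of an `S`-fixed element `π`, then `b` can be normalised so that
`b ^ p` is a unit of `A`.
-/

set_option autoImplicit false

namespace Fermat.Agent.S44.G.Kummer

open WeierstrassCurve WeierstrassCurve.Affine WeierstrassCurve.Affine.Point
open Fermat.Agent.Lib.KerRedAny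

local notation "Qb" => AlgebraicClosure ℚ
local notation "GQb" => (AlgebraicClosure ℚ ≃ₐ[ℚ] AlgebraicClosure ℚ)

section Periodic

variable {M : Type*}

/-- A `p`-periodic function on `ℕ` only depends on the residue modulo `p`. -/
theorem periodic_mod {g : ℕ → M} {p : ℕ} (hg : ∀ n, g (n + p) = g n) (n : ℕ) :
    g n = g (n % p) := by
  have h : ∀ q r : ℕ, g (r + p * q) = g r := by
    intro q
    induction q with
    | zero => intro r; simp
    | succ q ih => intro r; rw [Nat.mul_succ, ← add_assoc, hg, ih]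
  conv_lhs => rw [← Nat.mod_add_div n p]
  exact h _ _

/-- Summing a `p`-periodic function over a full period is invariant under `i ↦ j + k i` for `k`
prime to `p`. -/
theorem sum_affine_eq [AddCommMonoid M] {p : ℕ} [Fact p.Prime] {g : ℕ → M}
    (hg : ∀ n, g (n + p) = g n) (j k : ℕ) (hk : (k : ZMod p) ≠ 0) :
    ∑ z : ZMod p, g (j + k * z.val) = ∑ z : ZMod p, g z.val := by
  have h1 : ∀ z : ZMod p, g (j + k * z.val) = g (((j : ZMod p) + (k : ZMod p) * z).val) := by
    intro z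
    rw [periodic_mod hg (j + k * z.val), ← ZMod.val_natCast]
    congr 2
    push_cast
    rw [ZMod.natCast_zmod_val]
  rw [Finset.sum_congr rfl (fun z _ => h1 z)]
  let e : ZMod p ≃ ZMod p :=
    { toFun := fun z => (j : ZMod p) + (k : ZMod p) * z
      invFun := fun w => (k : ZMod p)⁻¹ * (w - (j : ZMod p))
      left_inv := fun z => by
        change (k : ZMod p)⁻¹ * ((j : ZMod p) + (k : ZMod p) * z - (j : ZMod p)) = z
        rw [add_sub_cancel_left, ← mul_assoc, inv_mul_cancel₀ hk, one_mul]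
      right_inv := fun w => by
        change (j : ZMod p) + (k : ZMod p) * ((k : ZMod p)⁻¹ * (w - (j : ZMod p))) = w
        rw [← mul_assoc, mul_inv_cancel₀ hk, one_mul, add_sub_cancel] }
  exact Equiv.sum_comp e (fun w => g w.val)

end Periodic

variable {E : WeierstrassCurve ℚ}

/-- The `x`-coordinate is Galois equivariant. -/
theorem xc_smul (σ : GQb) (Q : (E⁄Qb).Point) : xc (σ • Q) = σ (xc Q) := by
  rcases Q with _ | ⟨x, y, h⟩
  · exact (map_zero σ).symm
  · rfl

section Points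

variable {G : Type*} [AddCommGroup G]

/-- In a group, `-(n • T) = (n * (p - 1)) • T` when `p • T = 0`, `0 < p`. -/
theorem neg_nsmul_eq {p : ℕ} (hp : 0 < p) {T : G} (hT : p • T = 0) (n : ℕ) :
    -(n • T) = (n * (p - 1)) • T := by
  have h : (n * (p - 1)) • T + n • T = 0 := by
    rw [← add_smul, show n * (p - 1) + n = n * p by
      conv_lhs => rw [← Nat.mul_succ, Nat.succ_eq_add_one, Nat.sub_add_cancel hp],
      mul_smul, hT, smul_zero]
  exact (eq_neg_of_add_eq_zero_left h).symm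

end Points

/-- **The Kummer cocycle by Lagrange resolvents.** -/
theorem exists_resolvent (E : WeierstrassCurve ℚ) (p : ℕ) (hp : p.Prime) (hp2 : p ≠ 2)
    (ζ : Qb) (hζ : IsPrimitiveRoot ζ p) (T R : (E⁄Qb).Point) (hT : p • T = 0) (hT0 : T ≠ 0)
    (hRp : p • R = 0) (hR : ∀ k : ℕ, R ≠ k • T) (S : Set GQb)
    (hS : ∀ σ ∈ S, ∃ k j : ℕ, σ ζ = ζ ^ k ∧ σ • T = k • T ∧ σ • R = R + j • T) :
    ∃ b : Qb, b ≠ 0 ∧ ∀ σ ∈ S, ∃ k j : ℕ,
      σ ζ = ζ ^ k ∧ σ • T = k • T ∧ σ b = ζ ^ j * b ∧ σ • R = R + j • T := by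
  have : Fact p.Prime := ⟨hp⟩
  have hpos : 0 < p := hp.pos
  have hζ0 : ζ ≠ 0 := hζ.ne_zero hp.ne_zero
  have hζp : ζ ^ p = 1 := hζ.pow_eq_one
  -- the points `R + n T`
  set pt : ℕ → (E⁄Qb).Point := fun n => R + n • T with hpt
  have pt_add : ∀ n, pt (n + p) = pt n := by
    intro n
    simp only [hpt]
    rw [add_smul, hT, add_zero]
  have pt_ne : ∀ n, pt n ≠ 0 := by
    intro n h0
    have h1 : R = -(n • T) := eq_neg_of_add_eq_zero_left h0
    rw [neg_nsmul_eq hpos hT] at h1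
    exact hR _ h1
  have hord : addOrderOf T = p := addOrderOf_eq_prime hT hT0
  -- the `x`-coordinates are pairwise distinct
  have hinj : ∀ a a' : ZMod p, xc (pt a.val) = xc (pt a'.val) → a = a' := by
    intro a a' hx
    rcases eq_or_eq_neg_of_xc (pt_ne _) (pt_ne _) hx with h | h
    · have h1 : a.val • T = a'.val • T := add_left_cancel h
      have h2 : ((a.val : ℤ) - (a'.val : ℤ)) • T = 0 := by
        rw [sub_smul, natCast_zsmul, natCast_zsmul, h1, sub_self]
      have h3 : (p : ℤ) ∣ (a.val : ℤ) - (a'.val : ℤ) := by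
        have h3' : (addOrderOf T : ℤ) ∣ (a.val : ℤ) - (a'.val : ℤ) :=
          addOrderOf_dvd_iff_zsmul_eq_zero.mpr h2
        rwa [hord] at h3'
      have h4 : (((a.val : ℤ) - (a'.val : ℤ) : ℤ) : ZMod p) = 0 :=
        (ZMod.intCast_zmod_eq_zero_iff_dvd _ p).mpr h3
      push_cast at h4
      rw [ZMod.natCast_zmod_val, ZMod.natCast_zmod_val] at h4
      exact sub_eq_zero.mp h4
    · exfalso
      -- `2 R = -(a + a') T`
      have h1 : 2 • R = -((a.val + a'.val) • T) := by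
        have h' : (R + a.val • T) + (R + a'.val • T) = 0 := by
          have : pt a.val + pt a'.val = 0 := by rw [h]; exact neg_add_cancel _
          exact this
        have h'' : 2 • R + (a.val + a'.val) • T = 0 := by
          rw [two_nsmul, add_smul]
          rw [← h']
          abel
        exact eq_neg_of_add_eq_zero_left h''
      obtain ⟨h, hh⟩ : ∃ h : ℕ, p + 1 = 2 * h := by
        have hodd : Odd p := hp.odd_of_ne_two hp2
        obtain ⟨c, hc⟩ := hodd
        exact ⟨c + 1, by omega⟩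
      have h2 : R = h • (2 • R) := by
        rw [← mul_smul, mul_comm, ← hh, add_smul, hRp, zero_add, one_smul]
      rw [h1, neg_nsmul_eq hpos hT, ← mul_smul] at h2
      exact hR _ h2
  -- Vandermonde: some resolvent is nonzero
  have hex : ∃ m : ℕ, ∑ z : ZMod p, ζ⁻¹ ^ z.val * xc (pt z.val) ^ m ≠ 0 := by
    by_contra hall
    push Not at hall
    have : NeZero p := ⟨hp.ne_zero⟩
    let e : Fin p ≃ ZMod p := (ZMod.finEquiv p).toEquiv
    let v : Fin p → Qb := fun i => xc (pt (e i).val)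
    let c : Fin p → Qb := fun i => ζ⁻¹ ^ (e i).val
    have hv : Function.Injective v := fun i i' h => e.injective (hinj _ _ h)
    have hdet : (Matrix.vandermonde v).det ≠ 0 := Matrix.det_vandermonde_ne_zero_iff.mpr hv
    have hvec : Matrix.vecMul c (Matrix.vandermonde v) = 0 := by
      funext m
      rw [Matrix.vecMul, dotProduct]
      simp only [Matrix.vandermonde_apply, Pi.zero_apply]
      have := hall (m : ℕ)
      rw [← Equiv.sum_comp e] at this
      exact this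
    have hc0 : c = 0 := Matrix.eq_zero_of_vecMul_eq_zero hdet hvec
    have h1 := congrFun hc0 (e.symm 0)
    simp only [c, Equiv.apply_symm_apply, ZMod.val_zero, pow_zero, Pi.zero_apply] at h1
    exact one_ne_zero h1
  obtain ⟨m, hm⟩ := hex
  refine ⟨∑ z : ZMod p, ζ⁻¹ ^ z.val * xc (pt z.val) ^ m, hm, ?_⟩
  intro σ hσ
  obtain ⟨k, j, hk, hkT, hjR⟩ := hS σ hσ
  refine ⟨k, j, hk, hkT, ?_, hjR⟩
  -- `k` is prime to `p`
  have hkp : (k : ZMod p) ≠ 0 := by
    intro h0
    have hdvd : p ∣ k := (ZMod.natCast_eq_zero_iff k p).mp h0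
    obtain ⟨c, rfl⟩ := hdvd
    rw [pow_mul, hζp, one_pow] at hk
    have h1 : ζ = 1 := by
      have := congrArg σ.symm hk
      rwa [AlgEquiv.symm_apply_apply, map_one] at this
    exact hp.one_lt.ne' (hζ.unique (h1 ▸ IsPrimitiveRoot.one))
  -- the periodic summand
  set g : ℕ → Qb := fun n => ζ⁻¹ ^ n * xc (pt n) ^ m with hg
  have g_add : ∀ n, g (n + p) = g n := by
    intro n
    simp only [hg]
    rw [pt_add, pow_add, inv_pow ζ p, hζp, inv_one, mul_one]
  have hσpt : ∀ n : ℕ, σ • pt n = pt (j + k * n) := by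
    intro n
    have e1 : σ • (R + n • T) = σ • R + σ • (n • T) := smul_add σ R (n • T)
    have e2 : σ • (n • T) = n • (σ • T) := by
      have := algEquiv_smul_zsmul σ (n : ℤ) T
      rwa [natCast_zsmul, natCast_zsmul] at this
    change σ • (R + n • T) = R + (j + k * n) • T
    rw [e1, e2, hjR, hkT, ← mul_smul, add_assoc, ← add_smul, mul_comm n k]
  have hterm : ∀ z : ZMod p, σ (ζ⁻¹ ^ z.val * xc (pt z.val) ^ m) = ζ ^ j * g (j + k * z.val) := by
    intro z
    simp only [hg]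
    rw [map_mul, map_pow, map_pow, map_inv₀, hk, ← xc_smul, hσpt, ← mul_assoc]
    congr 1
    rw [pow_add, ← mul_assoc, ← mul_pow, mul_inv_cancel₀ hζ0, one_pow, one_mul, ← inv_pow,
      ← pow_mul]
  rw [map_sum, Finset.sum_congr rfl (fun z _ => hterm z), ← Finset.mul_sum, sum_affine_eq g_add j k hkp]

/-- **Normalisation to a unit.**  If the valuation of `b ^ p` at `A` is the `p`-th power of a
power of the valuation of `π ≠ 0`, then `b' = b * π ^ (-m)` has `b' ^ p` a unit of `A`, and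
`b'` transforms like `b` under every automorphism fixing `π`. -/
theorem exists_unit_of_valuation (A : ValuationSubring Qb) (p : ℕ) (π ζ b : Qb) (hπ : π ≠ 0)
    (hb : b ≠ 0) (m : ℤ) (hm : A.valuation (b ^ p) = A.valuation π ^ ((p : ℤ) * m)) :
    ∃ b' : Qb, b' ≠ 0 ∧ b' ^ p ∈ A ∧ (b' ^ p)⁻¹ ∈ A ∧
      ∀ σ : GQb, σ π = π → ∀ j : ℕ, σ b = ζ ^ j * b → σ b' = ζ ^ j * b' := by
  have hvπ : A.valuation π ≠ 0 := (A.valuation.ne_zero_iff).mpr hπ
  have hval : A.valuation ((b * π ^ (-m)) ^ p) = 1 := by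
    rw [mul_pow, map_mul, hm, ← zpow_natCast (π ^ (-m)) p, ← zpow_mul, map_zpow₀,
      ← zpow_add₀ hvπ]
    have : (p : ℤ) * m + -m * (p : ℤ) = 0 := by ring
    rw [this, zpow_zero]
  refine ⟨b * π ^ (-m), mul_ne_zero hb (zpow_ne_zero _ hπ), ?_, ?_, ?_⟩
  · exact (A.valuation_le_one_iff _).mp hval.le
  · apply (A.valuation_le_one_iff _).mp
    rw [map_inv₀, hval, inv_one]
  · intro σ hσ j hj
    rw [map_mul, hj, map_zpow₀, hσ, mul_assoc]

/-- **The shape `EShape` from the two torsion points**, modulo the valuation statement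
(peu ramifié) for the resolvents.  `S` is the inertia group in the application, `π = p`. -/
theorem exists_unit_resolvent (E : WeierstrassCurve ℚ) (A : ValuationSubring Qb) (p : ℕ)
    (hp : p.Prime) (hp2 : p ≠ 2) (π ζ : Qb) (hπ : π ≠ 0) (hζ : IsPrimitiveRoot ζ p)
    (T R : (E⁄Qb).Point) (hT : p • T = 0) (hT0 : T ≠ 0) (hRp : p • R = 0)
    (hR : ∀ k : ℕ, R ≠ k • T) (S : Set GQb) (hπS : ∀ σ ∈ S, σ π = π)
    (hS : ∀ σ ∈ S, ∃ k j : ℕ, σ ζ = ζ ^ k ∧ σ • T = k • T ∧ σ • R = R + j • T)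
    (hunit : ∀ b₀ : Qb, b₀ ≠ 0 →
      (∀ σ ∈ S, ∃ k j : ℕ, σ ζ = ζ ^ k ∧ σ • T = k • T ∧ σ b₀ = ζ ^ j * b₀ ∧
        σ • R = R + j • T) →
      ∃ m : ℤ, A.valuation (b₀ ^ p) = A.valuation π ^ ((p : ℤ) * m)) :
    ∃ b : Qb, b ≠ 0 ∧ b ^ p ∈ A ∧ (b ^ p)⁻¹ ∈ A ∧ ∀ σ ∈ S, ∃ k j : ℕ,
      σ ζ = ζ ^ k ∧ σ • T = k • T ∧ σ b = ζ ^ j * b ∧ σ • R = R + j • T := by
  obtain ⟨b₀, hb₀, hb₀S⟩ := exists_resolvent E p hp hp2 ζ hζ T R hT hT0 hRp hR S hS
  obtain ⟨m, hm⟩ := hunit b₀ hb₀ hb₀S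
  obtain ⟨b, hb, hbA, hbA', hbσ⟩ := exists_unit_of_valuation A p π ζ b₀ hπ hb₀ m hm
  refine ⟨b, hb, hbA, hbA', fun σ hσ => ?_⟩
  obtain ⟨k, j, hk, hkT, hjb, hjR⟩ := hb₀S σ hσ
  exact ⟨k, j, hk, hkT, hbσ σ (hπS σ hσ) j hjb, hjR⟩

end Fermat.Agent.S44.G.Kummer
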