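import Mathlib
import Fermat.Prelude.Def_FLTPrelim_GaloisRep
import Fermat.Prelude.Def_FLTPrelim_Ramification
import Fermat.Agent.Lib.KerRedAny
import Fermat.Agent.S44.G.Kummer
import Fermat.Agent.S44.G.AddEst

/-!
# S44 (Mazur's principle at `p`), strand G: the Kummer cocycle is peu ramifié

`E` a Weierstrass curve over `ℚ` whose base change to `ℚ̄` is in node form at the valuation
subring `A` (`a₃ = a₆ = 0`, `v a₁ ≤ 1`, `v a₂ ≤ 1`, `v b₂ = 1`), `I` the inertia group of `A`,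
`T` a `p`-torsion point of the kernel of reduction (`1 < v (x T)`) whose parameter `x/y` is at
most as deep as `ζ - 1`, `R` a `p`-torsion point near the node off the middle
(`v a₄ < v (x R) < 1`) with `v (x R)` a power of `v p`, and the inertia group acting by
`σ ζ = ζ ^ k`, `σ T = k T`, `σ R = R + j T`.

`exists_unit_b`: then there is `b ≠ 0` with `b ^ p` a UNIT of `A` and `σ b = ζ ^ j b` for the
same `j` (the last clauses of `Contract.EShape`).  The three ramification bricks `(R1)`, `(R3)`,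
`(Ram)` of `S44/G/Ram.lean` enter as hypotheses in their literal shapes.

Proof: the Lagrange resolvent `b₀` of `Kummer.exists_resolvent` has `b₀ ^ p` fixed by `I`, so
`v (b₀ ^ p) = v p ^ m` by `(R1)`.  If `p ∣ m`, rescale by a power of `p`.  Otherwise `(R3)` gives
`σ ∈ I` with `σ ζ = ζ`, `σ b₀ = ζ b₀`, hence `σ R = R + T`; the unit `z = x(R) / p ^ n` is fixed
by the stabiliser of `ζ` and `b₀` in `I`, and the addition estimate gives
`v (σ z - z) = v (x T / y T) ≥ v (ζ - 1)`, against `(Ram)`: `v (σ z - z) ^ p ≤ v (ζ - 1) ^ (p+1)`.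
-/

set_option autoImplicit false

namespace Fermat.Agent.S44.G.Peu

open WeierstrassCurve WeierstrassCurve.Affine WeierstrassCurve.Affine.Point
open Fermat.Agent.Lib.KerRedAny

local notation "Qb" => AlgebraicClosure ℚ
local notation "GQb" => (AlgebraicClosure ℚ ≃ₐ[ℚ] AlgebraicClosure ℚ)

section Group

variable {G : Type*} [AddCommGroup G]

/-- Multiples of a `p`-torsion element only depend on the residue modulo `p`. -/
theorem nsmul_eq_of_modEq {p : ℕ} {T : G} (hT : p • T = 0) {a b : ℕ} (h : a ≡ b [MOD p]) :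
    a • T = b • T := by
  have key : ∀ c : ℕ, c • T = (c % p) • T := by
    intro c
    conv_lhs => rw [← Nat.mod_add_div c p, add_smul, mul_smul, smul_comm p, hT, nsmul_zero,
      add_zero]
  rw [key a, key b, h]

end Group

/-- For a primitive `p`-th root of unity, `ζ ^ j * b = ζ * b` with `b ≠ 0` forces
`j ≡ 1 [MOD p]`. -/
theorem modEq_one_of_mul_eq {p : ℕ} (hp : 0 < p) {ζ b : Qb} (hζ : IsPrimitiveRoot ζ p)
    (hb : b ≠ 0) {j : ℕ} (h : ζ ^ j * b = ζ * b) : j ≡ 1 [MOD p] := by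
  have h1 : ζ ^ j = ζ ^ 1 := by
    rw [pow_one]
    exact mul_right_cancel₀ hb h
  have hfin : IsOfFinOrder ζ := isOfFinOrder_iff_pow_eq_one.mpr ⟨p, hp, hζ.pow_eq_one⟩
  have := hfin.pow_eq_pow_iff_modEq.mp h1
  rwa [← hζ.eq_orderOf] at this

/-- For a primitive `p`-th root of unity, `ζ ^ j * b = b` with `b ≠ 0` forces `p ∣ j`. -/
theorem dvd_of_mul_eq {p : ℕ} {ζ b : Qb} (hζ : IsPrimitiveRoot ζ p) (hb : b ≠ 0) {j : ℕ}
    (h : ζ ^ j * b = b) : p ∣ j := by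
  have h1 : ζ ^ j = 1 := by
    have : ζ ^ j * b = 1 * b := by rw [h, one_mul]
    exact mul_right_cancel₀ hb this
  exact (hζ.pow_eq_one_iff_dvd j).mp h1

/-- **The Kummer cocycle of `E[p]` at `p` is peu ramifié** (strand G, the Galois half):
the last clauses of `Contract.EShape` from the two torsion points, the inertia action and the
ramification bricks. -/
theorem exists_unit_b (E : WeierstrassCurve ℚ) (A : ValuationSubring Qb) (p : ℕ)
    (hp : p.Prime) (hp2 : p ≠ 2) (ζ : Qb) (hζ : IsPrimitiveRoot ζ p)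
    (hlam : A.valuation (ζ - 1) < 1)
    (h₃ : (E⁄Qb).a₃ = 0) (h₆ : (E⁄Qb).a₆ = 0) (h₁ : A.valuation (E⁄Qb).a₁ ≤ 1)
    (h₂ : A.valuation (E⁄Qb).a₂ ≤ 1) (hb₂ : A.valuation (E⁄Qb).b₂ = 1)
    (T R : (E⁄Qb).Point) (hT : p • T = 0) (hRp : p • R = 0) (hR : ∀ k : ℕ, R ≠ k • T)
    (hxT : 1 < A.valuation (xc T)) (hP : A.valuation (ζ - 1) ≤ A.valuation (xc T / yc T))
    (hxR1 : A.valuation (xc R) < 1) (hxR4 : A.valuation (E⁄Qb).a₄ < A.valuation (xc R))
    (n : ℤ) (hn : A.valuation (xc R) = A.valuation (p : Qb) ^ n)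
    (hS : ∀ σ ∈ A.inertiaSubgroupIn ℚ, ∃ k j : ℕ,
      σ ζ = ζ ^ k ∧ σ • T = k • T ∧ σ • R = R + j • T)
    (hR1 : ∀ x : Qb, x ≠ 0 → (∀ τ ∈ A.inertiaSubgroupIn ℚ, τ x = x) →
      ∃ m : ℤ, A.valuation x = A.valuation (p : Qb) ^ m)
    (hR3 : ∀ b : Qb, b ≠ 0 → (∀ τ ∈ A.inertiaSubgroupIn ℚ, ∃ j : ℕ, τ b = ζ ^ j * b) →
      ∀ m : ℤ, A.valuation (b ^ p) = A.valuation (p : Qb) ^ m → ¬ (p : ℤ) ∣ m →
      ∃ σ ∈ A.inertiaSubgroupIn ℚ, σ ζ = ζ ∧ σ b = ζ * b)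
    (hRam : ∀ b : Qb, b ≠ 0 → (∀ τ ∈ A.inertiaSubgroupIn ℚ, ∃ j : ℕ, τ b = ζ ^ j * b) →
      ∀ m : ℤ, A.valuation (b ^ p) = A.valuation (p : Qb) ^ m → ¬ (p : ℤ) ∣ m →
      ∀ σ : GQb, σ ∈ A.inertiaSubgroupIn ℚ → σ ζ = ζ → σ b = ζ * b →
      ∀ z : Qb, z ∈ A → (∀ τ ∈ A.inertiaSubgroupIn ℚ, τ ζ = ζ → τ b = b → τ z = z) →
      A.valuation (σ z - z) ^ p ≤ A.valuation (ζ - 1) ^ (p + 1)) :
    ∃ b : Qb, b ≠ 0 ∧ b ^ p ∈ A ∧ (b ^ p)⁻¹ ∈ A ∧ ∀ σ ∈ A.inertiaSubgroupIn ℚ, ∃ k j : ℕ,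
      σ ζ = ζ ^ k ∧ σ • T = k • T ∧ σ b = ζ ^ j * b ∧ σ • R = R + j • T := by
  classical
  -- `T ≠ 0`
  have hT0 : T ≠ 0 := by
    rintro rfl
    have : A.valuation (xc (0 : (E⁄Qb).Point)) = 0 := by
      show A.valuation (0 : Qb) = 0
      exact map_zero _
    rw [this] at hxT
    exact absurd hxT (not_lt.mpr zero_le_one)
  have hp0 : (p : Qb) ≠ 0 := by
    exact_mod_cast hp.ne_zero
  have hvp : A.valuation (p : Qb) ≠ 0 := (A.valuation.ne_zero_iff).mpr hp0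
  have hζ1 : ζ ≠ 1 := hζ.ne_one hp.one_lt
  have hvlam : A.valuation (ζ - 1) ≠ 0 :=
    (A.valuation.ne_zero_iff).mpr (sub_ne_zero.mpr hζ1)
  -- the resolvent
  obtain ⟨b₀, hb₀, hb₀S⟩ := Kummer.exists_resolvent E p hp hp2 ζ hζ T R hT hT0 hRp hR
    (A.inertiaSubgroupIn ℚ : Set GQb) hS
  have hb₀j : ∀ τ ∈ A.inertiaSubgroupIn ℚ, ∃ j : ℕ, τ b₀ = ζ ^ j * b₀ := by
    intro τ hτ
    obtain ⟨k, j, -, -, hj, -⟩ := hb₀S τ hτ
    exact ⟨j, hj⟩
  -- `b₀ ^ p` is fixed by inertia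
  have hfix : ∀ τ ∈ A.inertiaSubgroupIn ℚ, τ (b₀ ^ p) = b₀ ^ p := by
    intro τ hτ
    obtain ⟨j, hj⟩ := hb₀j τ hτ
    rw [map_pow, hj, mul_pow, ← pow_mul, mul_comm j p, pow_mul, hζ.pow_eq_one, one_pow, one_mul]
  obtain ⟨m, hm⟩ := hR1 (b₀ ^ p) (pow_ne_zero _ hb₀) hfix
  by_cases hpm : (p : ℤ) ∣ m
  · -- peu ramifié: rescale
    obtain ⟨m', rfl⟩ := hpm
    obtain ⟨b, hb, hbA, hbA', hbσ⟩ :=
      Kummer.exists_unit_of_valuation A p (p : Qb) ζ b₀ hp0 hb₀ m' hm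
    refine ⟨b, hb, hbA, hbA', fun σ hσ => ?_⟩
    obtain ⟨k, j, hk, hkT, hjb, hjR⟩ := hb₀S σ hσ
    exact ⟨k, j, hk, hkT, hbσ σ (map_natCast σ p) j hjb, hjR⟩
  · -- très ramifié: contradiction
    exfalso
    obtain ⟨σ, hσ, hσζ, hσb⟩ := hR3 b₀ hb₀ hb₀j m hm hpm
    -- `σ R = R + T`
    have hσR : σ • R = R + T := by
      obtain ⟨k, j, -, -, hjb, hjR⟩ := hb₀S σ hσ
      have hj1 : j ≡ 1 [MOD p] := modEq_one_of_mul_eq hp.pos hζ hb₀ (hjb.symm.trans hσb)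
      rw [hjR, nsmul_eq_of_modEq hT hj1, one_smul]
    -- the unit `z`
    set z : Qb := xc R * (p : Qb) ^ (-n) with hz
    have hzval : A.valuation z = 1 := by
      rw [hz, map_mul, map_zpow₀, hn, ← zpow_add₀ hvp, add_neg_cancel, zpow_zero]
    have hzA : z ∈ A := (A.valuation_le_one_iff _).mp hzval.le
    have hzfix : ∀ τ ∈ A.inertiaSubgroupIn ℚ, τ ζ = ζ → τ b₀ = b₀ → τ z = z := by
      intro τ hτ _ hτb
      obtain ⟨k, j, -, -, hjb, hjR⟩ := hb₀S τ hτ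
      have hpj : p ∣ j := dvd_of_mul_eq hζ hb₀ (hjb.symm.trans hτb)
      have hjT : j • T = 0 := by
        obtain ⟨c, rfl⟩ := hpj
        rw [mul_smul, smul_comm, hT, nsmul_zero]
      have hτR : τ • R = R := by rw [hjR, hjT, add_zero]
      have hx : τ (xc R) = xc R := by rw [← Kummer.xc_smul, hτR]
      rw [hz, map_mul, hx, map_zpow₀, map_natCast]
    have hram := hRam b₀ hb₀ hb₀j m hm hpm σ hσ hσζ hσb z hzA hzfix
    -- the addition estimate
    have hσz : A.valuation (σ z - z) = A.valuation (xc T / yc T) := by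
      rcases T with _ | ⟨xT, yT, hTn⟩
      · exact absurd rfl hT0
      rcases R with _ | ⟨xR, yR, hRn⟩
      · exfalso
        have : A.valuation (xc (0 : (E⁄Qb).Point)) = 0 := by
          show A.valuation (0 : Qb) = 0
          exact map_zero _
        rw [show (Point.zero : (E⁄Qb).Point) = 0 from rfl, this] at hxR4
        exact absurd hxR4 (not_lt.mpr zero_le)
      simp only [xc_some, yc_some] at hxT hP hxR1 hxR4 hn hz ⊢
      obtain ⟨x₃, y₃, hSn, hsum, -, hform, -, -⟩ :=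
        AddEst.exists_add_val A.valuation h₃ h₆ h₁ h₂ hb₂ hRn hTn hxR1 hxR4 hxT
      have hσx : σ xR = x₃ := by
        have h1 : σ xR = xc (σ • (Point.some xR yR hRn : (E⁄Qb).Point)) := by
          rw [Kummer.xc_smul, xc_some]
        rw [h1, hσR, hsum, xc_some]
      have hdiff : σ z - z = (x₃ - xR) * (p : Qb) ^ (-n) := by
        rw [hz, map_mul, hσx, map_zpow₀, map_natCast]
        ring
      rw [hdiff, map_mul, hform, map_zpow₀, hn, mul_comm (A.valuation (p : Qb) ^ n), mul_assoc,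
        ← zpow_add₀ hvp, add_neg_cancel, zpow_zero, mul_one]
    rw [hσz] at hram
    have hlt : A.valuation (ζ - 1) ^ (p + 1) < A.valuation (ζ - 1) ^ p := by
      have h0 : 0 < A.valuation (ζ - 1) ^ p := pow_pos (zero_lt_iff.mpr hvlam) p
      calc A.valuation (ζ - 1) ^ (p + 1) = A.valuation (ζ - 1) ^ p * A.valuation (ζ - 1) :=
            pow_succ _ _
        _ < A.valuation (ζ - 1) ^ p * 1 := mul_lt_mul_of_pos_left hlam h0
        _ = A.valuation (ζ - 1) ^ p := mul_one _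
    have hle : A.valuation (ζ - 1) ^ p ≤ A.valuation (xc T / yc T) ^ p :=
      pow_le_pow_left₀ zero_le hP p
    exact absurd (lt_of_le_of_lt (hle.trans hram) hlt) (lt_irrefl _)

end Fermat.Agent.S44.G.Peu
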