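/-
PROGRAM MR (S44), strand G (helper48): the shape `σ R = R + j T` of `E[p]` at `p`.

For the Frey curve with `p ∣ abc` (multiplicative reduction at `p`), a place `A` of `ℚ̄` over `p`
and `σ` in the inertia group of `A`:

* `frey_inertia_sq_mem_E1` : `(σ - 1)² Q` lies in the kernel of reduction for EVERY point `Q`
  (transport of `S58.Unip.inertia_sq_mem_E1`, which has no hypothesis on the residue
  characteristic);
* `exists_smul_T`          : if the kernel `p`-torsion is `⟨T⟩` then `σ T = k T`;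
* `exists_shift`           : if moreover `R ∈ E[p] ∖ ⟨T⟩` then `σ R = R + j T`;
* `exists_shape`           : both, for all `σ` in the inertia group.

The group theory is abstract (`exists_nsmul_add_of_card`, `exists_shift_of_sq`): in a group whose
`p`-torsion has `p ^ 2` elements, `(s - 1)² R ∈ ⟨T⟩` and `s T ∈ ⟨T⟩` force `s R ∈ R + ⟨T⟩`.
-/
import Mathlib
import Fermat.Agent.S58.Unip
import Fermat.Agent.S06.FreyModel
import Fermat.Agent.Lib.TorsionCard

set_option autoImplicit false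

namespace Fermat.Agent.S44.G.Shape

open WeierstrassCurve WeierstrassCurve.Affine WeierstrassCurve.Affine.Point

/-! ### Abstract group theory -/

section Abstract

variable {G : Type*} [AddCommGroup G] {p : ℕ}

/-- An integer multiple of a `p`-torsion element is a natural multiple. -/
theorem exists_nsmul_eq_zsmul (hp : p ≠ 0) {T : G} (hT : p • T = 0) (m : ℤ) :
    ∃ k : ℕ, m • T = k • T := by
  refine ⟨(m % p).toNat, ?_⟩
  have h0 : 0 ≤ m % (p : ℤ) := Int.emod_nonneg _ (by exact_mod_cast hp)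
  have h1 : ((m % (p : ℤ)).toNat : ℤ) = m % p := Int.toNat_of_nonneg h0
  rw [← natCast_zsmul, h1]
  conv_lhs => rw [← Int.emod_add_mul_ediv m p]
  rw [add_zsmul, mul_comm, mul_zsmul, natCast_zsmul, hT, smul_zero, add_zero]

/-- Bezout: an element of exponent `p` is recovered from a multiple prime to `p`. -/
theorem eq_zsmul_of_not_dvd (hp : p.Prime) {R X : G} (hR : p • R = 0) {a : ℤ}
    (ha : ¬ (p : ℤ) ∣ a) (h : a • R = X) : ∃ u : ℤ, R = u • X := by
  have hcop : IsCoprime a (p : ℤ) :=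
    ((Nat.prime_iff_prime_int.mp hp).coprime_iff_not_dvd.mpr ha).symm
  obtain ⟨u, w, huw⟩ := hcop
  refine ⟨u, ?_⟩
  calc R = (u * a + w * p) • R := by rw [huw, one_zsmul]
    _ = u • (a • R) + w • ((p : ℤ) • R) := by rw [add_zsmul, mul_zsmul, mul_zsmul]
    _ = u • X := by rw [h, natCast_zsmul, hR, smul_zero, add_zero]

/-- If an integer prime to `p` times `R` is a multiple of `T`, so is `R` (`R`, `T` of exponent
`p`). -/
theorem exists_nsmul_of_zsmul_eq (hp : p.Prime) {T R : G} (hT : p • T = 0) (hR : p • R = 0)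
    {a m : ℤ} (ha : ¬ (p : ℤ) ∣ a) (h : a • R = m • T) : ∃ k : ℕ, R = k • T := by
  obtain ⟨u, hu⟩ := eq_zsmul_of_not_dvd hp hR ha h
  rw [← mul_zsmul] at hu
  obtain ⟨k, hk⟩ := exists_nsmul_eq_zsmul hp.ne_zero hT (u * m)
  exact ⟨k, hu.trans hk⟩

theorem fin_eq_of_dvd_sub {c c' : Fin p} (h : (p : ℤ) ∣ ((c : ℕ) : ℤ) - (c' : ℕ)) : c = c' := by
  have hlt : |((c : ℕ) : ℤ) - (c' : ℕ)| < p := by
    rw [abs_lt]; constructor <;> have := c.2 <;> have := c'.2 <;> omega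
  have h0 := Int.eq_zero_of_abs_lt_dvd h hlt
  apply Fin.ext
  omega

/-- Two independent elements of exponent `p` span the `p`-torsion when it has `p ^ 2`
elements. -/
theorem exists_nsmul_add_of_card (hp : p.Prime)
    (hcard : Nat.card {Q : G // p • Q = 0} = p ^ 2)
    {T R : G} (hT : p • T = 0) (hR : p • R = 0) (hT0 : T ≠ 0) (hRT : ∀ k : ℕ, R ≠ k • T)
    (Q : G) (hQ : p • Q = 0) : ∃ c d : ℕ, Q = c • R + d • T := by
  have : Finite {Q : G // p • Q = 0} :=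
    Nat.finite_of_card_ne_zero (by rw [hcard]; exact pow_ne_zero _ hp.ne_zero)
  let f : Fin p × Fin p → {Q : G // p • Q = 0} := fun cd =>
    ⟨(cd.1 : ℕ) • R + (cd.2 : ℕ) • T, by
      rw [smul_add, smul_comm p (cd.1 : ℕ) R, smul_comm p (cd.2 : ℕ) T, hR, hT, smul_zero,
        smul_zero, add_zero]⟩
  have hf : Function.Injective f := by
    rintro ⟨c, d⟩ ⟨c', d'⟩ h
    have h' : (c : ℕ) • R + (d : ℕ) • T = (c' : ℕ) • R + (d' : ℕ) • T := congrArg Subtype.val h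
    have h'' : ((c : ℕ) : ℤ) • R + ((d : ℕ) : ℤ) • T = ((c' : ℕ) : ℤ) • R + ((d' : ℕ) : ℤ) • T := by
      simpa only [natCast_zsmul] using h'
    have h2 : (((c : ℕ) : ℤ) - (c' : ℕ)) • R = (((d' : ℕ) : ℤ) - (d : ℕ)) • T := by
      have e : ((c : ℕ) : ℤ) • R - ((c' : ℕ) : ℤ) • R = ((d' : ℕ) : ℤ) • T - ((d : ℕ) : ℤ) • T := by
        rw [sub_eq_sub_iff_add_eq_add, h'', add_comm]
      rwa [← sub_smul, ← sub_smul] at e
    have hc : c = c' := by
      by_contra hne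
      have hnd : ¬ (p : ℤ) ∣ ((c : ℕ) : ℤ) - (c' : ℕ) := fun hdvd => hne (fin_eq_of_dvd_sub hdvd)
      obtain ⟨k, hk⟩ := exists_nsmul_of_zsmul_eq hp hT hR hnd h2
      exact hRT k hk
    subst hc
    have hd : d' = d := by
      by_contra hne
      have h3 : (((d' : ℕ) : ℤ) - (d : ℕ)) • T = 0 := by
        rw [← h2, sub_self, zero_zsmul]
      have hnd : ¬ (p : ℤ) ∣ ((d' : ℕ) : ℤ) - (d : ℕ) := fun hdvd => hne (fin_eq_of_dvd_sub hdvd)
      obtain ⟨u, hu⟩ := eq_zsmul_of_not_dvd hp hT hnd h3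
      exact hT0 (by rw [hu, smul_zero])
    rw [hd]
  have hbij : Function.Bijective f :=
    hf.bijective_of_nat_card_le (by simp [hcard, sq])
  obtain ⟨⟨c, d⟩, hcd⟩ := hbij.2 ⟨Q, hQ⟩
  exact ⟨c, d, (congrArg Subtype.val hcd).symm⟩

/-- **The shape lemma.**  If `s` is an additive endomorphism with `s T ∈ ⟨T⟩` and
`(s - 1)² R ∈ ⟨T⟩`, then `s R = R + j T`. -/
theorem exists_shift_of_sq (hp : p.Prime) {T R : G} (hT : p • T = 0) (hR : p • R = 0)
    (hRT : ∀ k : ℕ, R ≠ k • T)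
    (hspan : ∀ Q, p • Q = 0 → ∃ c d : ℕ, Q = c • R + d • T)
    (s : G →+ G) (k : ℕ) (hsT : s T = k • T)
    (hsq : ∃ n : ℕ, s (s R - R) - (s R - R) = n • T) :
    ∃ j : ℕ, s R = R + j • T := by
  have hsR : p • s R = 0 := by rw [← map_nsmul, hR, _root_.map_zero]
  obtain ⟨c, d, hcd⟩ := hspan (s R) hsR
  obtain ⟨n, hn⟩ := hsq
  have key : (((c : ℤ) - 1) ^ 2) • R
      = ((n : ℤ) - ((c : ℤ) - 1) * d - d * k + d) • T := by
    have e1 : s (s R - R) = c • (c • R + d • T) + d • (k • T) - (c • R + d • T) := by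
      rw [map_sub, hcd, map_add, map_nsmul, map_nsmul, hsT, ← hcd, hcd]
    rw [e1, hcd] at hn
    have hn' : (c : ℤ) • ((c : ℤ) • R + (d : ℤ) • T) + (d : ℤ) • ((k : ℤ) • T)
        - ((c : ℤ) • R + (d : ℤ) • T) - ((c : ℤ) • R + (d : ℤ) • T - R) = (n : ℤ) • T := by
      simpa only [natCast_zsmul] using hn
    have e2 : (((c : ℤ) - 1) ^ 2) • R
        = (c : ℤ) • ((c : ℤ) • R + (d : ℤ) • T) + (d : ℤ) • ((k : ℤ) • T)
          - ((c : ℤ) • R + (d : ℤ) • T) - ((c : ℤ) • R + (d : ℤ) • T - R)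
          - (((c : ℤ) - 1) * d + d * k - d) • T := by
      module
    rw [e2, hn']
    module
  have hdvd : (p : ℤ) ∣ (c : ℤ) - 1 := by
    by_contra hnd
    have hnd2 : ¬ (p : ℤ) ∣ ((c : ℤ) - 1) ^ 2 :=
      fun h => hnd ((Nat.prime_iff_prime_int.mp hp).dvd_of_dvd_pow h)
    obtain ⟨k', hk'⟩ := exists_nsmul_of_zsmul_eq hp hT hR hnd2 key
    exact hRT k' hk'
  obtain ⟨w, hw⟩ := hdvd
  refine ⟨d, ?_⟩
  rw [hcd]
  congr 1
  have : (c : ℤ) • R = R := by
    have hc : (c : ℤ) = 1 + p * w := by linarith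
    rw [hc, add_zsmul, one_zsmul, mul_comm, mul_zsmul, natCast_zsmul, hR, smul_zero, add_zero]
  rw [← natCast_zsmul, this]

end Abstract

/-! ### The Frey curve at `p` -/

section Frey

open Fermat.Agent.S58.Curve Fermat.Agent.S13.InertiaSq Fermat.Agent.S13.KerRedGroup
open Fermat.Agent.S06.FreyModel

local notation "Qb" => AlgebraicClosure ℚ
local notation "GQb" => (AlgebraicClosure ℚ ≃ₐ[ℚ] AlgebraicClosure ℚ)

/-- Transport of `S58.Unip.inertia_sq_mem_E1` along `W.map (Int.castRingHom ℚ) = E`. -/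
theorem inertia_sq_mem_E1_of_map (W : WeierstrassCurve ℤ) (E : WeierstrassCurve ℚ)
    (h : W.map (Int.castRingHom ℚ) = E) {A : ValuationSubring Qb}
    (hpt : Fermat.Agent.S58.Unip.NodePoint W A) {τ : GQb} (hτ : τ ∈ A.inertiaSubgroupIn ℚ)
    (Q : (E⁄Qb).Point) :
    InE1 A.valuation (E⁄Qb) (τ • (τ • Q - Q) - (τ • Q - Q)) := by
  subst h
  exact Fermat.Agent.S58.Unip.inertia_sq_mem_E1 W hpt hτ Q

/-- `p ∣ abc` gives `p ∣ Δ` for the integral Frey model. -/
theorem frey_dvd_disc (P : FreyPackage) (hp : (P.p : ℤ) ∣ P.a * P.b * P.c) :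
    (P.p : ℤ) ∣ P.freyCurveInt.Δ := by
  have hpp : Prime (P.p : ℤ) := Nat.prime_iff_prime_int.mp P.pp
  have h1 : (P.p : ℤ) ∣ 256 * P.freyCurveInt.Δ := by
    rw [freyCurveInt_disc]
    exact dvd_pow hp (by have := P.hp5; omega)
  rcases hpp.dvd_or_dvd h1 with h | h
  · exfalso
    have h2 : (P.p : ℤ) ∣ 2 := by
      have : (256 : ℤ) = 2 ^ 8 := by norm_num
      rw [this] at h
      exact hpp.dvd_of_dvd_pow h
    have h3 : P.p ∣ 2 := by exact_mod_cast h2
    have := Nat.le_of_dvd (by norm_num) h3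
    have := P.hp5
    omega
  · exact h

/-- The integral Frey model has a node point at every place over `p ∣ abc`. -/
theorem frey_nodePoint (P : FreyPackage) (hp : (P.p : ℤ) ∣ P.a * P.b * P.c)
    {A : ValuationSubring Qb} (hA : A.LiesOverPrime P.p) :
    Fermat.Agent.S58.Unip.NodePoint P.freyCurveInt A :=
  Fermat.Agent.S58.Unip.nodePoint_of_multiplicative P.freyCurveInt (freyCurveInt_disc_ne_zero P)
    P.pp (frey_dvd_disc P hp) (freyCurveInt_semistable P P.p P.pp (frey_dvd_disc P hp)) hA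

/-- **`(σ - 1)²` maps `E(ℚ̄)` into the kernel of reduction**, for `σ` in the inertia group of a
place over `p ∣ abc` (no torsion hypothesis). -/
theorem frey_inertia_sq_mem_E1 (P : FreyPackage) (hp : (P.p : ℤ) ∣ P.a * P.b * P.c)
    {A : ValuationSubring Qb} (hA : A.LiesOverPrime P.p) {σ : GQb}
    (hσ : σ ∈ A.inertiaSubgroupIn ℚ) (Q : (P.freyCurve⁄Qb).Point) :
    InE1 A.valuation (P.freyCurve⁄Qb) (σ • (σ • Q - Q) - (σ • Q - Q)) :=
  inertia_sq_mem_E1_of_map P.freyCurveInt P.freyCurve (freyCurveInt_map P)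
    (frey_nodePoint P hp hA) hσ Q

/-- The same in the `KerRed` vocabulary. -/
theorem frey_inertia_sq_kerRed (P : FreyPackage) (hp : (P.p : ℤ) ∣ P.a * P.b * P.c)
    {A : ValuationSubring Qb} (hA : A.LiesOverPrime P.p) {σ : GQb}
    (hσ : σ ∈ A.inertiaSubgroupIn ℚ) (Q : (P.freyCurve⁄Qb).Point) :
    KerRed A.valuation (P.freyCurve⁄Qb) (σ • (σ • Q - Q) - (σ • Q - Q)) :=
  (Fermat.Agent.S58.UnipNode.inE1_iff_kerRed A.valuation).mp
    (frey_inertia_sq_mem_E1 P hp hA hσ Q)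

/-- The inertia group preserves the kernel of reduction (any curve over `ℚ`). -/
theorem kerRed_smul (E : WeierstrassCurve ℚ) {A : ValuationSubring Qb} {σ : GQb}
    (hσ : σ ∈ A.inertiaSubgroupIn ℚ) {Q : (E⁄Qb).Point} (hQ : KerRed A.valuation (E⁄Qb) Q) :
    KerRed A.valuation (E⁄Qb) (σ • Q) := by
  have : Algebra.IsAlgebraic ℚ Qb := AlgebraicClosure.isAlgebraic ℚ
  rcases hQ with rfl | ⟨x, ⟨y, h, rfl⟩, hx⟩
  · exact Or.inl (smul_zero σ)
  · rw [algEquiv_smul_def, Point.map_some]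
    refine Or.inr ⟨σ.toAlgHom x, ⟨σ.toAlgHom y, _, rfl⟩, ?_⟩
    have hv : A.valuation (σ.toAlgHom x) = A.valuation x :=
      valuation_map_eq A σ (Fermat.Agent.S05.Glue.mem_iff_of_mem_inertia ℚ A σ hσ) x
    rw [hv]; exact hx

/-- If the kernel `p`-torsion is `⟨T⟩`, the inertia group stabilises `⟨T⟩`. -/
theorem exists_smul_T (E : WeierstrassCurve ℚ) (p : ℕ) {A : ValuationSubring Qb}
    {T : (E⁄Qb).Point} (hT : p • T = 0) (hTk : KerRed A.valuation (E⁄Qb) T)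
    (hE1 : ∀ Q : (E⁄Qb).Point, p • Q = 0 → KerRed A.valuation (E⁄Qb) Q → ∃ k : ℕ, Q = k • T)
    {σ : GQb} (hσ : σ ∈ A.inertiaSubgroupIn ℚ) : ∃ k : ℕ, σ • T = k • T :=
  hE1 (σ • T) (by rw [smul_comm p σ T, hT, smul_zero]) (kerRed_smul E hσ hTk)

/-- **The shift.**  For the Frey curve with `p ∣ abc`, a place `A` over `p`, `T` spanning the
kernel `p`-torsion and `R ∈ E[p] ∖ ⟨T⟩`: every `σ` in the inertia group with `σ T = k T` satisfies
`σ R = R + j T`. -/
theorem exists_shift (P : FreyPackage) (hp : (P.p : ℤ) ∣ P.a * P.b * P.c)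
    (A : ValuationSubring Qb) (hA : A.LiesOverPrime P.p) {T R : (P.freyCurve⁄Qb).Point}
    (hT : P.p • T = 0) (hT0 : T ≠ 0) (hR : P.p • R = 0) (hRT : ∀ k : ℕ, R ≠ k • T)
    (hE1 : ∀ Q : (P.freyCurve⁄Qb).Point, P.p • Q = 0 →
      KerRed A.valuation (P.freyCurve⁄Qb) Q → ∃ k : ℕ, Q = k • T)
    {σ : GQb} (hσ : σ ∈ A.inertiaSubgroupIn ℚ) {k : ℕ} (hσT : σ • T = k • T) :
    ∃ j : ℕ, σ • R = R + j • T := by
  have hcard : Nat.card {Q : (P.freyCurve⁄Qb).Point // P.p • Q = 0} = P.p ^ 2 :=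
    Fermat.Agent.Lib.TorsionCard.card_torsion (P.freyCurve⁄Qb) P.p P.hppos
  have hspan := exists_nsmul_add_of_card P.pp hcard hT hR hT0 hRT
  let s : (P.freyCurve⁄Qb).Point →+ (P.freyCurve⁄Qb).Point :=
    DistribSMul.toAddMonoidHom (P.freyCurve⁄Qb).Point σ
  have e1 : P.p • (σ • R) = 0 := by rw [smul_comm P.p σ R, hR, smul_zero]
  have e2 : P.p • (σ • σ • R) = 0 := by rw [smul_comm P.p σ (σ • R), e1, smul_zero]
  have e3 : σ • (σ • R - R) = σ • σ • R - σ • R := smul_sub σ _ _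
  have hQ : P.p • (σ • (σ • R - R) - (σ • R - R)) = 0 := by
    rw [e3, nsmul_sub, nsmul_sub, nsmul_sub, e1, e2, hR, sub_zero, sub_zero]
  have hsq : ∃ n : ℕ, s (s R - R) - (s R - R) = n • T :=
    hE1 _ hQ (frey_inertia_sq_kerRed P hp hA hσ R)
  exact exists_shift_of_sq P.pp hT hR hRT hspan s k hσT hsq

/-- **The shape of `E[p]` on inertia** (without the cyclotomic clause): `σ T = k T` and
`σ R = R + j T` for every `σ` in the inertia group. -/
theorem exists_shape (P : FreyPackage) (hp : (P.p : ℤ) ∣ P.a * P.b * P.c)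
    (A : ValuationSubring Qb) (hA : A.LiesOverPrime P.p) {T R : (P.freyCurve⁄Qb).Point}
    (hT : P.p • T = 0) (hT0 : T ≠ 0) (hTk : KerRed A.valuation (P.freyCurve⁄Qb) T)
    (hR : P.p • R = 0) (hRT : ∀ k : ℕ, R ≠ k • T)
    (hE1 : ∀ Q : (P.freyCurve⁄Qb).Point, P.p • Q = 0 →
      KerRed A.valuation (P.freyCurve⁄Qb) Q → ∃ k : ℕ, Q = k • T) :
    ∀ σ : GQb, σ ∈ A.inertiaSubgroupIn ℚ → ∃ k j : ℕ, σ • T = k • T ∧ σ • R = R + j • T := by
  intro σ hσ
  obtain ⟨k, hk⟩ := exists_smul_T P.freyCurve P.p hT hTk hE1 hσ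
  obtain ⟨j, hj⟩ := exists_shift P hp A hA hT hT0 hR hRT hE1 hσ hk
  exact ⟨k, j, hk, hj⟩

end Frey

end Fermat.Agent.S44.G.Shape
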