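import Mathlib
import Fermat.Prelude.Def_FLTPrelim_GaloisRep
import Fermat.Prelude.Def_FLTPrelim_Ramification
import Fermat.Agent.Lib.KerRedAny
import Fermat.Agent.S05.Shell
import Fermat.Agent.S05.Comp3
import Fermat.Agent.S44.G.Kummer
import Fermat.Agent.S44.G.AddEst
import Fermat.Agent.S44.G.Peu
import Fermat.Agent.S44.G.Shape

/-!
# S44 (Mazur's principle at `p`), strand G: the top of the Legendre model

Setting (`LegHyp A p α β d`): `p ≥ 5` prime, `A` a valuation subring of `ℚ̄` over `p`, integers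
`α = ± d ^ p` with `p ∣ d ≠ 0`, `β` and `α + β` prime to `p`; `E = Leg α β : Y² = X (X - α)(X + β)`
(node at `X = 0`, `v a₄ = v α < 1`, `v b₂ = 1`).

`legShape_of_bricks` proves the shape of `E[p]` on the inertia group of `A` (the body of
`Contract.EShape` on the Legendre model: the statement `LegGStatement` of the transport file)
from four bricks, each a `Prop` of this file:

* `KerStatement`  — the kernel of reduction contains a point `T` of order `p` spanning the kernel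
  `p`-torsion, some `p`-torsion point is outside the kernel, and `v (x T)^((p-1)/2) * v p = 1`;
* `NodeStatement` — no `p`-torsion point has `v x = 1` (no `p`-torsion in the smooth locus of the
  nodal cubic in characteristic `p`);
* `ChiStatement`  — `σ ζ = ζ ^ k ⟹ σ T = k T` on inertia;
* `R1Statement`, `R3Statement`, `RamStatement`, `LamStatement` — the ramification bricks
  (`S44/G/Ram.lean` literals and `S36/CycloBase.valuation_lam`).

Proved here: the component law in the form `v (x R) = v p ^ n` (`comp_law`, from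
`S05.Comp3.part3`), the shift `σ R = R + j T` (`exists_shift`, from `S58.Unip` through
`Shape.inertia_sq_mem_E1_of_map`), `(P'')` in the form consumed by `Peu.exists_unit_b`.
-/

set_option autoImplicit false

namespace Fermat.Agent.S44.G.LegTop

open WeierstrassCurve WeierstrassCurve.Affine WeierstrassCurve.Affine.Point
open Fermat.Agent.Lib.KerRedAny Fermat.Agent.Lib.TorsionCard
open Fermat.Agent.S05.Shell Fermat.Agent.S13.KerRedGroup

local notation "Qb" => AlgebraicClosure ℚ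
local notation "GQb" => (AlgebraicClosure ℚ ≃ₐ[ℚ] AlgebraicClosure ℚ)

/-- The hypotheses of the Legendre statement. -/
structure LegHyp (A : ValuationSubring Qb) (p : ℕ) (α β d : ℤ) : Prop where
  hp : p.Prime
  h5 : 5 ≤ p
  hA : A.LiesOverPrime p
  hd : d ≠ 0
  hpd : (p : ℤ) ∣ d
  hα : α = d ^ p ∨ α = -d ^ p
  hβ : ¬ (p : ℤ) ∣ β
  hαβ : ¬ (p : ℤ) ∣ α + β

/-! ### The bricks -/

/-- **(Ker)** The kernel of reduction of the Legendre model contains a point `T` of order `p`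
which spans the kernel `p`-torsion; some `p`-torsion point lies outside the kernel; and
`v (x T) ^ ((p - 1) / 2) * v p = 1`. -/
def KerStatement : Prop :=
  ∀ (A : ValuationSubring Qb) (p : ℕ) (α β d : ℤ), LegHyp A p α β d →
    ∃ T : ((Leg (α : ℚ) (β : ℚ))⁄Qb).Point, T ≠ 0 ∧ p • T = 0 ∧
      KerRed A.valuation ((Leg (α : ℚ) (β : ℚ))⁄Qb) T ∧
      (∀ Q : ((Leg (α : ℚ) (β : ℚ))⁄Qb).Point, p • Q = 0 →
        KerRed A.valuation ((Leg (α : ℚ) (β : ℚ))⁄Qb) Q → ∃ k : ℕ, Q = k • T) ∧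
      (∃ R : ((Leg (α : ℚ) (β : ℚ))⁄Qb).Point, p • R = 0 ∧
        ¬ KerRed A.valuation ((Leg (α : ℚ) (β : ℚ))⁄Qb) R) ∧
      ∀ x : Qb, HasXc ((Leg (α : ℚ) (β : ℚ))⁄Qb) T x →
        A.valuation x ^ ((p - 1) / 2) * A.valuation (p : Qb) = 1

/-- **(Node)** No `p`-torsion point of the Legendre model has an `x`-coordinate of valuation
exactly one. -/
def NodeStatement : Prop :=
  ∀ (A : ValuationSubring Qb) (p : ℕ) (α β d : ℤ), LegHyp A p α β d →
    ∀ (x y : Qb) (h : ((Leg (α : ℚ) (β : ℚ))⁄Qb).Nonsingular x y),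
      p • (Point.some x y h : ((Leg (α : ℚ) (β : ℚ))⁄Qb).Point) = 0 → A.valuation x ≠ 1

/-- **(Chi)** On the inertia group, `σ ζ = ζ ^ k` forces `σ T = k T` for the generator `T` of
the kernel `p`-torsion. -/
def ChiStatement : Prop :=
  ∀ (A : ValuationSubring Qb) (p : ℕ) (α β d : ℤ), LegHyp A p α β d →
    ∀ ζ : Qb, IsPrimitiveRoot ζ p →
    ∀ T : ((Leg (α : ℚ) (β : ℚ))⁄Qb).Point, T ≠ 0 → p • T = 0 →
      KerRed A.valuation ((Leg (α : ℚ) (β : ℚ))⁄Qb) T →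
      (∀ Q : ((Leg (α : ℚ) (β : ℚ))⁄Qb).Point, p • Q = 0 →
        KerRed A.valuation ((Leg (α : ℚ) (β : ℚ))⁄Qb) Q → ∃ k : ℕ, Q = k • T) →
      (∀ x : Qb, HasXc ((Leg (α : ℚ) (β : ℚ))⁄Qb) T x →
        A.valuation x ^ ((p - 1) / 2) * A.valuation (p : Qb) = 1) →
      ∀ σ : GQb, σ ∈ A.inertiaSubgroupIn ℚ → ∀ k : ℕ, σ ζ = ζ ^ k → σ • T = k • T

/-- **(R1)** Elements fixed by inertia have valuation a power of `v p`. -/
def R1Statement : Prop :=
  ∀ (A : ValuationSubring Qb) (p : ℕ), p.Prime → 5 ≤ p → A.LiesOverPrime p →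
    ∀ x : Qb, x ≠ 0 → (∀ τ ∈ A.inertiaSubgroupIn ℚ, τ x = x) →
      ∃ m : ℤ, A.valuation x = A.valuation (p : Qb) ^ m

/-- **(R3)** A très ramifié Kummer character is nontrivial on the stabiliser of `ζ`. -/
def R3Statement : Prop :=
  ∀ (A : ValuationSubring Qb) (p : ℕ), p.Prime → 5 ≤ p → A.LiesOverPrime p →
    ∀ ζ : Qb, IsPrimitiveRoot ζ p →
    ∀ b : Qb, b ≠ 0 → (∀ τ ∈ A.inertiaSubgroupIn ℚ, ∃ j : ℕ, τ b = ζ ^ j * b) →
      ∀ m : ℤ, A.valuation (b ^ p) = A.valuation (p : Qb) ^ m → ¬ (p : ℤ) ∣ m →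
      ∃ σ ∈ A.inertiaSubgroupIn ℚ, σ ζ = ζ ∧ σ b = ζ * b

/-- **(Ram)** In a très ramifié Kummer extension, `σ z - z` is deep for every integer `z` fixed
by the stabiliser of `ζ` and `b`. -/
def RamStatement : Prop :=
  ∀ (A : ValuationSubring Qb) (p : ℕ), p.Prime → 5 ≤ p → A.LiesOverPrime p →
    ∀ ζ : Qb, IsPrimitiveRoot ζ p →
    ∀ b : Qb, b ≠ 0 → (∀ τ ∈ A.inertiaSubgroupIn ℚ, ∃ j : ℕ, τ b = ζ ^ j * b) →
      ∀ m : ℤ, A.valuation (b ^ p) = A.valuation (p : Qb) ^ m → ¬ (p : ℤ) ∣ m →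
      ∀ σ : GQb, σ ∈ A.inertiaSubgroupIn ℚ → σ ζ = ζ → σ b = ζ * b →
      ∀ z : Qb, z ∈ A → (∀ τ ∈ A.inertiaSubgroupIn ℚ, τ ζ = ζ → τ b = b → τ z = z) →
      A.valuation (σ z - z) ^ p ≤ A.valuation (ζ - 1) ^ (p + 1)

/-- **(Lam)** `v (ζ - 1) < 1` and `v (ζ - 1) ^ (p - 1) = v p`. -/
def LamStatement : Prop :=
  ∀ (A : ValuationSubring Qb) (p : ℕ), p.Prime → 5 ≤ p → A.LiesOverPrime p →
    ∀ ζ : Qb, IsPrimitiveRoot ζ p →
      A.valuation (ζ - 1) < 1 ∧ A.valuation (ζ - 1) ^ (p - 1) = A.valuation (p : Qb)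

/-! ### Valuations in the Legendre setting -/

theorem val_int (A : ValuationSubring Qb) (c : ℤ) : A.valuation (c : Qb) ≤ 1 :=
  (A.valuation_le_one_iff _).mpr (intCast_mem A c)

/-! ### The coefficients of the model -/

theorem leg_val_a₁ (A : ValuationSubring Qb) (α β : ℤ) :
    A.valuation ((Leg (α : ℚ) (β : ℚ))⁄Qb).a₁ ≤ 1 := by
  rw [leg_a₁, _root_.map_zero]; exact zero_le_one

theorem leg_val_a₂ (A : ValuationSubring Qb) (α β : ℤ) :
    A.valuation ((Leg (α : ℚ) (β : ℚ))⁄Qb).a₂ ≤ 1 := by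
  rw [leg_a₂]
  have := val_int A (β - α)
  simpa using this

theorem leg_b₂_eq (α β : ℤ) : ((Leg (α : ℚ) (β : ℚ))⁄Qb).b₂ = ((4 * (β - α) : ℤ) : Qb) := by
  simp only [WeierstrassCurve.b₂, leg_a₁, leg_a₂]
  push_cast
  ring

theorem leg_val_b₄ (A : ValuationSubring Qb) (α β : ℤ) :
    A.valuation ((Leg (α : ℚ) (β : ℚ))⁄Qb).b₄ ≤ 1 := by
  have e : ((Leg (α : ℚ) (β : ℚ))⁄Qb).b₄ = ((-(2 * (α * β)) : ℤ) : Qb) := by
    simp only [WeierstrassCurve.b₄, leg_a₁, leg_a₃, leg_a₄]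
    push_cast
    ring
  rw [e]
  exact val_int A _

theorem leg_val_b₆ (A : ValuationSubring Qb) (α β : ℤ) :
    A.valuation ((Leg (α : ℚ) (β : ℚ))⁄Qb).b₆ ≤ 1 := by
  have e : ((Leg (α : ℚ) (β : ℚ))⁄Qb).b₆ = 0 := by
    simp only [WeierstrassCurve.b₆, leg_a₃, leg_a₆]
    ring
  rw [e, _root_.map_zero]
  exact zero_le_one

theorem leg_val_b₈ (A : ValuationSubring Qb) (α β : ℤ) :
    A.valuation ((Leg (α : ℚ) (β : ℚ))⁄Qb).b₈ ≤ 1 := by
  have e : ((Leg (α : ℚ) (β : ℚ))⁄Qb).b₈ = ((-(α * β) ^ 2 : ℤ) : Qb) := by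
    simp only [WeierstrassCurve.b₈, leg_a₁, leg_a₂, leg_a₃, leg_a₄, leg_a₆]
    push_cast
    ring
  rw [e]
  exact val_int A _

namespace LegHyp

variable {A : ValuationSubring Qb} {p : ℕ} {α β d : ℤ} (H : LegHyp A p α β d)
include H

theorem val_int_unit (c : ℤ) (hc : ¬ (p : ℤ) ∣ c) : A.valuation (c : Qb) = 1 :=
  valuation_intCast_eq_one A p H.hp H.hA c hc

theorem val_p_lt : A.valuation (p : Qb) < 1 := A.mem_nonunits_iff.mp H.hA

theorem p_ne_zero : (p : Qb) ≠ 0 := by exact_mod_cast H.hp.ne_zero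

theorem val_p_ne_zero : A.valuation (p : Qb) ≠ 0 := (A.valuation.ne_zero_iff).mpr H.p_ne_zero

theorem val_two : A.valuation (2 : Qb) = 1 := by
  have h : ¬ (p : ℤ) ∣ 2 := by
    intro h
    have h' : p ∣ 2 := by exact_mod_cast h
    have := Nat.le_of_dvd (by norm_num) h'
    have := H.h5
    omega
  simpa using H.val_int_unit 2 h

theorem val_beta : A.valuation (β : Qb) = 1 := H.val_int_unit β H.hβ

theorem val_alpha_add_beta : A.valuation ((α : Qb) + β) = 1 := by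
  have := H.val_int_unit (α + β) H.hαβ
  simpa using this

theorem alpha_ne_zero : α ≠ 0 := by
  rcases H.hα with h | h
  · rw [h]; exact pow_ne_zero _ H.hd
  · rw [h]; exact neg_ne_zero.mpr (pow_ne_zero _ H.hd)

theorem alpha_ne_zero' : (α : Qb) ≠ 0 := by exact_mod_cast H.alpha_ne_zero

theorem val_alpha : A.valuation (α : Qb) = A.valuation (d : Qb) ^ p := by
  rcases H.hα with h | h
  · rw [h]; push_cast; rw [map_pow]
  · rw [h]; push_cast; rw [Valuation.map_neg, map_pow]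

theorem val_d_lt : A.valuation (d : Qb) < 1 := by
  obtain ⟨c, rfl⟩ := H.hpd
  push_cast
  rw [map_mul]
  calc A.valuation (p : Qb) * A.valuation (c : Qb) ≤ A.valuation (p : Qb) * 1 :=
        mul_le_mul' le_rfl (val_int A c)
    _ = A.valuation (p : Qb) := mul_one _
    _ < 1 := H.val_p_lt

theorem val_alpha_lt : A.valuation (α : Qb) < 1 := by
  rw [H.val_alpha]
  exact pow_lt_one₀ zero_le H.val_d_lt H.hp.ne_zero

/-- `v d` is a power of `v p`. -/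
theorem exists_val_d : ∃ m : ℕ, A.valuation (d : Qb) = A.valuation (p : Qb) ^ m := by
  have hfin : FiniteMultiplicity (p : ℤ) d := by
    rw [Int.finiteMultiplicity_iff]
    refine ⟨?_, H.hd⟩
    rw [Int.natAbs_natCast]
    exact H.hp.ne_one
  obtain ⟨c, hc, hnd⟩ := hfin.exists_eq_pow_mul_and_not_dvd
  refine ⟨multiplicity (p : ℤ) d, ?_⟩
  conv_lhs => rw [hc]
  push_cast
  rw [map_mul, map_pow, H.val_int_unit c hnd, mul_one]

theorem p_ne_two : p ≠ 2 := by have := H.h5; omega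

theorem odd_p : Odd p := H.hp.odd_of_ne_two H.p_ne_two

theorem dvd_alpha : (p : ℤ) ∣ α := by
  rcases H.hα with h | h
  · rw [h]; exact dvd_pow H.hpd H.hp.ne_zero
  · rw [h]; exact (dvd_pow H.hpd H.hp.ne_zero).neg_right

theorem not_dvd_b₂ : ¬ (p : ℤ) ∣ 4 * (β - α) := by
  intro h
  have hpp : Prime (p : ℤ) := Nat.prime_iff_prime_int.mp H.hp
  rcases hpp.dvd_or_dvd h with h4 | h'
  · have h4' : p ∣ 4 := by exact_mod_cast h4
    have := Nat.le_of_dvd (by norm_num) h4'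
    have := H.h5
    omega
  · exact H.hβ (by simpa using dvd_add h' H.dvd_alpha)

theorem val_a₄ : A.valuation ((Leg (α : ℚ) (β : ℚ))⁄Qb).a₄ = A.valuation (α : Qb) := by
  rw [leg_a₄, Valuation.map_neg, map_mul, H.val_beta, mul_one]

theorem a₄_ne_zero : ((Leg (α : ℚ) (β : ℚ))⁄Qb).a₄ ≠ 0 := by
  rw [← A.valuation.ne_zero_iff, H.val_a₄]
  exact (A.valuation.ne_zero_iff).mpr H.alpha_ne_zero'

theorem val_b₂ : A.valuation ((Leg (α : ℚ) (β : ℚ))⁄Qb).b₂ = 1 := by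
  rw [leg_b₂_eq]
  exact H.val_int_unit _ H.not_dvd_b₂

theorem Δ_ne_zero : ((Leg (α : ℚ) (β : ℚ))⁄Qb).Δ ≠ 0 := by
  have e : ((Leg (α : ℚ) (β : ℚ))⁄Qb).Δ = 16 * (α : Qb) ^ 2 * (β : Qb) ^ 2 * ((α : Qb) + β) ^ 2 := by
    simp only [WeierstrassCurve.Δ, WeierstrassCurve.b₂, WeierstrassCurve.b₄, WeierstrassCurve.b₆,
      WeierstrassCurve.b₈, leg_a₁, leg_a₂, leg_a₃, leg_a₄, leg_a₆]
    ring
  rw [e]
  have hβ0 : (β : Qb) ≠ 0 := by
    intro h
    have := H.val_beta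
    rw [h, _root_.map_zero] at this
    exact zero_ne_one this
  have hαβ0 : (α : Qb) + β ≠ 0 := by
    intro h
    have := H.val_alpha_add_beta
    rw [h, _root_.map_zero] at this
    exact zero_ne_one this
  have h16 : (16 : Qb) ≠ 0 := by norm_num
  exact mul_ne_zero (mul_ne_zero (mul_ne_zero h16 (pow_ne_zero _ H.alpha_ne_zero'))
    (pow_ne_zero _ hβ0)) (pow_ne_zero _ hαβ0)

theorem isElliptic : ((Leg (α : ℚ) (β : ℚ))⁄Qb).IsElliptic :=
  ⟨isUnit_iff_ne_zero.mpr H.Δ_ne_zero⟩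

/-- The kernel of reduction is stable under multiples. -/
theorem kerRed_nsmul {T : ((Leg (α : ℚ) (β : ℚ))⁄Qb).Point}
    (hT : KerRed A.valuation ((Leg (α : ℚ) (β : ℚ))⁄Qb) T) (k : ℕ) :
    KerRed A.valuation ((Leg (α : ℚ) (β : ℚ))⁄Qb) (k • T) := by
  classical
  induction k with
  | zero => rw [zero_nsmul]; exact kerRed_zero _ _
  | succ k ih =>
    rw [succ_nsmul]
    exact kerRed_add A.valuation H.val_b₂.le (leg_val_b₄ A α β) (leg_val_b₆ A α β)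
      (leg_val_b₈ A α β) ih hT

/-- **The component law** at `p`: a `p`-torsion point reducing to the node has
`v α < v x` and `v x` a power of `v p`. -/
theorem comp_law {x y : Qb} (h : ((Leg (α : ℚ) (β : ℚ))⁄Qb).Nonsingular x y)
    (hQ : p • (Point.some x y h : ((Leg (α : ℚ) (β : ℚ))⁄Qb).Point) = 0)
    (hx : A.valuation x < 1) :
    A.valuation (α : Qb) < A.valuation x ∧ ∃ n : ℤ, A.valuation x = A.valuation (p : Qb) ^ n := by
  obtain ⟨h1, k, hk⟩ := Fermat.Agent.S05.Comp3.part3 A.valuation (leg_a₁ α β) (leg_a₃ α β)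
    (leg_a₆ α β) (leg_a₂ α β) (leg_a₄ α β) H.val_two H.val_beta H.val_alpha_lt H.alpha_ne_zero'
    H.odd_p h hQ hx
  obtain ⟨m, hm⟩ := H.exists_val_d
  refine ⟨h1, (m : ℤ) * (2 * k), ?_⟩
  apply (pow_left_inj₀ zero_le zero_le H.hp.ne_zero).mp
  rw [hk, H.val_alpha, hm, ← zpow_natCast (A.valuation (p : Qb) ^ ((m : ℤ) * (2 * k))) p,
    ← zpow_mul, ← pow_mul, ← zpow_natCast, ← zpow_mul]
  congr 1
  push_cast
  ring

/-- The parameter of a kernel point with `v x ^ ((p-1)/2) * v p = 1` has the valuation of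
`ζ - 1`. -/
theorem val_param {ζ : Qb} (hlam : A.valuation (ζ - 1) ^ (p - 1) = A.valuation (p : Qb))
    {x y : Qb} (h : ((Leg (α : ℚ) (β : ℚ))⁄Qb).Nonsingular x y) (hx : 1 < A.valuation x)
    (hPeq : A.valuation x ^ ((p - 1) / 2) * A.valuation (p : Qb) = 1) :
    A.valuation (x / y) = A.valuation (ζ - 1) := by
  obtain ⟨hxy, hy2⟩ := AddEst.val_kernel A.valuation (leg_a₃ α β) (leg_a₆ α β) (leg_val_a₁ A α β)
    (leg_val_a₂ A α β)
    (by rw [H.val_a₄]; exact H.val_alpha_lt.le) h.1 hx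
  have hx0 : A.valuation x ≠ 0 := (lt_trans zero_lt_one hx).ne'
  have hy0 : A.valuation y ≠ 0 := (lt_trans (lt_trans zero_lt_one hx) hxy).ne'
  have hs2 : A.valuation (x / y) ^ 2 = (A.valuation x)⁻¹ := by
    rw [map_div₀, div_pow, hy2]
    apply eq_inv_of_mul_eq_one_left
    rw [div_mul_eq_mul_div, ← pow_succ]
    exact div_self (pow_ne_zero _ hx0)
  obtain ⟨n, hn⟩ := H.odd_p
  have hn1 : p - 1 = 2 * n := by omega
  have hn2 : (p - 1) / 2 = n := by omega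
  rw [hn2] at hPeq
  have hp1 : p - 1 ≠ 0 := by have := H.h5; omega
  apply (pow_left_inj₀ zero_le zero_le hp1).mp
  rw [hlam, hn1, pow_mul, hs2, inv_pow]
  exact (eq_inv_of_mul_eq_one_right hPeq).symm

omit H in
/-- The Legendre model over `ℤ` maps to the Legendre model over `ℚ`. -/
theorem leg_map (α β : ℤ) : (Leg α β).map (Int.castRingHom ℚ) = Leg (α : ℚ) (β : ℚ) := by
  simp [Leg, WeierstrassCurve.map]

/-- The origin is a node point of the integral Legendre model at `A`. -/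
theorem nodePoint : Fermat.Agent.S58.Unip.NodePoint (Leg α β) A := by
  have e : Fermat.Agent.S58.Curve.EQ (Leg α β) = Leg (α : ℚ) (β : ℚ) := leg_map α β
  unfold Fermat.Agent.S58.Unip.NodePoint
  rw [e]
  refine ⟨0, 0, ?_, ?_, ?_, ?_, ?_, ?_⟩
  · rw [Affine.equation_iff, leg_a₆]
    ring
  · rw [leg_a₃]
    ring
  · rw [_root_.map_zero]
    exact zero_le_one
  · have e4 : 3 * (0 : Qb) ^ 2 + 2 * ((Leg (α : ℚ) (β : ℚ))⁄Qb).a₂ * 0 +
        ((Leg (α : ℚ) (β : ℚ))⁄Qb).a₄ - ((Leg (α : ℚ) (β : ℚ))⁄Qb).a₁ * 0 =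
        ((Leg (α : ℚ) (β : ℚ))⁄Qb).a₄ := by ring
    rw [e4, H.val_a₄]
    exact H.val_alpha_lt
  · have e4 : 3 * (0 : Qb) ^ 2 + 2 * ((Leg (α : ℚ) (β : ℚ))⁄Qb).a₂ * 0 +
        ((Leg (α : ℚ) (β : ℚ))⁄Qb).a₄ - ((Leg (α : ℚ) (β : ℚ))⁄Qb).a₁ * 0 =
        ((Leg (α : ℚ) (β : ℚ))⁄Qb).a₄ := by ring
    rw [e4]
    exact H.a₄_ne_zero
  · have e2 : ((Leg (α : ℚ) (β : ℚ))⁄Qb).a₁ ^ 2 + 4 * ((Leg (α : ℚ) (β : ℚ))⁄Qb).a₂ + 12 * 0 =
        ((Leg (α : ℚ) (β : ℚ))⁄Qb).b₂ := by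
      simp only [WeierstrassCurve.b₂]
      ring
    rw [e2]
    exact H.val_b₂

/-- **The shift** on the Legendre model: if `T` spans the kernel `p`-torsion and
`R ∈ E[p] ∖ ⟨T⟩`, every `σ` in the inertia group with `σ T = k T` satisfies `σ R = R + j T`. -/
theorem exists_shift {T R : ((Leg (α : ℚ) (β : ℚ))⁄Qb).Point}
    (hT : p • T = 0) (hT0 : T ≠ 0) (hR : p • R = 0) (hRT : ∀ k : ℕ, R ≠ k • T)
    (hE1 : ∀ Q : ((Leg (α : ℚ) (β : ℚ))⁄Qb).Point, p • Q = 0 →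
      KerRed A.valuation ((Leg (α : ℚ) (β : ℚ))⁄Qb) Q → ∃ k : ℕ, Q = k • T)
    {σ : GQb} (hσ : σ ∈ A.inertiaSubgroupIn ℚ) {k : ℕ} (hσT : σ • T = k • T) :
    ∃ j : ℕ, σ • R = R + j • T := by
  classical
  have := H.isElliptic
  have hcard : Nat.card {Q : ((Leg (α : ℚ) (β : ℚ))⁄Qb).Point // p • Q = 0} = p ^ 2 :=
    Fermat.Agent.Lib.TorsionCard.card_torsion ((Leg (α : ℚ) (β : ℚ))⁄Qb) p H.hp.pos
  have hspan := Shape.exists_nsmul_add_of_card H.hp hcard hT hR hT0 hRT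
  let s : ((Leg (α : ℚ) (β : ℚ))⁄Qb).Point →+ ((Leg (α : ℚ) (β : ℚ))⁄Qb).Point :=
    DistribSMul.toAddMonoidHom ((Leg (α : ℚ) (β : ℚ))⁄Qb).Point σ
  have e1 : p • (σ • R) = 0 := by rw [smul_comm p σ R, hR, smul_zero]
  have e2 : p • (σ • σ • R) = 0 := by rw [smul_comm p σ (σ • R), e1, smul_zero]
  have e3 : σ • (σ • R - R) = σ • σ • R - σ • R := smul_sub σ _ _
  have hQ : p • (σ • (σ • R - R) - (σ • R - R)) = 0 := by
    rw [e3, nsmul_sub, nsmul_sub, nsmul_sub, e1, e2, hR, sub_zero, sub_zero]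
  have hker : KerRed A.valuation ((Leg (α : ℚ) (β : ℚ))⁄Qb) (σ • (σ • R - R) - (σ • R - R)) :=
    (Fermat.Agent.S58.UnipNode.inE1_iff_kerRed A.valuation).mp
      (Shape.inertia_sq_mem_E1_of_map (Leg α β) (Leg (α : ℚ) (β : ℚ)) (leg_map α β)
        H.nodePoint hσ R)
  have hsq : ∃ n : ℕ, s (s R - R) - (s R - R) = n • T := hE1 _ hQ hker
  exact Shape.exists_shift_of_sq H.hp hT hR hRT hspan s k hσT hsq

end LegHyp

/-! ### The top -/

/-- **Strand G on the Legendre model, from the bricks**: the shape of `E[p]` on the inertia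
group at `p` (the body of `Contract.EShape` for `Leg α β`). -/
theorem legShape_of_bricks (hKer : KerStatement) (hNode : NodeStatement) (hChi : ChiStatement)
    (hR1 : R1Statement) (hR3 : R3Statement) (hRam : RamStatement) (hLam : LamStatement)
    (A : ValuationSubring Qb) (p : ℕ) (α β d : ℤ) (H : LegHyp A p α β d) :
    ∃ (T R : ((Leg (α : ℚ) (β : ℚ))⁄Qb).Point) (ζ b : Qb),
      p • T = 0 ∧ p • R = 0 ∧ T ≠ 0 ∧ (∀ k : ℕ, R ≠ k • T) ∧
      IsPrimitiveRoot ζ p ∧ b ≠ 0 ∧ b ^ p ∈ A ∧ (b ^ p)⁻¹ ∈ A ∧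
      ∀ σ : GQb, σ ∈ A.inertiaSubgroupIn ℚ →
        ∃ k j : ℕ, σ ζ = ζ ^ k ∧ σ • T = k • T ∧ σ b = ζ ^ j * b ∧ σ • R = R + j • T := by
  classical
  obtain ⟨T, hT0, hT, hTk, hE1, ⟨R, hRp, hRk⟩, hPeq⟩ := hKer A p α β d H
  have : NeZero p := ⟨H.hp.ne_zero⟩
  obtain ⟨ζ, hζ⟩ := HasEnoughRootsOfUnity.exists_primitiveRoot Qb p
  obtain ⟨hlam1, hlam⟩ := hLam A p H.hp H.h5 H.hA ζ hζ
  -- `R` is not a multiple of `T`
  have hRT : ∀ k : ℕ, R ≠ k • T := fun k hk => hRk (hk ▸ H.kerRed_nsmul hTk k)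
  -- the inertia action
  have hS : ∀ σ ∈ A.inertiaSubgroupIn ℚ, ∃ k j : ℕ,
      σ ζ = ζ ^ k ∧ σ • T = k • T ∧ σ • R = R + j • T := by
    intro σ hσ
    obtain ⟨k, -, hk⟩ := hζ.eq_pow_of_pow_eq_one (ξ := σ ζ)
      (by rw [← map_pow, hζ.pow_eq_one, map_one])
    have hkT := hChi A p α β d H ζ hζ T hT0 hT hTk hE1 hPeq σ hσ k hk.symm
    obtain ⟨j, hj⟩ := H.exists_shift hT hT0 hRp hRT hE1 hσ hkT
    exact ⟨k, j, hk.symm, hkT, hj⟩
  -- coordinates of `T`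
  have hTc : 1 < A.valuation (xc T) ∧
      A.valuation (ζ - 1) ≤ A.valuation (xc T / yc T) := by
    rcases hTk with h0 | ⟨x, ⟨y, h, rfl⟩, hx⟩
    · exact absurd h0 hT0
    · rw [xc_some, yc_some]
      exact ⟨hx, (H.val_param hlam h hx (hPeq x ⟨y, h, rfl⟩)).ge⟩
  -- coordinates of `R`
  have hRc : A.valuation (xc R) < 1 ∧
      A.valuation ((Leg (α : ℚ) (β : ℚ))⁄Qb).a₄ < A.valuation (xc R) ∧
      ∃ n : ℤ, A.valuation (xc R) = A.valuation (p : Qb) ^ n := by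
    rcases R with _ | ⟨x, y, h⟩
    · exact absurd (kerRed_zero _ _) hRk
    · rw [xc_some]
      have hle : A.valuation x ≤ 1 := by
        by_contra hcon
        exact hRk ((kerRed_some_iff A.valuation h).mpr (not_le.mp hcon))
      have hlt : A.valuation x < 1 := lt_of_le_of_ne hle (hNode A p α β d H x y h hRp)
      obtain ⟨h1, n, hn⟩ := H.comp_law h hRp hlt
      exact ⟨hlt, by rw [H.val_a₄]; exact h1, n, hn⟩
  obtain ⟨hxR1, hxR4, n, hn⟩ := hRc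
  obtain ⟨b, hb, hbA, hbA', hbS⟩ := Peu.exists_unit_b (Leg (α : ℚ) (β : ℚ)) A p H.hp H.p_ne_two ζ hζ
    hlam1 (leg_a₃ α β) (leg_a₆ α β) (leg_val_a₁ A α β) (leg_val_a₂ A α β) H.val_b₂ T R hT hRp hRT
    hTc.1 hTc.2 hxR1 hxR4 n hn hS (hR1 A p H.hp H.h5 H.hA) (hR3 A p H.hp H.h5 H.hA ζ hζ)
    (hRam A p H.hp H.h5 H.hA ζ hζ)
  exact ⟨T, R, ζ, b, hT, hRp, hT0, hRT, hζ, hb, hbA, hbA', hbS⟩

/-- The same in curried form (the literal `LegGStatement` of the transport file). -/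
theorem legGStatement_of_bricks (hKer : KerStatement) (hNode : NodeStatement)
    (hChi : ChiStatement) (hR1 : R1Statement) (hR3 : R3Statement) (hRam : RamStatement)
    (hLam : LamStatement) :
    ∀ (A : ValuationSubring Qb) (p : ℕ) (α β d : ℤ), p.Prime → 5 ≤ p → A.LiesOverPrime p →
      d ≠ 0 → (p : ℤ) ∣ d → (α = d ^ p ∨ α = -d ^ p) → ¬ (p : ℤ) ∣ β → ¬ (p : ℤ) ∣ α + β →
      ∃ (T R : ((Leg (α : ℚ) (β : ℚ))⁄Qb).Point) (ζ b : Qb),
        p • T = 0 ∧ p • R = 0 ∧ T ≠ 0 ∧ (∀ k : ℕ, R ≠ k • T) ∧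
        IsPrimitiveRoot ζ p ∧ b ≠ 0 ∧ b ^ p ∈ A ∧ (b ^ p)⁻¹ ∈ A ∧
        ∀ σ : GQb, σ ∈ A.inertiaSubgroupIn ℚ →
          ∃ k j : ℕ, σ ζ = ζ ^ k ∧ σ • T = k • T ∧ σ b = ζ ^ j * b ∧ σ • R = R + j • T :=
  fun A p α β d hp h5 hA hd hpd hα hβ hαβ =>
    legShape_of_bricks hKer hNode hChi hR1 hR3 hRam hLam A p α β d ⟨hp, h5, hA, hd, hpd, hα, hβ, hαβ⟩

end Fermat.Agent.S44.G.LegTop
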