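import Mathlib
import Fermat.Agent.S44.G.LegTop
import Fermat.Agent.S44.G.KerLine

/-!
# S44, strand G: the kernel line on the Legendre model

`kerStatement : LegTop.KerStatement` — for `E = Leg α β` in the setting `LegHyp A p α β d`, the
kernel of reduction contains a point `T` of order `p` spanning the kernel `p`-torsion, some
`p`-torsion point lies outside the kernel, and `v (x T) ^ ((p - 1) / 2) * v p = 1`.

This is `KerLine.exists_kernel_line` at the two 2-torsion abscissae `-β` (where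
`phiTwo = (β (α + β))²` is a unit) and `0` (where `phiTwo = (α β)²` is deep).
-/

set_option autoImplicit false

namespace Fermat.Agent.S44.G.LegKer

open WeierstrassCurve WeierstrassCurve.Affine
open Fermat.Agent.Lib.TorsionCard Fermat.Agent.S05.Shell Fermat.Agent.S13.KerRedGroup
open Fermat.Agent.S44.G.LegTop

local notation "Qb" => AlgebraicClosure ℚ

theorem leg_b₄_eq (α β : ℤ) :
    ((Leg (α : ℚ) (β : ℚ))⁄Qb).b₄ = -(2 * ((α : Qb) * β)) := by
  simp only [WeierstrassCurve.b₄, leg_a₁, leg_a₃, leg_a₄]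
  ring

theorem leg_b₆_eq (α β : ℤ) : ((Leg (α : ℚ) (β : ℚ))⁄Qb).b₆ = 0 := by
  simp only [WeierstrassCurve.b₆, leg_a₃, leg_a₆]
  ring

theorem leg_b₈_eq (α β : ℤ) : ((Leg (α : ℚ) (β : ℚ))⁄Qb).b₈ = -((α : Qb) * β) ^ 2 := by
  simp only [WeierstrassCurve.b₈, leg_a₁, leg_a₂, leg_a₃, leg_a₄, leg_a₆]
  ring

theorem leg_b₂_eq' (α β : ℤ) : ((Leg (α : ℚ) (β : ℚ))⁄Qb).b₂ = 4 * ((β : Qb) - α) := by
  rw [leg_b₂_eq]
  push_cast
  ring

/-- **(Ker) on the Legendre model.** -/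
theorem kerStatement : KerStatement := by
  intro A p α β d H
  classical
  have := H.isElliptic
  have hB : Fermat.Agent.S13.KerRedGen.IntB A.valuation ((Leg (α : ℚ) (β : ℚ))⁄Qb) :=
    ⟨H.val_b₂.le, leg_val_b₄ A α β, leg_val_b₆ A α β, leg_val_b₈ A α β⟩
  -- the unit 2-torsion abscissa `-β`
  have hcu : (psiSq ((Leg (α : ℚ) (β : ℚ))⁄Qb)).eval (-(β : Qb)) = 0 := by
    rw [eval_psiSq, leg_b₂_eq', leg_b₄_eq, leg_b₆_eq]
    ring
  have hcuv : A.valuation (-(β : Qb)) ≤ 1 := by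
    rw [Valuation.map_neg]; exact H.val_beta.le
  have hφu : A.valuation ((phiTwo ((Leg (α : ℚ) (β : ℚ))⁄Qb)).eval (-(β : Qb))) = 1 := by
    have e : (phiTwo ((Leg (α : ℚ) (β : ℚ))⁄Qb)).eval (-(β : Qb)) =
        ((β : Qb) * ((α : Qb) + β)) ^ 2 := by
      rw [eval_phiTwo, leg_b₄_eq, leg_b₆_eq, leg_b₈_eq]
      ring
    rw [e, map_pow, map_mul, H.val_beta, H.val_alpha_add_beta, one_mul, one_pow]
  -- the deep 2-torsion abscissa `0`
  have hcn : (psiSq ((Leg (α : ℚ) (β : ℚ))⁄Qb)).eval (0 : Qb) = 0 := by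
    rw [eval_psiSq, leg_b₆_eq]
    ring
  have hcnv : A.valuation (0 : Qb) ≤ 1 := by
    rw [map_zero]; exact zero_le_one
  have hφn : A.valuation ((phiTwo ((Leg (α : ℚ) (β : ℚ))⁄Qb)).eval (0 : Qb)) ^ ((p ^ 2 - 1) / 4)
      < A.valuation (p : Qb) ^ 2 := by
    have e : (phiTwo ((Leg (α : ℚ) (β : ℚ))⁄Qb)).eval (0 : Qb) = ((α : Qb) * β) ^ 2 := by
      rw [eval_phiTwo, leg_b₄_eq, leg_b₆_eq, leg_b₈_eq]
      ring
    rw [e, map_pow, map_mul, H.val_beta, mul_one, H.val_alpha]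
    have hdp : A.valuation (d : Qb) ≤ A.valuation (p : Qb) := by
      obtain ⟨c, rfl⟩ := H.hpd
      push_cast
      rw [map_mul]
      calc A.valuation (p : Qb) * A.valuation (c : Qb) ≤ A.valuation (p : Qb) * 1 :=
            mul_le_mul' le_rfl (val_int A c)
        _ = A.valuation (p : Qb) := mul_one _
    have h25 : 5 ^ 2 ≤ p ^ 2 := Nat.pow_le_pow_left H.h5 2
    have hN : 1 ≤ (p ^ 2 - 1) / 4 := by omega
    have hexp : 2 < p * 2 * ((p ^ 2 - 1) / 4) :=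
      calc 2 < 5 * 2 * 1 := by norm_num
        _ ≤ p * 2 * ((p ^ 2 - 1) / 4) := Nat.mul_le_mul (Nat.mul_le_mul H.h5 le_rfl) hN
    have hp0 : 0 < A.valuation (p : Qb) := zero_lt_iff.mpr H.val_p_ne_zero
    calc ((A.valuation (d : Qb) ^ p) ^ 2) ^ ((p ^ 2 - 1) / 4)
        ≤ ((A.valuation (p : Qb) ^ p) ^ 2) ^ ((p ^ 2 - 1) / 4) :=
          pow_le_pow_left₀ zero_le (pow_le_pow_left₀ zero_le (pow_le_pow_left₀ zero_le hdp p) 2) _
      _ = A.valuation (p : Qb) ^ (p * 2 * ((p ^ 2 - 1) / 4)) := by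
          rw [← pow_mul, ← pow_mul, mul_assoc]
      _ < A.valuation (p : Qb) ^ 2 := pow_lt_pow_right_of_lt_one₀ hp0 H.val_p_lt hexp
  obtain ⟨T, hT0, hpT, hTk, hline, hR, hx⟩ :=
    KerLine.exists_kernel_line ((Leg (α : ℚ) (β : ℚ))⁄Qb) A.valuation hB H.hp H.p_ne_two
      H.val_p_lt hcu hcuv hφu hcn hcnv hφn
  exact ⟨T, hT0, hpT, hTk, hline, hR, fun x hx' => by rw [mul_comm]; exact hx x hx'⟩

end Fermat.Agent.S44.G.LegKer
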