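import Mathlib
import Fermat.Agent.S44.G.LegTop
import Fermat.Agent.S44.G.Ram

/-!
# S44, strand G: the ramification bricks of `LegTop` from `S44/G/Ram.lean`

`r1Statement`, `r3Statement`, `ramStatement`, `lamStatement`: the four model-free bricks of
`LegTop.legShape_of_bricks` are `Ram.exists_valuation_eq_zpow_of_fixed`,
`Ram.exists_inertia_kummer`, `Ram.ram` and `S36.CycloBase.valuation_lam`.
-/

set_option autoImplicit false

namespace Fermat.Agent.S44.G.LegRam

theorem r1Statement : LegTop.R1Statement :=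
  fun A _ hp _ hA x hx0 hx => Ram.exists_valuation_eq_zpow_of_fixed A hp hA x hx0 hx

theorem r3Statement : LegTop.R3Statement :=
  fun A _ hp _ hA _ hζ b hb0 hb m hm hpm =>
    Ram.exists_inertia_kummer A hp hA hζ b hb0 hb m hm hpm

theorem ramStatement : LegTop.RamStatement :=
  fun A _ hp _ hA _ hζ b hb0 hb m hm hpm σ hσ hσζ hσb z hzA hz =>
    Ram.ram A hp hA hζ b hb0 hb m hm hpm σ hσ hσζ hσb z hzA hz

theorem lamStatement : LegTop.LamStatement :=
  fun A _ hp _ hA _ hζ => Fermat.Agent.S36.CycloBase.valuation_lam A hp hA hζ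

end Fermat.Agent.S44.G.LegRam
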