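import Mathlib
import Fermat.Agent.S44.G.LegTop
import Fermat.Agent.S44.G.LegRam
import Fermat.Agent.S44.G.LegKer
import Fermat.Agent.S44.G.Chi
import Fermat.Agent.S44.G.KerLine
import Fermat.Agent.S44.G.GShell

/-!
# S44 (Mazur's principle at `p`), strand G: `Contract.GStatement` is a theorem

`gStatement : Contract.GStatement` — for the Frey curve with `p ∣ abc` and every valuation
subring `A` of `ℚ̄` over `p`, the `p`-torsion restricted to the inertia group of `A` has the shape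
`[χ a; 0 1]` with `a` the Kummer cocycle of a unit (`Contract.EShape`).

Assembly on the Legendre model `Y² = X (X - α)(X + β)` (`LegTop.LegHyp`):

* `T`: the generator of the kernel `p`-torsion (`LegKer.kerStatement`, from `KerLine`);
* `R`: a `p`-torsion point reducing to the node (`exists_near_node`: the value of the `p`-division
  denominator at the 2-torsion abscissa `0` is too small for all torsion abscissae to be units),
  with `v (x R)` a power of `v p` (`LegTop.LegHyp.comp_law`);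
* `σ ζ = ζ ^ k ⟹ σ T = k T` (`chiStatement`, from `Chi.chi_line_kerRed`);
* `σ R = R + j T` (`LegTop.LegHyp.exists_shift`);
* the unit `b` (`Peu.exists_unit_b` with the ramification bricks of `LegRam`);

then `Transport.shape_frey` / `GShell.gStatement_of_leg`.
-/

set_option autoImplicit false

namespace Fermat.Agent.S44.G.GFinal

open WeierstrassCurve WeierstrassCurve.Affine WeierstrassCurve.Affine.Point
open Fermat.Agent.Lib.KerRedAny Fermat.Agent.Lib.TorsionCard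
open Fermat.Agent.S05.Shell Fermat.Agent.S13.KerRedGroup
open Fermat.Agent.S44.G.LegTop

local notation "Qb" => AlgebraicClosure ℚ
local notation "GQb" => (AlgebraicClosure ℚ ≃ₐ[ℚ] AlgebraicClosure ℚ)

variable {A : ValuationSubring Qb} {p : ℕ} {α β d : ℤ}

/-- The value of `phiTwo` at the node abscissa `0` is deep. -/
theorem val_phiTwo_zero_lt (H : LegHyp A p α β d) :
    A.valuation ((phiTwo ((Leg (α : ℚ) (β : ℚ))⁄Qb)).eval (0 : Qb)) ^ ((p ^ 2 - 1) / 4)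
      < A.valuation (p : Qb) ^ 2 := by
  have e : (phiTwo ((Leg (α : ℚ) (β : ℚ))⁄Qb)).eval (0 : Qb) = ((α : Qb) * β) ^ 2 := by
    rw [eval_phiTwo, LegKer.leg_b₄_eq, LegKer.leg_b₆_eq, LegKer.leg_b₈_eq]
    ring
  rw [e, map_pow, map_mul, H.val_beta, mul_one, H.val_alpha]
  have hdp : A.valuation (d : Qb) ≤ A.valuation (p : Qb) := by
    obtain ⟨c, rfl⟩ := H.hpd
    push_cast
    rw [map_mul]
    calc A.valuation (p : Qb) * A.valuation (c : Qb) ≤ A.valuation (p : Qb) * 1 :=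
          mul_le_mul' le_rfl (val_int A c)
      _ = A.valuation (p : Qb) := mul_one _
  have h25 : 5 ^ 2 ≤ p ^ 2 := Nat.pow_le_pow_left H.h5 2
  have hN : 1 ≤ (p ^ 2 - 1) / 4 := by omega
  have hexp : 2 < p * 2 * ((p ^ 2 - 1) / 4) :=
    calc 2 < 5 * 2 * 1 := by norm_num
      _ ≤ p * 2 * ((p ^ 2 - 1) / 4) := Nat.mul_le_mul (Nat.mul_le_mul H.h5 le_rfl) hN
  have hp0 : 0 < A.valuation (p : Qb) := zero_lt_iff.mpr H.val_p_ne_zero
  calc ((A.valuation (d : Qb) ^ p) ^ 2) ^ ((p ^ 2 - 1) / 4)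
      ≤ ((A.valuation (p : Qb) ^ p) ^ 2) ^ ((p ^ 2 - 1) / 4) :=
        pow_le_pow_left₀ zero_le (pow_le_pow_left₀ zero_le (pow_le_pow_left₀ zero_le hdp p) 2) _
    _ = A.valuation (p : Qb) ^ (p * 2 * ((p ^ 2 - 1) / 4)) := by
        rw [← pow_mul, ← pow_mul, mul_assoc]
    _ < A.valuation (p : Qb) ^ 2 := pow_lt_pow_right_of_lt_one₀ hp0 H.val_p_lt hexp

/-- **A `p`-torsion point reducing to the node**: the value of the `p`-division denominator at
the 2-torsion abscissa `0` is too small for all torsion abscissae to be integral units. -/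
theorem exists_near_node (H : LegHyp A p α β d) :
    ∃ (x y : Qb) (h : ((Leg (α : ℚ) (β : ℚ))⁄Qb).Nonsingular x y),
      p • (Point.some x y h : ((Leg (α : ℚ) (β : ℚ))⁄Qb).Point) = 0 ∧ A.valuation x < 1 := by
  classical
  have := H.isElliptic
  obtain ⟨T, hT, hval⟩ := KerLine.val_denX_eval ((Leg (α : ℚ) (β : ℚ))⁄Qb) A.valuation H.odd_p
  have hcn : (psiSq ((Leg (α : ℚ) (β : ℚ))⁄Qb)).eval (0 : Qb) = 0 := by
    rw [eval_psiSq, LegKer.leg_b₆_eq]
    ring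
  have h := hval 0
  rw [TwoTors.denX_eval_two_torsion ((Leg (α : ℚ) (β : ℚ))⁄Qb) hcn H.odd_p, map_pow] at h
  have hφn := val_phiTwo_zero_lt H
  by_contra hcon
  push Not at hcon
  have hge : ∀ x ∈ T, 1 ≤ A.valuation (0 - x) := by
    intro x hx
    obtain ⟨P, -, hpP, y, hy, rfl⟩ := (hT x).mp hx
    rw [zero_sub, Valuation.map_neg]
    exact hcon x y hy hpP
  have h1 : 1 ≤ ∏ x ∈ T, A.valuation (0 - x) := Finset.one_le_prod' hge
  have h2 : A.valuation (p : Qb) ^ 2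
      ≤ A.valuation (p : Qb) ^ 2 * (∏ x ∈ T, A.valuation (0 - x)) ^ 2 :=
    le_mul_of_one_le_right' (one_le_pow_of_one_le' h1 2)
  rw [← h] at h2
  exact absurd hφn (not_lt.mpr h2)

/-- **(Chi) on the Legendre model**: on inertia, `σ ζ = ζ ^ k` forces `σ T = k T`. -/
theorem chiStatement : ChiStatement := by
  intro A p α β d H ζ hζ T hT0 hT hTk hE1 hPP σ hσ k hk
  obtain ⟨-, hlam⟩ := LegRam.lamStatement A p H.hp H.h5 H.hA ζ hζ
  obtain ⟨k', hk'⟩ := Shape.exists_smul_T (Leg (α : ℚ) (β : ℚ)) p hT hTk hE1 hσ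
  have h₃ : A.valuation ((Leg (α : ℚ) (β : ℚ))⁄Qb).a₃ ≤ 1 := by
    rw [leg_a₃, _root_.map_zero]; exact zero_le_one
  have h₄ : A.valuation ((Leg (α : ℚ) (β : ℚ))⁄Qb).a₄ ≤ 1 := by
    rw [H.val_a₄]; exact H.val_alpha_lt.le
  have h₆ : A.valuation ((Leg (α : ℚ) (β : ℚ))⁄Qb).a₆ ≤ 1 := by
    rw [leg_a₆, _root_.map_zero]; exact zero_le_one
  have hχ : σ ζ = ζ ^ k' :=
    Chi.chi_line_kerRed (Leg (α : ℚ) (β : ℚ)) A H.hp H.val_p_lt (leg_val_a₁ A α β)
      (leg_val_a₂ A α β) h₃ h₄ h₆ hζ hlam hT0 hT hTk hPP hσ hk'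
  have hmod : k' ≡ k [MOD p] := by
    have hfin : IsOfFinOrder ζ := isOfFinOrder_iff_pow_eq_one.mpr ⟨p, H.hp.pos, hζ.pow_eq_one⟩
    have := hfin.pow_eq_pow_iff_modEq.mp (hχ.symm.trans hk)
    rwa [← hζ.eq_orderOf] at this
  rw [hk', Peu.nsmul_eq_of_modEq hT hmod]

/-- **Strand G on the Legendre model.** -/
theorem legShape (H : LegHyp A p α β d) :
    ∃ (T R : ((Leg (α : ℚ) (β : ℚ))⁄Qb).Point) (ζ b : Qb),
      p • T = 0 ∧ p • R = 0 ∧ T ≠ 0 ∧ (∀ k : ℕ, R ≠ k • T) ∧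
      IsPrimitiveRoot ζ p ∧ b ≠ 0 ∧ b ^ p ∈ A ∧ (b ^ p)⁻¹ ∈ A ∧
      ∀ σ : GQb, σ ∈ A.inertiaSubgroupIn ℚ →
        ∃ k j : ℕ, σ ζ = ζ ^ k ∧ σ • T = k • T ∧ σ b = ζ ^ j * b ∧ σ • R = R + j • T := by
  classical
  obtain ⟨T, hT0, hT, hTk, hE1, -, hPeq⟩ := LegKer.kerStatement A p α β d H
  obtain ⟨xR, yR, hRn, hRp, hxR⟩ := exists_near_node H
  have : NeZero p := ⟨H.hp.ne_zero⟩
  obtain ⟨ζ, hζ⟩ := HasEnoughRootsOfUnity.exists_primitiveRoot Qb p
  obtain ⟨hlam1, hlam⟩ := LegRam.lamStatement A p H.hp H.h5 H.hA ζ hζ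
  -- `R` is not in the kernel of reduction, hence not a multiple of `T`
  have hRk : ¬ KerRed A.valuation ((Leg (α : ℚ) (β : ℚ))⁄Qb) (Point.some xR yR hRn) :=
    fun h => absurd ((kerRed_some_iff A.valuation hRn).mp h) (not_lt.mpr hxR.le)
  have hRT : ∀ k : ℕ, (Point.some xR yR hRn : ((Leg (α : ℚ) (β : ℚ))⁄Qb).Point) ≠ k • T :=
    fun k hk => hRk (hk ▸ H.kerRed_nsmul hTk k)
  -- the inertia action
  have hS : ∀ σ ∈ A.inertiaSubgroupIn ℚ, ∃ k j : ℕ,
      σ ζ = ζ ^ k ∧ σ • T = k • T ∧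
        σ • (Point.some xR yR hRn : ((Leg (α : ℚ) (β : ℚ))⁄Qb).Point)
          = Point.some xR yR hRn + j • T := by
    intro σ hσ
    obtain ⟨k, -, hk⟩ := hζ.eq_pow_of_pow_eq_one (ξ := σ ζ)
      (by rw [← map_pow, hζ.pow_eq_one, map_one])
    have hkT := chiStatement A p α β d H ζ hζ T hT0 hT hTk hE1 hPeq σ hσ k hk.symm
    obtain ⟨j, hj⟩ := H.exists_shift hT hT0 hRp hRT hE1 hσ hkT
    exact ⟨k, j, hk.symm, hkT, hj⟩
  -- coordinates of `T`
  have hTc : 1 < A.valuation (xc T) ∧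
      A.valuation (ζ - 1) ≤ A.valuation (xc T / yc T) := by
    rcases hTk with h0 | ⟨x, ⟨y, h, rfl⟩, hx⟩
    · exact absurd h0 hT0
    · rw [xc_some, yc_some]
      exact ⟨hx, (H.val_param hlam h hx (hPeq x ⟨y, h, rfl⟩)).ge⟩
  -- coordinates of `R`
  obtain ⟨h1, n, hn⟩ := H.comp_law hRn hRp hxR
  have hxR4 : A.valuation ((Leg (α : ℚ) (β : ℚ))⁄Qb).a₄ < A.valuation xR := by
    rw [H.val_a₄]; exact h1
  obtain ⟨b, hb, hbA, hbA', hbS⟩ := Peu.exists_unit_b (Leg (α : ℚ) (β : ℚ)) A p H.hp H.p_ne_two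
    ζ hζ hlam1 (leg_a₃ α β) (leg_a₆ α β) (leg_val_a₁ A α β) (leg_val_a₂ A α β) H.val_b₂ T
    (Point.some xR yR hRn) hT hRp hRT hTc.1 hTc.2 hxR hxR4 n hn hS
    (LegRam.r1Statement A p H.hp H.h5 H.hA) (LegRam.r3Statement A p H.hp H.h5 H.hA ζ hζ)
    (LegRam.ramStatement A p H.hp H.h5 H.hA ζ hζ)
  exact ⟨T, Point.some xR yR hRn, ζ, b, hT, hRp, hT0, hRT, hζ, hb, hbA, hbA', hbS⟩

/-- **Strand G on the Legendre model**, in the form of the transport file. -/
theorem legGStatement : Transport.LegGStatement :=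
  fun _ _ _ _ _ hp h5 hA hd hpd hα hβ hαβ => legShape ⟨hp, h5, hA, hd, hpd, hα, hβ, hαβ⟩

/-- **Strand G**: the shape of `E[p]` at `p` for the Frey curve (`Contract.GStatement`). -/
theorem gStatement : Fermat.Agent.S44.Contract.GStatement :=
  GShell.gStatement_of_leg legGStatement

end Fermat.Agent.S44.G.GFinal
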