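import Mathlib
import Fermat.Agent.S05.Shell
import Fermat.Agent.S05.Comp3
import Fermat.Agent.Lib.NodeLaw
import Fermat.Agent.Lib.TorsionCard

/-!
# S44, strand G: the component law at `p` for the Frey curve (helper65)

`P` a Frey package with `p = P.p ∣ a b c`, `A` a valuation subring of `ℚ̄` over `p`.

* `LegData P e α β d`, `exists_legData` : the Legendre model `Y² = X (X - α) (X + β)` of the Frey
  curve with its node at the origin modulo `p` (`X = 4x - e`, `Y = 8y + 4x`; `Shell.rel`):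
  `p ∤ β`, `p ∤ α + β`, `α = ± d ^ p`, `p ∣ d`.
* `LegData.val_*` : the valuations of `2`, `β`, `α + β`, `α` at `A`.
* `val_intCast_eq_pow` : the valuation of a nonzero integer is a power of `v(p)`.
* `comp_law` : a `p`-torsion point `(x, y)` of the Legendre model reducing to the node has
  `v(α) < v(x)` and `v(x) = v(d) ^ (2k) = v(p) ^ n` with `k, n > 0`.
* `exists_torsion_not_node` : there is a nonzero `p`-torsion point of the Frey curve whose image
  on the Legendre model does NOT reduce to the node (`1 ≤ v(X)`), by the unsigned component law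
  and `# E[p] = p²`.
-/

set_option autoImplicit false

namespace Fermat.Agent.S44.G.CompLaw

open WeierstrassCurve WeierstrassCurve.Affine WeierstrassCurve.Affine.Point
open Fermat.Agent.S05.Shell Fermat.Agent.S05.VarChange Fermat.Agent.S05.KeyLemma

local notation "Qb" => AlgebraicClosure ℚ

/-- Legendre data at `p` for a Frey package: the Frey curve is `Y² = X (X - α) (X + β)` in the
coordinates `X = 4x - e`, `Y = 8y + 4x`, with `β`, `α + β` prime to `p` and `α = ± d ^ p`,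
`p ∣ d` (so the node is at `X = 0` modulo `p`). -/
structure LegData (P : FreyPackage) (e α β d : ℤ) : Prop where
  h2 : β - α = P.b ^ P.p - P.a ^ P.p + 3 * e
  h4 : -(P.a ^ P.p * P.b ^ P.p) = -(α * β) - 2 * e * (β - α) + 3 * e ^ 2
  h6 : 0 = e * (α * β) + e ^ 2 * (β - α) - e ^ 3
  hβ : ¬ (P.p : ℤ) ∣ β
  hαβ : ¬ (P.p : ℤ) ∣ α + β
  hα : α = d ^ P.p ∨ α = -d ^ P.p
  hd : d ≠ 0
  hpd : (P.p : ℤ) ∣ d

/-- Legendre data exist as soon as `p ∣ a b c`. -/
theorem exists_legData (P : FreyPackage) (hp : (P.p : ℤ) ∣ P.a * P.b * P.c) :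
    ∃ e α β d : ℤ, LegData P e α β d := by
  have hqZ : Prime (P.p : ℤ) := Nat.prime_iff_prime_int.mp P.pp
  have hFLT := P.hFLT
  by_cases hb : (P.p : ℤ) ∣ P.b
  · have ha : ¬ (P.p : ℤ) ∣ P.a := by
      intro ha
      have := dvd_gcd ha hb
      rw [P.hgcdab] at this
      exact hqZ.not_dvd_one this
    have hc : ¬ (P.p : ℤ) ∣ P.c := by
      intro hc
      have := dvd_gcd hb hc
      rw [P.hgcdbc] at this
      exact hqZ.not_dvd_one this
    refine ⟨0, -(P.b ^ P.p), -(P.a ^ P.p), P.b, ⟨by ring, by ring, by ring, ?_, ?_, Or.inr rfl,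
      P.hb0, hb⟩⟩
    · rw [dvd_neg]; exact fun h => ha (hqZ.dvd_of_dvd_pow h)
    · have : -(P.b ^ P.p) + -(P.a ^ P.p) = -(P.c ^ P.p) := by rw [← hFLT]; ring
      rw [this, dvd_neg]; exact fun h => hc (hqZ.dvd_of_dvd_pow h)
  by_cases hc : (P.p : ℤ) ∣ P.c
  · have ha : ¬ (P.p : ℤ) ∣ P.a := by
      intro ha
      have := dvd_gcd ha hc
      rw [P.hgcdac] at this
      exact hqZ.not_dvd_one this
    refine ⟨P.a ^ P.p, -(P.c ^ P.p), P.a ^ P.p, P.c, ⟨by rw [← hFLT]; ring, by rw [← hFLT]; ring,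
      by rw [← hFLT]; ring, ?_, ?_, Or.inr rfl, P.hc0, hc⟩⟩
    · exact fun h => ha (hqZ.dvd_of_dvd_pow h)
    · have : -(P.c ^ P.p) + P.a ^ P.p = -(P.b ^ P.p) := by rw [← hFLT]; ring
      rw [this, dvd_neg]; exact fun h => hb (hqZ.dvd_of_dvd_pow h)
  · have ha : (P.p : ℤ) ∣ P.a := by
      rcases hqZ.dvd_or_dvd hp with h | h
      · rcases hqZ.dvd_or_dvd h with h' | h'
        · exact h'
        · exact absurd h' hb
      · exact absurd h hc
    refine ⟨0, P.a ^ P.p, P.b ^ P.p, P.a, ⟨by ring, by ring, by ring, ?_, ?_, Or.inl rfl,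
      P.ha0, ha⟩⟩
    · exact fun h => hb (hqZ.dvd_of_dvd_pow h)
    · rw [hFLT]; exact fun h => hc (hqZ.dvd_of_dvd_pow h)

section Val

variable {P : FreyPackage} {e α β d : ℤ} {A : ValuationSubring Qb}

/-- The valuation of an integer is at most `1`. -/
theorem val_intCast_le_one (A : ValuationSubring Qb) (n : ℤ) : A.valuation (n : Qb) ≤ 1 :=
  (A.valuation_le_one_iff _).mpr (intCast_mem A n)

/-- `v(p) < 1` at a place over `p`. -/
theorem val_p_lt_one {p : ℕ} (hA : A.LiesOverPrime p) : A.valuation (p : Qb) < 1 :=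
  A.mem_nonunits_iff.mp hA

theorem val_p_ne_zero {p : ℕ} (hp : p.Prime) : A.valuation (p : Qb) ≠ 0 :=
  (A.valuation.ne_zero_iff).mpr (Nat.cast_ne_zero.mpr hp.ne_zero)

/-- The valuation of a nonzero integer is a power of the valuation of `p`; the exponent is
positive iff `p` divides the integer. -/
theorem val_intCast_eq_pow {p : ℕ} (hp : p.Prime) (hA : A.LiesOverPrime p) (n : ℤ) (hn : n ≠ 0) :
    ∃ m : ℕ, A.valuation (n : Qb) = A.valuation (p : Qb) ^ m ∧ ((p : ℤ) ∣ n → 0 < m) := by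
  have hfin : FiniteMultiplicity (p : ℤ) n := by
    rw [Int.finiteMultiplicity_iff]
    exact ⟨by simpa using hp.ne_one, hn⟩
  obtain ⟨c, hc, hpc⟩ := hfin.exists_eq_pow_mul_and_not_dvd
  refine ⟨multiplicity (p : ℤ) n, ?_, fun hdvd => ?_⟩
  · have hc1 : A.valuation (c : Qb) = 1 := valuation_intCast_eq_one A p hp hA c hpc
    have : (n : Qb) = (p : Qb) ^ multiplicity (p : ℤ) n * (c : Qb) := by
      conv_lhs => rw [hc]
      push_cast
      ring
    rw [this, map_mul, map_pow, hc1, mul_one]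
  · by_contra h0
    have h0' : multiplicity (p : ℤ) n = 0 := by omega
    rw [h0', pow_zero, one_mul] at hc
    rw [← hc] at hpc
    exact hpc hdvd

namespace LegData

theorem val_two (_L : LegData P e α β d) (hA : A.LiesOverPrime P.p) :
    A.valuation (2 : Qb) = 1 := by
  have := valuation_intCast_eq_one A P.p P.pp hA 2 (by
    intro h
    have h' : P.p ∣ 2 := by exact_mod_cast h
    have := (Nat.prime_dvd_prime_iff_eq P.pp Nat.prime_two).mp h'
    have := P.hp5
    omega)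
  simpa using this

theorem val_beta (L : LegData P e α β d) (hA : A.LiesOverPrime P.p) :
    A.valuation (β : Qb) = 1 :=
  valuation_intCast_eq_one A P.p P.pp hA β L.hβ

theorem val_alpha_add_beta (L : LegData P e α β d) (hA : A.LiesOverPrime P.p) :
    A.valuation ((α : Qb) + β) = 1 := by
  have := valuation_intCast_eq_one A P.p P.pp hA (α + β) L.hαβ
  simpa using this

theorem val_alpha (L : LegData P e α β d) :
    A.valuation (α : Qb) = A.valuation (d : Qb) ^ P.p := by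
  rcases L.hα with h | h
  · rw [h]; simp
  · rw [h]; simp

theorem alpha_ne_zero (L : LegData P e α β d) : α ≠ 0 := by
  rcases L.hα with h | h
  · rw [h]; exact pow_ne_zero _ L.hd
  · rw [h]; exact neg_ne_zero.mpr (pow_ne_zero _ L.hd)

theorem alpha_cast_ne_zero (L : LegData P e α β d) : (α : Qb) ≠ 0 :=
  Int.cast_ne_zero.mpr L.alpha_ne_zero

theorem val_d_lt_one (L : LegData P e α β d) (hA : A.LiesOverPrime P.p) :
    A.valuation (d : Qb) < 1 := by
  obtain ⟨c, rfl⟩ := L.hpd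
  push_cast
  rw [map_mul]
  calc A.valuation (P.p : Qb) * A.valuation (c : Qb)
      ≤ A.valuation (P.p : Qb) * 1 := by gcongr; exact val_intCast_le_one A c
    _ = A.valuation (P.p : Qb) := mul_one _
    _ < 1 := val_p_lt_one hA

theorem val_d_ne_zero (L : LegData P e α β d) : A.valuation (d : Qb) ≠ 0 :=
  (A.valuation.ne_zero_iff).mpr (Int.cast_ne_zero.mpr L.hd)

theorem val_alpha_lt_one (L : LegData P e α β d) (hA : A.LiesOverPrime P.p) :
    A.valuation (α : Qb) < 1 := by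
  rw [L.val_alpha]
  exact pow_lt_one₀ zero_le (L.val_d_lt_one hA) P.hp0

/-- The Frey curve in Legendre coordinates. -/
theorem rel (L : LegData P e α β d) :
    Rel ((Leg (α : ℚ) (β : ℚ))⁄Qb) (P.freyCurve⁄Qb) (2 : Qb) (-(e : Qb)) 1 0 :=
  Fermat.Agent.S05.Shell.rel P e α β L.h2 L.h4 L.h6

end LegData

end Val

section Comp

variable {P : FreyPackage} {e α β d : ℤ} {A : ValuationSubring Qb}

/-- **The component law at `p`** (Legendre model).  A `p`-torsion point `(x, y)` reducing to the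
node (`v x < 1`) satisfies `v α < v x` and `v x = v(d) ^ (2k) = v(p) ^ n` with `k, n > 0`. -/
theorem comp_law (L : LegData P e α β d) (hA : A.LiesOverPrime P.p) {x y : Qb}
    (h : ((Leg (α : ℚ) (β : ℚ))⁄Qb).Nonsingular x y)
    (hQ : P.p • Point.some x y h = 0) (hx : A.valuation x < 1) :
    A.valuation (α : Qb) < A.valuation x ∧
      ∃ k : ℤ, 0 < k ∧ A.valuation x = A.valuation (d : Qb) ^ (2 * k) ∧
        ∃ n : ℤ, 0 < n ∧ A.valuation x = A.valuation (P.p : Qb) ^ n := by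
  obtain ⟨hlt, k, hk⟩ := Fermat.Agent.S05.Comp3.part3 A.valuation (leg_a₁ α β) (leg_a₃ α β)
    (leg_a₆ α β) (leg_a₂ α β) (leg_a₄ α β) (L.val_two hA) (L.val_beta hA)
    (L.val_alpha_lt_one hA) L.alpha_cast_ne_zero P.hp_odd h hQ hx
  refine ⟨hlt, ?_⟩
  have hd0 : A.valuation (d : Qb) ≠ 0 := L.val_d_ne_zero
  have hdpos : 0 < A.valuation (d : Qb) := zero_lt_iff.mpr hd0
  have hd1 : A.valuation (d : Qb) < 1 := L.val_d_lt_one hA
  -- `v x = v d ^ (2 k)`
  have hxd : A.valuation x = A.valuation (d : Qb) ^ (2 * k) := by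
    have hk' : A.valuation x ^ P.p = (A.valuation (d : Qb) ^ (2 * k)) ^ P.p := by
      rw [hk, L.val_alpha, ← zpow_natCast (A.valuation (d : Qb)) P.p, ← zpow_mul,
        ← zpow_natCast (A.valuation (d : Qb) ^ (2 * k)) P.p, ← zpow_mul, mul_comm]
    exact (pow_left_inj₀ zero_le zero_le P.hp0).mp hk'
  have hanti : StrictAnti (fun i : ℤ => A.valuation (d : Qb) ^ i) :=
    zpow_right_strictAnti₀ hdpos hd1
  have hk0 : 0 < k := by
    have h1 : A.valuation (d : Qb) ^ (2 * k) < A.valuation (d : Qb) ^ (0 : ℤ) := by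
      rw [zpow_zero, ← hxd]; exact hx
    have := hanti.lt_iff_gt.mp h1
    omega
  refine ⟨k, hk0, hxd, ?_⟩
  obtain ⟨m, hm, hmpos⟩ := val_intCast_eq_pow P.pp hA d L.hd
  have hm0 : 0 < m := hmpos L.hpd
  refine ⟨(m : ℤ) * (2 * k), by positivity, ?_⟩
  rw [hxd, hm, ← zpow_natCast (A.valuation (P.p : Qb)) m, ← zpow_mul]

end Comp

/-! ### Counting: a `p`-torsion point that does not reduce to the node -/

section Count

/-- Elementary arithmetic: if `0 < 2 a < p` and `0 < 2 b < p` then `b ≡ a m (mod p)` for some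
`1 ≤ m < p`. -/
theorem exists_mul_congr {p : ℕ} (hp : p.Prime) {a b : ℤ} (ha0 : 0 < 2 * a) (hap : 2 * a < p)
    (hb0 : 0 < 2 * b) (hbp : 2 * b < p) :
    ∃ m : ℕ, 1 ≤ m ∧ m < p ∧ ∃ l : ℤ, b = a * m + l * p := by
  have hpZ : Prime (p : ℤ) := Nat.prime_iff_prime_int.mp hp
  have hppos : (0 : ℤ) < p := by exact_mod_cast hp.pos
  have hna : ¬ (p : ℤ) ∣ a := by
    intro h
    have := Int.le_of_dvd (by omega) h
    omega
  have hnb : ¬ (p : ℤ) ∣ b := by
    intro h
    have := Int.le_of_dvd (by omega) h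
    omega
  have hcop : IsCoprime a (p : ℤ) := (hpZ.coprime_iff_not_dvd.mpr hna).symm
  obtain ⟨u, w, huw⟩ := hcop
  set m₀ : ℤ := (u * b) % p with hm₀
  have hm₀nn : 0 ≤ m₀ := Int.emod_nonneg _ hppos.ne'
  have hm₀lt : m₀ < p := Int.emod_lt_of_pos _ hppos
  have hdiv : u * b = m₀ + p * ((u * b) / p) := by
    rw [hm₀]; exact (Int.emod_add_mul_ediv (u * b) p).symm
  have hl : b = a * m₀ + (b * w + a * ((u * b) / p)) * p := by
    have e1 : b = b * (u * a + w * p) := by rw [huw, mul_one]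
    have e2 : a * (u * b) = a * m₀ + a * (p * ((u * b) / p)) := by
      conv_lhs => rw [hdiv]
      ring
    linear_combination e1 + e2
  have hm₀ne : m₀ ≠ 0 := by
    intro h0
    rw [h0, mul_zero, zero_add] at hl
    exact hnb (Dvd.intro_left _ hl.symm)
  refine ⟨m₀.toNat, by omega, by omega, b * w + a * ((u * b) / p), ?_⟩
  rw [Int.toNat_of_nonneg hm₀nn]
  exact hl

variable {K : Type*} [Field K] [DecidableEq K] {Γ₀ : Type*} [LinearOrderedCommGroupWithZero Γ₀]
  (v : Valuation K Γ₀) {W : WeierstrassCurve K}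

open Fermat.Agent.Lib.NodeLaw in
/-- **Counting on a node model.**  If `P₀ ≠ 0` and `Q₀` are `p`-torsion points (`p` an odd
prime) then `P₀` or some `Q₀ + c • P₀` does not reduce to the node (has height `1`). -/
theorem exists_ht_eq_one (h₃ : W.a₃ = 0) (h₆ : W.a₆ = 0) (hb₂ : v W.b₂ = 1) (ha₄ : v W.a₄ < 1)
    (ha₄0 : W.a₄ ≠ 0) {p : ℕ} (hp : p.Prime) (hodd : Odd p) (P₀ Q₀ : W.toAffine.Point)
    (hP : p • P₀ = 0) (hQ : p • Q₀ = 0) (hP0 : P₀ ≠ 0) :
    ht v (v W.a₄) P₀ = 1 ∨ ∃ c : ℤ, ht v (v W.a₄) (Q₀ + c • P₀) = 1 := by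
  set ν : Γ₀ := v W.a₄ with hν
  have hν0 : ν ≠ 0 := (v.ne_zero_iff).mpr ha₄0
  have hνpos : 0 < ν := zero_lt_iff.mpr hν0
  have hanti : StrictAnti (fun i : ℤ => ν ^ i) := zpow_right_strictAnti₀ hνpos ha₄
  have hp0 : p ≠ 0 := hp.ne_zero
  by_cases hP1 : ht v ν P₀ = 1
  · exact Or.inl hP1
  by_cases hQ1 : ht v ν Q₀ = 1
  · exact Or.inr ⟨0, by rw [zero_smul, add_zero]; exact hQ1⟩
  refine Or.inr ?_
  -- a `p`-torsion point is not `2`-torsion
  have h2tors : ∀ {x y : K} (h : W.toAffine.Nonsingular x y), p • Point.some x y h = 0 →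
      y ≠ W.toAffine.negY x y := by
    intro x y h hpt hy0
    have h2P : Point.some x y h + Point.some x y h = 0 := Point.add_self_of_Y_eq hy0
    obtain ⟨m, rfl⟩ := hodd
    have e : (2 * m + 1) • Point.some x y h = Point.some x y h := by
      rw [add_smul, one_smul, mul_comm, mul_smul, two_smul, h2P, smul_zero, zero_add]
    rw [e] at hpt
    exact Point.some_ne_zero h hpt
  -- heights of torsion points reducing to the node
  have key : ∀ {x y : K} (h : W.toAffine.Nonsingular x y), p • Point.some x y h = 0 →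
      ht v ν (Point.some x y h) ≠ 1 →
      ν ≤ v x ∧ v x ≤ 1 ∧ ht v ν (Point.some x y h) = v x ∧
        ∃ k : ℤ, v x ^ p = ν ^ (2 * k) ∧ 0 < 2 * k ∧ 2 * k < p := by
    intro x y h hpt hne
    have hx1 : v x < 1 := by
      by_contra hcon
      rw [not_lt] at hcon
      exact hne (by rw [ht_some]; exact clamp_of_one_le ha₄.le hcon)
    obtain ⟨hlt, k, hk⟩ := part3_node v h₃ h₆ hb₂ ha₄ ha₄0 hodd h hpt hx1
    refine ⟨hlt.le, hx1.le, by rw [ht_some]; exact clamp_of_mem hlt.le hx1.le, k, hk, ?_, ?_⟩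
    · have h1 : ν ^ (2 * k) < ν ^ (0 : ℤ) := by
        rw [zpow_zero, ← hk]
        exact pow_lt_one₀ zero_le hx1 hp0
      exact hanti.lt_iff_gt.mp h1
    · have h1 : ν ^ (p : ℤ) < ν ^ (2 * k) := by
        rw [zpow_natCast, ← hk]
        exact pow_lt_pow_left₀ hlt zero_le hp0
      exact hanti.lt_iff_gt.mp h1
  -- coordinates of `P₀` and `Q₀`
  rcases P₀ with _ | ⟨x, y, h⟩
  · exact absurd rfl hP0
  rcases Q₀ with _ | ⟨x', y', h'⟩
  · exact absurd (ht_zero v ν) hQ1
  obtain ⟨hνx, hx1, hhtP, kP, hkP, hkP0, hkPp⟩ := key h hP hP1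
  obtain ⟨hνx', hx'1, hhtQ, kQ, hkQ, hkQ0, hkQp⟩ := key h' hQ hQ1
  obtain ⟨m, hm1, hmp, l, hl⟩ := exists_mul_congr hp hkP0 hkPp hkQ0 hkQp
  have hx0 : v x ≠ 0 := (lt_of_lt_of_le hνpos hνx).ne'
  have hx'0 : v x' ≠ 0 := (lt_of_lt_of_le hνpos hνx').ne'
  -- `v x' = v x ^ m * ν ^ (2 l)`
  have hrel : v x' = v x ^ m * ν ^ (2 * l) := by
    have hpow : v x' ^ p = (v x ^ m * ν ^ (2 * l)) ^ p := by
      rw [hkQ, mul_pow, ← pow_mul, mul_comm m p, pow_mul, hkP, ← zpow_natCast (ν ^ (2 * kP)) m,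
        ← zpow_mul, ← zpow_natCast (ν ^ (2 * l)) p, ← zpow_mul, ← zpow_add₀ hν0]
      congr 1
      rw [hl]
      ring
    exact (pow_left_inj₀ zero_le zero_le hp0).mp hpow
  -- the multiple `m • P₀`
  have hy := h2tors h hP
  have hsim : Sim ν (ht v ν (m • Point.some x y h)) (v x ^ m) := by
    have := ht_nsmul_sim v h₃ h₆ hb₂ ha₄ ha₄0 h hy m
    rwa [clamp_of_mem hνx hx1] at this
  have hsim' : Sim ν (ht v ν (m • Point.some x y h)) (v x') :=
    Sim.trans hν0 (pow_ne_zero m hx0) hsim (Sim.symm hν0 ⟨l, Or.inl hrel⟩)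
  have hmem := ht_mem v ha₄.le (m • Point.some x y h)
  have hhtm : ht v ν (m • Point.some x y h) = v x' :=
    hsim'.eq_of_mem hν0 ha₄ hmem.1 hmem.2 hνx' hx'1
  have hm0 : m • Point.some x y h ≠ 0 := by
    intro h0
    have hcop : Nat.Coprime p m := Nat.coprime_of_lt_prime (by omega) hmp hp
    have hd1 : addOrderOf (Point.some x y h) ∣ p := addOrderOf_dvd_of_nsmul_eq_zero hP
    have hd2 : addOrderOf (Point.some x y h) ∣ m := addOrderOf_dvd_of_nsmul_eq_zero h0
    have h1 : addOrderOf (Point.some x y h) = 1 :=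
      Nat.eq_one_of_dvd_coprimes hcop hd1 hd2
    exact Point.some_ne_zero h (AddMonoid.addOrderOf_eq_one_iff.mp h1)
  have hpm : p • (m • Point.some x y h) = 0 := by
    rw [smul_comm, hP, smul_zero]
  -- coordinates of `m • P₀`
  obtain ⟨x₂, y₂, h₂, e₂⟩ : ∃ (x₂ y₂ : K) (h₂ : W.toAffine.Nonsingular x₂ y₂),
      m • Point.some x y h = Point.some x₂ y₂ h₂ := by
    rcases hmP : m • Point.some x y h with _ | ⟨x₂, y₂, h₂⟩
    · exact absurd hmP hm0
    · exact ⟨x₂, y₂, h₂, rfl⟩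
  rw [e₂] at hhtm hpm
  have hy₂ := h2tors h₂ hpm
  have hrelQ := rel_add_node v h₃ h₆ hb₂ ha₄ ha₄0 h₂ hy₂ (Point.some x' y' h')
  rw [← hν, hhtQ, hhtm] at hrelQ
  have hmr : mr (v x') (v x') = 1 := mr_self hx'0
  rcases hrelQ with ⟨-, hm'⟩ | ⟨-, hp'⟩
  · refine ⟨-(m : ℤ), ?_⟩
    rw [neg_smul, natCast_zsmul, e₂, ← sub_eq_add_neg, hm', hmr]
  · refine ⟨(m : ℤ), ?_⟩
    rw [natCast_zsmul, e₂, hp', hmr]

end Count

/-! ### The Frey curve -/

section Frey

variable {P : FreyPackage} {e α β d : ℤ} {A : ValuationSubring Qb}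

open Fermat.Agent.Lib.NodeLaw Fermat.Agent.Lib.TorsionCard

namespace LegData

theorem val_four (L : LegData P e α β d) (hA : A.LiesOverPrime P.p) :
    A.valuation (4 : Qb) = 1 := by
  have h : (4 : Qb) = 2 * 2 := by norm_num
  rw [h, map_mul, L.val_two hA, mul_one]

theorem val_b₂ (L : LegData P e α β d) (hA : A.LiesOverPrime P.p) :
    A.valuation ((Leg (α : ℚ) (β : ℚ))⁄Qb).b₂ = 1 := by
  have hsub : A.valuation ((β : Qb) - α) = 1 := by
    rw [A.valuation.map_sub_eq_of_lt_left (by rw [L.val_beta hA]; exact L.val_alpha_lt_one hA),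
      L.val_beta hA]
  rw [WeierstrassCurve.b₂, leg_a₁, leg_a₂, zero_pow two_ne_zero, zero_add, map_mul,
    L.val_four hA, hsub, mul_one]

theorem val_a₄ (L : LegData P e α β d) (hA : A.LiesOverPrime P.p) :
    A.valuation ((Leg (α : ℚ) (β : ℚ))⁄Qb).a₄ = A.valuation (α : Qb) := by
  rw [leg_a₄, Valuation.map_neg, map_mul, L.val_beta hA, mul_one]

theorem a₄_ne_zero (L : LegData P e α β d) (hA : A.LiesOverPrime P.p) :
    ((Leg (α : ℚ) (β : ℚ))⁄Qb).a₄ ≠ 0 := by
  intro h0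
  have := L.val_a₄ hA
  rw [h0, _root_.map_zero] at this
  exact (A.valuation.ne_zero_iff.mpr L.alpha_cast_ne_zero) this.symm

end LegData

/-- Independent `p`-torsion points on the Frey curve. -/
theorem exists_indep (P : FreyPackage) :
    ∃ P₀ Q₀ : (P.freyCurve⁄Qb).Point, P.p • P₀ = 0 ∧ P.p • Q₀ = 0 ∧ P₀ ≠ 0 ∧
      ∀ c : ℤ, Q₀ ≠ c • P₀ := by
  have hcard := frey_card P
  have hfin := frey_finite P
  have hnt := frey_nontrivial P
  obtain ⟨⟨P₀, hP₀mem⟩, hP₀ne⟩ := exists_ne (0 : Submodule.torsionBy ℤ (P.freyCurve⁄Qb).Point P.p)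
  have hP₀ : P.p • P₀ = 0 := by
    have := (Submodule.mem_torsionBy_iff _ _).mp hP₀mem
    rwa [natCast_zsmul] at this
  have hP₀0 : P₀ ≠ 0 := fun h0 => hP₀ne (Subtype.ext h0)
  by_contra hcon
  push Not at hcon
  -- every `p`-torsion point is a multiple of `P₀`
  have hall : ∀ Q : Submodule.torsionBy ℤ (P.freyCurve⁄Qb).Point P.p,
      ∃ i : Fin P.p, (Q : (P.freyCurve⁄Qb).Point) = (i : ℕ) • P₀ := by
    intro Q
    have hQ : P.p • (Q : (P.freyCurve⁄Qb).Point) = 0 := by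
      have := (Submodule.mem_torsionBy_iff _ _).mp Q.2
      rwa [natCast_zsmul] at this
    obtain ⟨c, hc⟩ := hcon P₀ Q hP₀ hQ hP₀0
    have hppos : (0 : ℤ) < P.p := by exact_mod_cast P.hppos
    have hnn : 0 ≤ c % (P.p : ℤ) := Int.emod_nonneg _ hppos.ne'
    have hlt : c % (P.p : ℤ) < P.p := Int.emod_lt_of_pos _ hppos
    refine ⟨⟨(c % (P.p : ℤ)).toNat, by omega⟩, ?_⟩
    rw [hc]
    show c • P₀ = (c % (P.p : ℤ)).toNat • P₀
    rw [← natCast_zsmul, Int.toNat_of_nonneg hnn]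
    conv_lhs => rw [← Int.emod_add_mul_ediv c (P.p : ℤ)]
    rw [add_zsmul, mul_comm, mul_zsmul, natCast_zsmul, hP₀, zsmul_zero, add_zero]
  choose g hg using hall
  have hinj : Function.Injective g := by
    intro Q Q' hQQ'
    apply Subtype.ext
    rw [hg Q, hg Q', hQQ']
  have hle := Nat.card_le_card_of_injective g hinj
  rw [hcard, Nat.card_fin] at hle
  have h5 := P.hp5
  nlinarith

/-- **A `p`-torsion point that does not reduce to the node.**  There is a nonzero `p`-torsion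
point `T` of the Frey curve whose image on the Legendre model is an affine point with
`1 ≤ v(X)`. -/
theorem exists_torsion_not_node (L : LegData P e α β d) (hA : A.LiesOverPrime P.p) :
    ∃ T : (P.freyCurve⁄Qb).Point, T ≠ 0 ∧ P.p • T = 0 ∧
      ∃ (x y : Qb) (h : ((Leg (α : ℚ) (β : ℚ))⁄Qb).Nonsingular x y),
        L.rel.pointMap T = Point.some x y h ∧ 1 ≤ A.valuation x := by
  obtain ⟨P₀, Q₀, hP₀, hQ₀, hP₀0, hind⟩ := exists_indep P
  set f := L.rel.pointHom with hf
  have hfinj : Function.Injective f := L.rel.pointMap_injective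
  have hν1 : A.valuation ((Leg (α : ℚ) (β : ℚ))⁄Qb).a₄ < 1 := by
    rw [L.val_a₄ hA]; exact L.val_alpha_lt_one hA
  -- a point of height one which is not the origin has `1 ≤ v x`
  have hout : ∀ T : (P.freyCurve⁄Qb).Point, T ≠ 0 → P.p • T = 0 →
      ht A.valuation (A.valuation ((Leg (α : ℚ) (β : ℚ))⁄Qb).a₄) (f T) = 1 →
      ∃ T : (P.freyCurve⁄Qb).Point, T ≠ 0 ∧ P.p • T = 0 ∧
      ∃ (x y : Qb) (h : ((Leg (α : ℚ) (β : ℚ))⁄Qb).Nonsingular x y),
        L.rel.pointMap T = Point.some x y h ∧ 1 ≤ A.valuation x := by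
    intro T hT0 hTp hht
    refine ⟨T, hT0, hTp, ?_⟩
    have hfT0 : f T ≠ 0 := fun h0 => hT0 (hfinj (by rw [h0, _root_.map_zero]))
    rcases hfT : f T with _ | ⟨x, y, h⟩
    · exact absurd hfT hfT0
    · refine ⟨x, y, h, hfT, ?_⟩
      rw [hfT, ht_some] at hht
      by_contra hcon
      rw [not_le] at hcon
      unfold clamp at hht
      rw [min_eq_right hcon.le] at hht
      rcases max_choice (A.valuation ((Leg (α : ℚ) (β : ℚ))⁄Qb).a₄) (A.valuation x) with hm | hm
      · rw [hm] at hht; exact hν1.ne hht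
      · rw [hm] at hht; exact hcon.ne hht
  rcases exists_ht_eq_one A.valuation (leg_a₃ α β) (leg_a₆ α β) (L.val_b₂ hA) hν1
    (L.a₄_ne_zero hA) P.pp P.hp_odd (f P₀) (f Q₀)
    (by rw [← map_nsmul, hP₀, _root_.map_zero]) (by rw [← map_nsmul, hQ₀, _root_.map_zero])
    (fun h0 => hP₀0 (hfinj (by rw [h0, _root_.map_zero]))) with h1 | ⟨c, hc⟩
  · exact hout P₀ hP₀0 hP₀ h1
  · refine hout (Q₀ + c • P₀) ?_ ?_ ?_
    · intro h0
      exact hind (-c) (by rw [neg_smul]; exact eq_neg_of_add_eq_zero_left h0)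
    · rw [nsmul_add, hQ₀, zero_add, ← natCast_zsmul, ← mul_zsmul, mul_comm, mul_zsmul,
        natCast_zsmul, hP₀, zsmul_zero]
    · rw [map_add, map_zsmul]; exact hc

end Frey

end Fermat.Agent.S44.G.CompLaw
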