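import Mathlib
import Fermat.Agent.S05.Shell
import Fermat.Agent.S05.Comp3
import Fermat.Agent.S44.G.CompLaw

/-!
# S44, strand G: the component law on the Legendre model, for arbitrary integer parameters

`E = (Leg α β)⁄ℚ̄ : Y² = X (X - α) (X + β)` in the binder style of `Transport.LegGStatementVal`
(`v p < 1`, `v 2 = v β = 1`, `v α = v d ^ p`, `v d < 1`, `α ≠ 0`): a `p`-torsion point `(x, y)`
with `v x < 1` (reducing to the node) has `v α < v x` and `v x = v p ^ n`.

This is `CompLaw.comp_law` without the `LegData P e α β d` packaging (`S05.Comp3.part3` +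
`CompLaw.val_intCast_eq_pow`).
-/

set_option autoImplicit false

namespace Fermat.Agent.S44.G.CompLeg

open WeierstrassCurve WeierstrassCurve.Affine WeierstrassCurve.Affine.Point
open Fermat.Agent.S05.Shell

local notation "Qb" => AlgebraicClosure ℚ

/-- **The component law at `p` on the Legendre model.**  A `p`-torsion point `(x, y)` reducing
to the node (`v x < 1`) satisfies `v α < v x`, `v x = v d ^ (2 k)` with `k > 0`, and
`v x = v p ^ n` with `n > 0`. -/
theorem comp_law_leg (A : ValuationSubring Qb) (p : ℕ) (α β d : ℤ) (hp : p.Prime) (hp2 : p ≠ 2)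
    (hα0 : α ≠ 0) (hvp : A.valuation (p : Qb) < 1) (hv2 : A.valuation (2 : Qb) = 1)
    (hvβ : A.valuation (β : Qb) = 1)
    (hvα : A.valuation (α : Qb) = A.valuation (d : Qb) ^ p) (hvd : A.valuation (d : Qb) < 1)
    {x y : Qb} (h : ((Leg (α : ℚ) (β : ℚ))⁄Qb).Nonsingular x y)
    (hQ : p • Point.some x y h = 0) (hx : A.valuation x < 1) :
    A.valuation (α : Qb) < A.valuation x ∧
      (∃ k : ℤ, 0 < k ∧ A.valuation x = A.valuation (d : Qb) ^ (2 * k)) ∧
        ∃ n : ℤ, 0 < n ∧ A.valuation x = A.valuation (p : Qb) ^ n := by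
  have hA : A.LiesOverPrime p := A.mem_nonunits_iff.mpr hvp
  have hαQ : (α : Qb) ≠ 0 := Int.cast_ne_zero.mpr hα0
  have hvα1 : A.valuation (α : Qb) < 1 := by
    rw [hvα]; exact pow_lt_one₀ zero_le hvd hp.ne_zero
  have hd : d ≠ 0 := by
    rintro rfl
    rw [Int.cast_zero, _root_.map_zero, zero_pow hp.ne_zero] at hvα
    exact hαQ ((A.valuation.zero_iff).mp hvα)
  have hd0 : A.valuation (d : Qb) ≠ 0 := (A.valuation.ne_zero_iff).mpr (Int.cast_ne_zero.mpr hd)
  have hdpos : 0 < A.valuation (d : Qb) := zero_lt_iff.mpr hd0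
  obtain ⟨hlt, k, hk⟩ := Fermat.Agent.S05.Comp3.part3 A.valuation (leg_a₁ α β) (leg_a₃ α β)
    (leg_a₆ α β) (leg_a₂ α β) (leg_a₄ α β) hv2 hvβ hvα1 hαQ (hp.odd_of_ne_two hp2) h hQ hx
  refine ⟨hlt, ?_⟩
  -- `v x = v d ^ (2 k)`
  have hxd : A.valuation x = A.valuation (d : Qb) ^ (2 * k) := by
    have hk' : A.valuation x ^ p = (A.valuation (d : Qb) ^ (2 * k)) ^ p := by
      rw [hk, hvα, ← zpow_natCast (A.valuation (d : Qb)) p, ← zpow_mul,
        ← zpow_natCast (A.valuation (d : Qb) ^ (2 * k)) p, ← zpow_mul, mul_comm]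
    exact (pow_left_inj₀ zero_le zero_le hp.ne_zero).mp hk'
  have hanti : StrictAnti (fun i : ℤ => A.valuation (d : Qb) ^ i) :=
    zpow_right_strictAnti₀ hdpos hvd
  have hk0 : 0 < k := by
    have h1 : A.valuation (d : Qb) ^ (2 * k) < A.valuation (d : Qb) ^ (0 : ℤ) := by
      rw [zpow_zero, ← hxd]; exact hx
    have := hanti.lt_iff_gt.mp h1
    omega
  refine ⟨⟨k, hk0, hxd⟩, ?_⟩
  obtain ⟨m, hm, hmpos⟩ := CompLaw.val_intCast_eq_pow hp hA d hd
  have hpd : (p : ℤ) ∣ d := by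
    by_contra hnd
    exact absurd (valuation_intCast_eq_one A p hp hA d hnd) hvd.ne
  have hm0 : 0 < m := hmpos hpd
  refine ⟨(m : ℤ) * (2 * k), by positivity, ?_⟩
  rw [hxd, hm, ← zpow_natCast (A.valuation (p : Qb)) m, ← zpow_mul]

end Fermat.Agent.S44.G.CompLeg
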