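import Mathlib
import Fermat.Agent.S05.Shell
import Fermat.Agent.S44.G.KerLine

/-!
# S44, strand G: the kernel line on the Legendre model

`E = (Leg α β)⁄ℚ̄ : Y² = X (X - α) (X + β)`, `A` a valuation subring of `ℚ̄` with `v p < 1`,
`v 2 = v β = v (α + β) = 1`, `v α = v d ^ p`, `v d < 1` (`α β d : ℤ`, `α ≠ 0`, `p ≥ 5` prime):
the binder list of `Transport.LegGStatementVal`.

* `leg_kernel_line`      : the `p`-torsion of the kernel of reduction is a line `⟨T⟩`, `T ≠ 0`, with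
  `v p * v (x T) ^ ((p-1)/2) = 1` (`KerLine.exists_kernel_line` at the 2-torsion abscissae
  `-β` (unit `phiTwo`) and `0` (deep `phiTwo`)).
* `leg_exists_near_node` : a nonzero `p`-torsion point `R` with `v (x R) < 1` (reducing to the node).
* coefficient facts for the consumers: `leg_b₂ … leg_b₈`, `leg_Δ`, `leg_isElliptic`, `leg_intB`,
  `leg_val_a₂_le`, `leg_val_a₄`, `leg_val_b₂`, `val_d_le_val_p`.
-/

set_option autoImplicit false

namespace Fermat.Agent.S44.G.KerLeg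

open WeierstrassCurve WeierstrassCurve.Affine WeierstrassCurve.Affine.Point
open Fermat.Agent.Lib.TorsionCard Fermat.Agent.S13 Fermat.Agent.S05.Shell

local notation "Qb" => AlgebraicClosure ℚ

/-! ### Coefficients of the Legendre model over `ℚ̄` -/

section Coeff

variable (α β : ℤ)

theorem leg_b₂ : ((Leg (α : ℚ) (β : ℚ))⁄Qb).b₂ = 4 * ((β : Qb) - α) := by
  rw [WeierstrassCurve.b₂, leg_a₁, leg_a₂]; ring

theorem leg_b₄ : ((Leg (α : ℚ) (β : ℚ))⁄Qb).b₄ = -(2 * ((α : Qb) * β)) := by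
  rw [WeierstrassCurve.b₄, leg_a₁, leg_a₃, leg_a₄]; ring

theorem leg_b₆ : ((Leg (α : ℚ) (β : ℚ))⁄Qb).b₆ = 0 := by
  rw [WeierstrassCurve.b₆, leg_a₃, leg_a₆]; ring

theorem leg_b₈ : ((Leg (α : ℚ) (β : ℚ))⁄Qb).b₈ = -((α : Qb) * β) ^ 2 := by
  rw [WeierstrassCurve.b₈, leg_a₁, leg_a₂, leg_a₃, leg_a₄, leg_a₆]; ring

theorem leg_Δ :
    ((Leg (α : ℚ) (β : ℚ))⁄Qb).Δ = 16 * (α : Qb) ^ 2 * (β : Qb) ^ 2 * ((α : Qb) + β) ^ 2 := by
  rw [WeierstrassCurve.Δ, leg_b₂, leg_b₄, leg_b₆, leg_b₈]; ring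

/-- The Legendre model is an elliptic curve when `α β (α + β) ≠ 0`. -/
theorem leg_isElliptic (hα : α ≠ 0) (hβ : (β : Qb) ≠ 0) (hαβ : (α : Qb) + β ≠ 0) :
    ((Leg (α : ℚ) (β : ℚ))⁄Qb).IsElliptic := by
  refine ⟨isUnit_iff_ne_zero.mpr ?_⟩
  rw [leg_Δ]
  have hα' : (α : Qb) ≠ 0 := Int.cast_ne_zero.mpr hα
  have h16 : (16 : Qb) ≠ 0 := by norm_num
  exact mul_ne_zero (mul_ne_zero (mul_ne_zero h16 (pow_ne_zero _ hα')) (pow_ne_zero _ hβ))
    (pow_ne_zero _ hαβ)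

theorem psiSq_eval_zero : (psiSq ((Leg (α : ℚ) (β : ℚ))⁄Qb)).eval 0 = 0 := by
  rw [eval_psiSq, leg_b₆]; ring

theorem psiSq_eval_neg_beta : (psiSq ((Leg (α : ℚ) (β : ℚ))⁄Qb)).eval (-(β : Qb)) = 0 := by
  rw [eval_psiSq, leg_b₂, leg_b₄, leg_b₆]; ring

theorem phiTwo_eval_zero :
    (phiTwo ((Leg (α : ℚ) (β : ℚ))⁄Qb)).eval 0 = ((α : Qb) * β) ^ 2 := by
  rw [eval_phiTwo, leg_b₈]; ring

theorem phiTwo_eval_neg_beta :
    (phiTwo ((Leg (α : ℚ) (β : ℚ))⁄Qb)).eval (-(β : Qb)) = ((β : Qb) * ((α : Qb) + β)) ^ 2 := by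
  rw [eval_phiTwo, leg_b₄, leg_b₆, leg_b₈]; ring

end Coeff

/-! ### Valuations -/

section Val

variable (A : ValuationSubring Qb)

theorem val_intCast_le_one (n : ℤ) : A.valuation (n : Qb) ≤ 1 :=
  (A.valuation_le_one_iff _).mpr (intCast_mem A n)

/-- An integer of valuation `< 1` at a place over `p` has valuation at most `v p`. -/
theorem val_d_le_val_p {p : ℕ} (hp : p.Prime) (hvp : A.valuation (p : Qb) < 1) {d : ℤ}
    (hvd : A.valuation (d : Qb) < 1) : A.valuation (d : Qb) ≤ A.valuation (p : Qb) := by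
  have hA : (p : Qb) ∈ A.nonunits := A.mem_nonunits_iff.mpr hvp
  have hpd : (p : ℤ) ∣ d := by
    by_contra hnd
    exact absurd (valuation_intCast_eq_one A p hp hA d hnd) hvd.ne
  obtain ⟨c, rfl⟩ := hpd
  push_cast
  rw [map_mul]
  calc A.valuation (p : Qb) * A.valuation (c : Qb) ≤ A.valuation (p : Qb) * 1 := by
        gcongr; exact val_intCast_le_one A c
    _ = A.valuation (p : Qb) := mul_one _

variable {A} {α β : ℤ}

theorem leg_val_a₂_le : A.valuation ((Leg (α : ℚ) (β : ℚ))⁄Qb).a₂ ≤ 1 := by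
  rw [leg_a₂]
  have := val_intCast_le_one A (β - α)
  simpa using this

theorem leg_val_a₄ (hvβ : A.valuation (β : Qb) = 1) :
    A.valuation ((Leg (α : ℚ) (β : ℚ))⁄Qb).a₄ = A.valuation (α : Qb) := by
  rw [leg_a₄, Valuation.map_neg, map_mul, hvβ, mul_one]

theorem val_beta_sub_alpha (hvβ : A.valuation (β : Qb) = 1) (hvα : A.valuation (α : Qb) < 1) :
    A.valuation ((β : Qb) - α) = 1 := by
  rw [← hvβ]
  exact Valuation.map_sub_eq_of_lt_left _ (by rw [hvβ]; exact hvα)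

theorem leg_val_b₂ (hv2 : A.valuation (2 : Qb) = 1) (hvβ : A.valuation (β : Qb) = 1)
    (hvα : A.valuation (α : Qb) < 1) : A.valuation ((Leg (α : ℚ) (β : ℚ))⁄Qb).b₂ = 1 := by
  have h4 : A.valuation (4 : Qb) = 1 := by
    have : (4 : Qb) = 2 * 2 := by norm_num
    rw [this, map_mul, hv2, mul_one]
  rw [leg_b₂, map_mul, h4, one_mul, val_beta_sub_alpha hvβ hvα]

/-- The Legendre model with integer parameters has integral `b`-invariants. -/
theorem leg_intB : KerRedGen.IntB A.valuation ((Leg (α : ℚ) (β : ℚ))⁄Qb) := by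
  refine KerRedGen.intB_of_coeffs ?_ leg_val_a₂_le ?_ ?_ ?_
  · rw [leg_a₁, _root_.map_zero]; exact zero_le_one
  · rw [leg_a₃, _root_.map_zero]; exact zero_le_one
  · rw [leg_a₄, Valuation.map_neg, map_mul]
    exact mul_le_one₀ (val_intCast_le_one A α) zero_le (val_intCast_le_one A β)
  · rw [leg_a₆, _root_.map_zero]; exact zero_le_one

end Val

/-! ### The kernel line and a point near the node -/

section Main

variable (A : ValuationSubring Qb) (p : ℕ) (α β d : ℤ)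

/-- `v α < 1` from `v α = v d ^ p`, `v d < 1`. -/
theorem val_alpha_lt_one (hp : p.Prime) (hvα : A.valuation (α : Qb) = A.valuation (d : Qb) ^ p)
    (hvd : A.valuation (d : Qb) < 1) : A.valuation (α : Qb) < 1 := by
  rw [hvα]
  exact pow_lt_one₀ zero_le hvd hp.ne_zero

/-- The depth estimate at the node: `v (phiTwo 0) ^ ((p² - 1)/4) < v p ^ 2`. -/
theorem val_phiTwo_zero_lt (hp : p.Prime) (hp5 : 5 ≤ p) (hvp : A.valuation (p : Qb) < 1)
    (hvβ : A.valuation (β : Qb) = 1)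
    (hvα : A.valuation (α : Qb) = A.valuation (d : Qb) ^ p) (hvd : A.valuation (d : Qb) < 1) :
    A.valuation ((phiTwo ((Leg (α : ℚ) (β : ℚ))⁄Qb)).eval 0) ^ ((p ^ 2 - 1) / 4)
      < A.valuation (p : Qb) ^ 2 := by
  have hp0 : A.valuation (p : Qb) ≠ 0 :=
    (A.valuation.ne_zero_iff).mpr (Nat.cast_ne_zero.mpr hp.ne_zero)
  have hppos : 0 < A.valuation (p : Qb) := zero_lt_iff.mpr hp0
  have hdp := val_d_le_val_p A hp hvp hvd
  have hval : A.valuation ((phiTwo ((Leg (α : ℚ) (β : ℚ))⁄Qb)).eval 0)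
      = A.valuation (d : Qb) ^ (p * 2) := by
    rw [phiTwo_eval_zero, map_pow, map_mul, hvβ, mul_one, hvα, ← pow_mul]
  rw [hval, ← pow_mul]
  have hm : 6 ≤ (p ^ 2 - 1) / 4 := by
    have h25 : 25 ≤ p ^ 2 := by nlinarith
    omega
  have hexp : 2 < p * 2 * ((p ^ 2 - 1) / 4) := by nlinarith
  calc A.valuation (d : Qb) ^ (p * 2 * ((p ^ 2 - 1) / 4))
      ≤ A.valuation (p : Qb) ^ (p * 2 * ((p ^ 2 - 1) / 4)) := pow_le_pow_left₀ zero_le hdp _
    _ < A.valuation (p : Qb) ^ 2 := pow_lt_pow_right_of_lt_one₀ hppos hvp hexp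

/-- **The kernel line on the Legendre model.**  The `p`-torsion of the kernel of reduction of
`Y² = X (X - α) (X + β)` at `A` is a line `⟨T⟩`, `T ≠ 0`, with the exact valuation
`v p * v (x T) ^ ((p-1)/2) = 1`. -/
theorem leg_kernel_line (hp : p.Prime) (hp5 : 5 ≤ p) (hα0 : α ≠ 0)
    (hvp : A.valuation (p : Qb) < 1) (_hv2 : A.valuation (2 : Qb) = 1)
    (hvβ : A.valuation (β : Qb) = 1) (hvαβ : A.valuation ((α : Qb) + β) = 1)
    (hvα : A.valuation (α : Qb) = A.valuation (d : Qb) ^ p) (hvd : A.valuation (d : Qb) < 1) :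
    ∃ T : ((Leg (α : ℚ) (β : ℚ))⁄Qb).Point, T ≠ 0 ∧ p • T = 0 ∧
      KerRedGroup.KerRed A.valuation ((Leg (α : ℚ) (β : ℚ))⁄Qb) T ∧
      (∀ Q : ((Leg (α : ℚ) (β : ℚ))⁄Qb).Point, p • Q = 0 →
        KerRedGroup.KerRed A.valuation ((Leg (α : ℚ) (β : ℚ))⁄Qb) Q → ∃ k : ℕ, Q = k • T) ∧
      ∀ x, HasXc ((Leg (α : ℚ) (β : ℚ))⁄Qb) T x →
        A.valuation (p : Qb) * A.valuation x ^ ((p - 1) / 2) = 1 := by
  have hβ0 : (β : Qb) ≠ 0 := by
    intro h0; rw [h0, _root_.map_zero] at hvβ; exact zero_ne_one hvβ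
  have hαβ0 : (α : Qb) + β ≠ 0 := by
    intro h0; rw [h0, _root_.map_zero] at hvαβ; exact zero_ne_one hvαβ
  have : ((Leg (α : ℚ) (β : ℚ))⁄Qb).IsElliptic := leg_isElliptic α β hα0 hβ0 hαβ0
  have hp2 : p ≠ 2 := by omega
  have hφu : A.valuation ((phiTwo ((Leg (α : ℚ) (β : ℚ))⁄Qb)).eval (-(β : Qb))) = 1 := by
    rw [phiTwo_eval_neg_beta, map_pow, map_mul, hvβ, hvαβ, mul_one, one_pow]
  have hcuv : A.valuation (-(β : Qb)) ≤ 1 := by rw [Valuation.map_neg, hvβ]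
  have hcnv : A.valuation (0 : Qb) ≤ 1 := by rw [_root_.map_zero]; exact zero_le_one
  obtain ⟨T, hT0, hpT, hTk, hline, -, hPP⟩ :=
    KerLine.exists_kernel_line ((Leg (α : ℚ) (β : ℚ))⁄Qb) A.valuation leg_intB hp hp2 hvp
      (psiSq_eval_neg_beta α β) hcuv hφu (psiSq_eval_zero α β) hcnv
      (val_phiTwo_zero_lt A p α β d hp hp5 hvp hvβ hvα hvd)
  exact ⟨T, hT0, hpT, hTk, hline, hPP⟩

/-- **A `p`-torsion point near the node.**  There is a nonzero `p`-torsion point `R` of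
`Y² = X (X - α) (X + β)` with `v (x R) < 1`. -/
theorem leg_exists_near_node (hp : p.Prime) (hp5 : 5 ≤ p) (hα0 : α ≠ 0)
    (hvp : A.valuation (p : Qb) < 1)
    (hvβ : A.valuation (β : Qb) = 1) (hvαβ : A.valuation ((α : Qb) + β) = 1)
    (hvα : A.valuation (α : Qb) = A.valuation (d : Qb) ^ p) (hvd : A.valuation (d : Qb) < 1) :
    ∃ R : ((Leg (α : ℚ) (β : ℚ))⁄Qb).Point, R ≠ 0 ∧ p • R = 0 ∧
      ∃ x, HasXc ((Leg (α : ℚ) (β : ℚ))⁄Qb) R x ∧ A.valuation x < 1 := by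
  have hβ0 : (β : Qb) ≠ 0 := by
    intro h0; rw [h0, _root_.map_zero] at hvβ; exact zero_ne_one hvβ
  have hαβ0 : (α : Qb) + β ≠ 0 := by
    intro h0; rw [h0, _root_.map_zero] at hvαβ; exact zero_ne_one hvαβ
  have : ((Leg (α : ℚ) (β : ℚ))⁄Qb).IsElliptic := leg_isElliptic α β hα0 hβ0 hαβ0
  have hodd : Odd p := hp.odd_of_ne_two (by omega)
  obtain ⟨T, hT, hval⟩ := KerLine.val_denX_eval ((Leg (α : ℚ) (β : ℚ))⁄Qb) A.valuation hodd
  have h := hval 0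
  have hφ := val_phiTwo_zero_lt A p α β d hp hp5 hvp hvβ hvα hvd
  rw [TwoTors.denX_eval_two_torsion ((Leg (α : ℚ) (β : ℚ))⁄Qb) (psiSq_eval_zero α β) hodd,
    map_pow] at h
  rw [h] at hφ
  have hPi : ∏ x ∈ T, A.valuation (0 - x) < 1 := by
    by_contra hcon
    have h1 : 1 ≤ (∏ x ∈ T, A.valuation (0 - x)) ^ 2 := one_le_pow_of_one_le' (not_lt.mp hcon) 2
    have h2 : A.valuation (p : Qb) ^ 2 ≤
        A.valuation (p : Qb) ^ 2 * (∏ x ∈ T, A.valuation (0 - x)) ^ 2 :=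
      le_mul_of_one_le_right' h1
    exact absurd hφ (not_lt.mpr h2)
  obtain ⟨x, hxT, hx⟩ : ∃ x ∈ T, A.valuation (0 - x) < 1 := by
    by_contra hcon
    push Not at hcon
    exact absurd hPi (not_lt.mpr (Finset.one_le_prod' hcon))
  obtain ⟨R, hR0, hpR, hR⟩ := (hT x).mp hxT
  refine ⟨R, hR0, hpR, x, hR, ?_⟩
  rwa [zero_sub, Valuation.map_neg] at hx

end Main

end Fermat.Agent.S44.G.KerLeg
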