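import Fermat.Agent.S44.G.NearTop
import Fermat.Agent.S44.G.KerLeg

/-!
# S44 (Mazur's principle at `p`), strand G: `Contract.GStatement` is a theorem

For a Frey package `P` with `p ∣ abc` and a place `A` of `ℚ̄` over `p`, the `p`-torsion of the
Frey curve restricted to the inertia group of `A` has the shape `[χ a; 0 1]` with `a` the Kummer
cocycle of a unit (`Contract.EShape P A`).

Assembly: `NearTop.shape_of_inputs` on the Legendre model `Y² = X (X - α) (X + β)`, fed by
`KerLeg.leg_kernel_line` (the kernel line with the exact valuation), `KerLeg.leg_exists_near_node`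
(a `p`-torsion point reducing to the node) and `LegTop.LegHyp.comp_law` (the component law); then
the transport `GShell.gStatement_of_leg` to the Frey model.
-/

set_option autoImplicit false

namespace Fermat.Agent.S44.G.GProof

open Fermat.Agent.S05.Shell

local notation "Qb" => AlgebraicClosure ℚ

/-- **Strand G on the Legendre model.** -/
theorem legGStatement : Transport.LegGStatement := by
  intro A p α β d hp h5 hA hd hpd hα hβ hαβ
  have H : LegTop.LegHyp A p α β d := ⟨hp, h5, hA, hd, hpd, hα, hβ, hαβ⟩
  obtain ⟨R, -, hRp, hR⟩ := KerLeg.leg_exists_near_node A p α β d hp h5 H.alpha_ne_zero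
    H.val_p_lt H.val_beta H.val_alpha_add_beta H.val_alpha H.val_d_lt
  exact NearTop.shape_of_inputs A p α β hp h5 H.alpha_ne_zero H.val_p_lt H.val_two H.val_beta
    H.val_alpha_add_beta H.val_alpha_lt
    (KerLeg.leg_kernel_line A p α β d hp h5 H.alpha_ne_zero H.val_p_lt H.val_two H.val_beta
      H.val_alpha_add_beta H.val_alpha H.val_d_lt)
    ⟨R, hRp, hR⟩ (fun h hQ hx => H.comp_law h hQ hx)

/-- **Strand G** of the S44 contract. -/
theorem gStatement : Fermat.Agent.S44.Contract.GStatement :=
  GShell.gStatement_of_leg legGStatement

end Fermat.Agent.S44.G.GProof
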