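/-
PROGRAM MR (S44), strand G (helper48): the shift `σ R = R + j T` for ANY integral model with
multiplicative reduction at `p`, and its instance on the Legendre model `Y² = X (X - α) (X + β)`.

`Shape.lean` states the shift for the Frey curve.  Its proof is model-free: it uses only
`S58.Unip.inertia_sq_mem_E1` / `nodePoint_of_multiplicative`, valid for every
`W : WeierstrassCurve ℤ` with `p ∣ W.Δ`, `p ∤ W.c₄`.  This file records that:

* `inertia_sq_kerRed_of_model`, `exists_shift_of_model`, `exists_shape_of_model` : any `W`, `E`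
  with `W.map (Int.castRingHom ℚ) = E`;
* `leg_inertia_sq_kerRed`, `exists_shift_leg`, `exists_shape_leg` : `E = Leg α β`, with the
  hypotheses in the valuation form of `Transport.LegGStatementVal`.
-/
import Mathlib
import Fermat.Agent.S44.G.Shape
import Fermat.Agent.S05.Shell

set_option autoImplicit false

namespace Fermat.Agent.S44.G.ShapeLeg

open WeierstrassCurve WeierstrassCurve.Affine WeierstrassCurve.Affine.Point
open Fermat.Agent.S58.Curve Fermat.Agent.S13.InertiaSq Fermat.Agent.S13.KerRedGroup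
open Fermat.Agent.S05.Shell

local notation "Qb" => AlgebraicClosure ℚ
local notation "GQb" => (AlgebraicClosure ℚ ≃ₐ[ℚ] AlgebraicClosure ℚ)

/-! ### Any integral model with multiplicative reduction at `p` -/

/-- **`(σ - 1)²` maps `E(ℚ̄)` into the kernel of reduction**, for `σ` in the inertia group of a
place over a prime of multiplicative reduction of the integral model `W` of `E`. -/
theorem inertia_sq_kerRed_of_model (W : WeierstrassCurve ℤ) (E : WeierstrassCurve ℚ)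
    (hWE : W.map (Int.castRingHom ℚ) = E) (hΔ : W.Δ ≠ 0) {p : ℕ} (hp : p.Prime)
    (hpΔ : (p : ℤ) ∣ W.Δ) (hpc : ¬ (p : ℤ) ∣ W.c₄) {A : ValuationSubring Qb}
    (hA : A.LiesOverPrime p) {σ : GQb} (hσ : σ ∈ A.inertiaSubgroupIn ℚ) (Q : (E⁄Qb).Point) :
    KerRed A.valuation (E⁄Qb) (σ • (σ • Q - Q) - (σ • Q - Q)) :=
  (Fermat.Agent.S58.UnipNode.inE1_iff_kerRed A.valuation).mp
    (Shape.inertia_sq_mem_E1_of_map W E hWE
      (Fermat.Agent.S58.Unip.nodePoint_of_multiplicative W hΔ hp hpΔ hpc hA) hσ Q)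

/-- The curve over `ℚ̄` is elliptic. -/
theorem isElliptic_of_model (W : WeierstrassCurve ℤ) (E : WeierstrassCurve ℚ)
    (hWE : W.map (Int.castRingHom ℚ) = E) (hΔ : W.Δ ≠ 0) : (E⁄Qb).IsElliptic := by
  subst hWE
  have h1 : (W.map (Int.castRingHom ℚ)).Δ ≠ 0 := by
    rw [WeierstrassCurve.map_Δ]
    simpa using hΔ
  have : (W.map (Int.castRingHom ℚ)).IsElliptic := ⟨isUnit_iff_ne_zero.mpr h1⟩
  exact inferInstanceAs (((W.map (Int.castRingHom ℚ)).map (algebraMap ℚ Qb)).IsElliptic)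

/-- **The shift, for any integral model.**  `T` spans the kernel `p`-torsion, `R ∈ E[p] ∖ ⟨T⟩`,
`σ` in the inertia group with `σ T = k T`: then `σ R = R + j T`. -/
theorem exists_shift_of_model (W : WeierstrassCurve ℤ) (E : WeierstrassCurve ℚ)
    (hWE : W.map (Int.castRingHom ℚ) = E) (hΔ : W.Δ ≠ 0) {p : ℕ} (hp : p.Prime)
    (hpΔ : (p : ℤ) ∣ W.Δ) (hpc : ¬ (p : ℤ) ∣ W.c₄) (A : ValuationSubring Qb)
    (hA : A.LiesOverPrime p) {T R : (E⁄Qb).Point}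
    (hT : p • T = 0) (hT0 : T ≠ 0) (hR : p • R = 0) (hRT : ∀ k : ℕ, R ≠ k • T)
    (hE1 : ∀ Q : (E⁄Qb).Point, p • Q = 0 → KerRed A.valuation (E⁄Qb) Q → ∃ k : ℕ, Q = k • T)
    {σ : GQb} (hσ : σ ∈ A.inertiaSubgroupIn ℚ) {k : ℕ} (hσT : σ • T = k • T) :
    ∃ j : ℕ, σ • R = R + j • T := by
  have : (E⁄Qb).IsElliptic := isElliptic_of_model W E hWE hΔ
  have hcard : Nat.card {Q : (E⁄Qb).Point // p • Q = 0} = p ^ 2 :=
    Fermat.Agent.Lib.TorsionCard.card_torsion (E⁄Qb) p hp.pos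
  have hspan := Shape.exists_nsmul_add_of_card hp hcard hT hR hT0 hRT
  let s : (E⁄Qb).Point →+ (E⁄Qb).Point := DistribSMul.toAddMonoidHom (E⁄Qb).Point σ
  have e1 : p • (σ • R) = 0 := by rw [smul_comm p σ R, hR, smul_zero]
  have e2 : p • (σ • σ • R) = 0 := by rw [smul_comm p σ (σ • R), e1, smul_zero]
  have e3 : σ • (σ • R - R) = σ • σ • R - σ • R := smul_sub σ _ _
  have hQ : p • (σ • (σ • R - R) - (σ • R - R)) = 0 := by
    rw [e3, nsmul_sub, nsmul_sub, nsmul_sub, e1, e2, hR, sub_zero, sub_zero]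
  have hsq : ∃ n : ℕ, s (s R - R) - (s R - R) = n • T :=
    hE1 _ hQ (inertia_sq_kerRed_of_model W E hWE hΔ hp hpΔ hpc hA hσ R)
  exact Shape.exists_shift_of_sq hp hT hR hRT hspan s k hσT hsq

/-- **The shape on inertia, for any integral model** (without the cyclotomic clause). -/
theorem exists_shape_of_model (W : WeierstrassCurve ℤ) (E : WeierstrassCurve ℚ)
    (hWE : W.map (Int.castRingHom ℚ) = E) (hΔ : W.Δ ≠ 0) {p : ℕ} (hp : p.Prime)
    (hpΔ : (p : ℤ) ∣ W.Δ) (hpc : ¬ (p : ℤ) ∣ W.c₄) (A : ValuationSubring Qb)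
    (hA : A.LiesOverPrime p) {T R : (E⁄Qb).Point}
    (hT : p • T = 0) (hT0 : T ≠ 0) (hTk : KerRed A.valuation (E⁄Qb) T)
    (hR : p • R = 0) (hRT : ∀ k : ℕ, R ≠ k • T)
    (hE1 : ∀ Q : (E⁄Qb).Point, p • Q = 0 → KerRed A.valuation (E⁄Qb) Q → ∃ k : ℕ, Q = k • T) :
    ∀ σ : GQb, σ ∈ A.inertiaSubgroupIn ℚ → ∃ k j : ℕ, σ • T = k • T ∧ σ • R = R + j • T := by
  intro σ hσ
  obtain ⟨k, hk⟩ := Shape.exists_smul_T E p hT hTk hE1 hσ
  obtain ⟨j, hj⟩ := exists_shift_of_model W E hWE hΔ hp hpΔ hpc A hA hT hT0 hR hRT hE1 hσ hk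
  exact ⟨k, j, hk, hj⟩

/-! ### The Legendre model -/

theorem leg_map (α β : ℤ) :
    (Leg α β).map (Int.castRingHom ℚ) = Leg (α : ℚ) (β : ℚ) := by
  ext <;> simp [Leg, WeierstrassCurve.map]

theorem leg_Δ (α β : ℤ) : (Leg α β).Δ = 16 * α ^ 2 * β ^ 2 * (α + β) ^ 2 := by
  simp only [Leg, WeierstrassCurve.Δ, WeierstrassCurve.b₂, WeierstrassCurve.b₄,
    WeierstrassCurve.b₆, WeierstrassCurve.b₈]
  ring

theorem leg_c₄ (α β : ℤ) : (Leg α β).c₄ = 16 * (α ^ 2 + α * β + β ^ 2) := by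
  simp only [Leg, WeierstrassCurve.c₄, WeierstrassCurve.b₂, WeierstrassCurve.b₄]
  ring

/-- The integer facts behind the valuation hypotheses. -/
theorem leg_int_facts (A : ValuationSubring Qb) (p : ℕ) (α β : ℤ) (hp : p.Prime)
    (hα0 : α ≠ 0) (hvp : A.valuation (p : Qb) < 1) (hv2 : A.valuation (2 : Qb) = 1)
    (hvβ : A.valuation (β : Qb) = 1) (hvαβ : A.valuation ((α : Qb) + β) = 1)
    (hvα : A.valuation (α : Qb) < 1) :
    (Leg α β).Δ ≠ 0 ∧ (p : ℤ) ∣ (Leg α β).Δ ∧ ¬ (p : ℤ) ∣ (Leg α β).c₄ := by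
  have hA : (p : Qb) ∈ A.nonunits := A.mem_nonunits_iff.mpr hvp
  have hpp : Prime (p : ℤ) := Nat.prime_iff_prime_int.mp hp
  have hlt : ∀ d : ℤ, (p : ℤ) ∣ d → A.valuation (d : Qb) < 1 := by
    rintro d ⟨c, rfl⟩
    have hc : A.valuation (c : Qb) ≤ 1 := (A.valuation_le_one_iff _).mpr (intCast_mem A c)
    push_cast
    rw [map_mul]
    calc A.valuation (p : Qb) * A.valuation (c : Qb) ≤ A.valuation (p : Qb) * 1 := by gcongr
      _ < 1 := by rw [mul_one]; exact hvp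
  have hpα : (p : ℤ) ∣ α := by
    by_contra h
    exact absurd (valuation_intCast_eq_one A p hp hA α h) hvα.ne
  have hp2 : ¬ (p : ℤ) ∣ 2 := fun h => by
    have := hlt 2 h
    rw [Int.cast_ofNat] at this
    exact this.ne hv2
  have hpβ : ¬ (p : ℤ) ∣ β := fun h => (hlt β h).ne hvβ
  have hpαβ : ¬ (p : ℤ) ∣ α + β := fun h => by
    have := hlt (α + β) h
    rw [Int.cast_add] at this
    exact this.ne hvαβ
  have hβ0 : β ≠ 0 := fun h => hpβ (h ▸ dvd_zero _)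
  have hαβ0 : α + β ≠ 0 := fun h => hpαβ (h ▸ dvd_zero _)
  refine ⟨?_, ?_, ?_⟩
  · rw [leg_Δ]
    exact mul_ne_zero (mul_ne_zero (mul_ne_zero (by norm_num) (pow_ne_zero _ hα0))
      (pow_ne_zero _ hβ0)) (pow_ne_zero _ hαβ0)
  · rw [leg_Δ]
    exact Dvd.dvd.mul_right (Dvd.dvd.mul_right (Dvd.dvd.mul_left (dvd_pow hpα two_ne_zero) _) _) _
  · rw [leg_c₄]
    intro h
    rcases hpp.dvd_or_dvd h with h16 | h3
    · have : (16 : ℤ) = 2 ^ 4 := by norm_num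
      rw [this] at h16
      exact hp2 (hpp.dvd_of_dvd_pow h16)
    · have h4 : (p : ℤ) ∣ β ^ 2 := by
        have h5 : (p : ℤ) ∣ α * (α + β) := Dvd.dvd.mul_right hpα _
        have h6 : β ^ 2 = (α ^ 2 + α * β + β ^ 2) - α * (α + β) := by ring
        rw [h6]
        exact dvd_sub h3 h5
      exact hpβ (hpp.dvd_of_dvd_pow h4)

/-- `(σ - 1)²` maps every point of the Legendre curve into the kernel of reduction. -/
theorem leg_inertia_sq_kerRed (A : ValuationSubring Qb) (p : ℕ) (α β : ℤ) (hp : p.Prime)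
    (hα0 : α ≠ 0) (hvp : A.valuation (p : Qb) < 1) (hv2 : A.valuation (2 : Qb) = 1)
    (hvβ : A.valuation (β : Qb) = 1) (hvαβ : A.valuation ((α : Qb) + β) = 1)
    (hvα : A.valuation (α : Qb) < 1) {σ : GQb} (hσ : σ ∈ A.inertiaSubgroupIn ℚ)
    (Q : ((Leg (α : ℚ) (β : ℚ))⁄Qb).Point) :
    KerRed A.valuation ((Leg (α : ℚ) (β : ℚ))⁄Qb) (σ • (σ • Q - Q) - (σ • Q - Q)) := by
  obtain ⟨h1, h2, h3⟩ := leg_int_facts A p α β hp hα0 hvp hv2 hvβ hvαβ hvα
  exact inertia_sq_kerRed_of_model (Leg α β) _ (leg_map α β) h1 hp h2 h3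
    (A.mem_nonunits_iff.mpr hvp) hσ Q

/-- **The shift on the Legendre model.** -/
theorem exists_shift_leg (A : ValuationSubring Qb) (p : ℕ) (α β : ℤ) (hp : p.Prime)
    (hα0 : α ≠ 0) (hvp : A.valuation (p : Qb) < 1) (hv2 : A.valuation (2 : Qb) = 1)
    (hvβ : A.valuation (β : Qb) = 1) (hvαβ : A.valuation ((α : Qb) + β) = 1)
    (hvα : A.valuation (α : Qb) < 1) {T R : ((Leg (α : ℚ) (β : ℚ))⁄Qb).Point}
    (hT : p • T = 0) (hT0 : T ≠ 0) (hR : p • R = 0) (hRT : ∀ k : ℕ, R ≠ k • T)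
    (hE1 : ∀ Q : ((Leg (α : ℚ) (β : ℚ))⁄Qb).Point, p • Q = 0 →
      KerRed A.valuation ((Leg (α : ℚ) (β : ℚ))⁄Qb) Q → ∃ k : ℕ, Q = k • T)
    {σ : GQb} (hσ : σ ∈ A.inertiaSubgroupIn ℚ) {k : ℕ} (hσT : σ • T = k • T) :
    ∃ j : ℕ, σ • R = R + j • T := by
  obtain ⟨h1, h2, h3⟩ := leg_int_facts A p α β hp hα0 hvp hv2 hvβ hvαβ hvα
  exact exists_shift_of_model (Leg α β) _ (leg_map α β) h1 hp h2 h3 A
    (A.mem_nonunits_iff.mpr hvp) hT hT0 hR hRT hE1 hσ hσT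

/-- **The shape on inertia on the Legendre model** (without the cyclotomic clause). -/
theorem exists_shape_leg (A : ValuationSubring Qb) (p : ℕ) (α β : ℤ) (hp : p.Prime)
    (hα0 : α ≠ 0) (hvp : A.valuation (p : Qb) < 1) (hv2 : A.valuation (2 : Qb) = 1)
    (hvβ : A.valuation (β : Qb) = 1) (hvαβ : A.valuation ((α : Qb) + β) = 1)
    (hvα : A.valuation (α : Qb) < 1) {T R : ((Leg (α : ℚ) (β : ℚ))⁄Qb).Point}
    (hT : p • T = 0) (hT0 : T ≠ 0)
    (hTk : KerRed A.valuation ((Leg (α : ℚ) (β : ℚ))⁄Qb) T)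
    (hR : p • R = 0) (hRT : ∀ k : ℕ, R ≠ k • T)
    (hE1 : ∀ Q : ((Leg (α : ℚ) (β : ℚ))⁄Qb).Point, p • Q = 0 →
      KerRed A.valuation ((Leg (α : ℚ) (β : ℚ))⁄Qb) Q → ∃ k : ℕ, Q = k • T) :
    ∀ σ : GQb, σ ∈ A.inertiaSubgroupIn ℚ → ∃ k j : ℕ, σ • T = k • T ∧ σ • R = R + j • T := by
  obtain ⟨h1, h2, h3⟩ := leg_int_facts A p α β hp hα0 hvp hv2 hvβ hvαβ hvα
  exact exists_shape_of_model (Leg α β) _ (leg_map α β) h1 hp h2 h3 A
    (A.mem_nonunits_iff.mpr hvp) hT hT0 hTk hR hRT hE1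

end Fermat.Agent.S44.G.ShapeLeg
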