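import Fermat.Agent.S44.G.GShell
import Fermat.Agent.S44.G.LegTop
import Fermat.Agent.S44.G.Ram
import Fermat.Agent.S44.G.Chi
import Fermat.Agent.S44.G.ShapeLeg
import Fermat.Agent.S36.CycloBase

/-!
# S44 (Mazur's principle at `p`), strand G: the top with a torsion point near the node

`shape_of_inputs`: on the Legendre model `Y² = X (X - α) (X + β)` at a place `A` over `p`
(`v α = v d ^ p`, `v d < 1`, `2`, `β`, `α + β` units), the shape `[χ a; 0 1]` with `a` the Kummer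
cocycle of a unit (`Transport.Shape`) follows from

* the kernel line `T` with the exact valuation (`KerLine.exists_kernel_line` on the Legendre
  model),
* a `p`-torsion point `R` near the node,
* the component law for `p`-torsion points near the node,

by the landed bricks `Shape.exists_smul_T`, `Chi.chi_line`, `Chi.val_param_eq`,
`ShapeLeg.exists_shift_leg`, `Ram.*` and `Peu.exists_unit_b`.

`gStatement_of_ker_near`: hence `Contract.GStatement` from `LegTop.KerStatement` and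
`NearStatement` (some `p`-torsion point of the Legendre model reduces to the node); the component
law is `LegTop.LegHyp.comp_law`.  `nearStatement_of_node` recovers `NearStatement` from
`LegTop.NodeStatement`.
-/

set_option autoImplicit false

namespace Fermat.Agent.S44.G.NearTop

open WeierstrassCurve WeierstrassCurve.Affine WeierstrassCurve.Affine.Point
open Fermat.Agent.Lib.KerRedAny Fermat.Agent.Lib.TorsionCard
open Fermat.Agent.S05.Shell Fermat.Agent.S13 Fermat.Agent.S13.KerRedGroup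

local notation "Qb" => AlgebraicClosure ℚ
local notation "GQb" => (AlgebraicClosure ℚ ≃ₐ[ℚ] AlgebraicClosure ℚ)

/-- **The top of strand G on the Legendre model**, from the kernel line, a torsion point near the
node and the component law. -/
theorem shape_of_inputs (A : ValuationSubring Qb) (p : ℕ) (α β : ℤ) (hp : p.Prime)
    (hp5 : 5 ≤ p) (hα0 : α ≠ 0) (hvp : A.valuation (p : Qb) < 1)
    (hv2 : A.valuation (2 : Qb) = 1) (hvβ : A.valuation (β : Qb) = 1)
    (hvαβ : A.valuation ((α : Qb) + β) = 1) (hvα : A.valuation (α : Qb) < 1)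
    (hKer : ∃ T : ((Leg (α : ℚ) (β : ℚ))⁄Qb).Point, T ≠ 0 ∧ p • T = 0 ∧
      KerRed A.valuation ((Leg (α : ℚ) (β : ℚ))⁄Qb) T ∧
      (∀ Q : ((Leg (α : ℚ) (β : ℚ))⁄Qb).Point, p • Q = 0 →
        KerRed A.valuation ((Leg (α : ℚ) (β : ℚ))⁄Qb) Q → ∃ k : ℕ, Q = k • T) ∧
      ∀ x, HasXc ((Leg (α : ℚ) (β : ℚ))⁄Qb) T x →
        A.valuation (p : Qb) * A.valuation x ^ ((p - 1) / 2) = 1)
    (hNear : ∃ R : ((Leg (α : ℚ) (β : ℚ))⁄Qb).Point, p • R = 0 ∧
      ∃ x, HasXc ((Leg (α : ℚ) (β : ℚ))⁄Qb) R x ∧ A.valuation x < 1)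
    (hComp : ∀ {x y : Qb} (h : ((Leg (α : ℚ) (β : ℚ))⁄Qb).Nonsingular x y),
      p • Point.some x y h = 0 → A.valuation x < 1 →
      A.valuation (α : Qb) < A.valuation x ∧
        ∃ n : ℤ, A.valuation x = A.valuation (p : Qb) ^ n) :
    Transport.Shape (Leg (α : ℚ) (β : ℚ)) p A := by
  classical
  have hp2 : p ≠ 2 := by omega
  have hA : A.LiesOverPrime p := A.mem_nonunits_iff.mpr hvp
  -- the coefficients of the Legendre model
  have h₁ : A.valuation ((Leg (α : ℚ) (β : ℚ))⁄Qb).a₁ ≤ 1 := by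
    rw [leg_a₁, _root_.map_zero]; exact zero_le_one
  have h₃ : A.valuation ((Leg (α : ℚ) (β : ℚ))⁄Qb).a₃ ≤ 1 := by
    rw [leg_a₃, _root_.map_zero]; exact zero_le_one
  have h₆ : A.valuation ((Leg (α : ℚ) (β : ℚ))⁄Qb).a₆ ≤ 1 := by
    rw [leg_a₆, _root_.map_zero]; exact zero_le_one
  have hsub : A.valuation ((β : Qb) - α) = 1 := by
    rw [A.valuation.map_sub_eq_of_lt_left (by rw [hvβ]; exact hvα), hvβ]
  have h₂ : A.valuation ((Leg (α : ℚ) (β : ℚ))⁄Qb).a₂ ≤ 1 := by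
    rw [leg_a₂, hsub]
  have hva₄ : A.valuation ((Leg (α : ℚ) (β : ℚ))⁄Qb).a₄ = A.valuation (α : Qb) := by
    rw [leg_a₄, Valuation.map_neg, map_mul, hvβ, mul_one]
  have h₄ : A.valuation ((Leg (α : ℚ) (β : ℚ))⁄Qb).a₄ ≤ 1 := by
    rw [hva₄]; exact hvα.le
  have hb₂ : A.valuation ((Leg (α : ℚ) (β : ℚ))⁄Qb).b₂ = 1 := by
    have h4 : A.valuation (4 : Qb) = 1 := by
      have h : (4 : Qb) = 2 * 2 := by norm_num
      rw [h, map_mul, hv2, mul_one]
    rw [WeierstrassCurve.b₂, leg_a₁, leg_a₂, zero_pow two_ne_zero, zero_add, map_mul, h4, hsub,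
      mul_one]
  have hB : KerRedGen.IntB A.valuation ((Leg (α : ℚ) (β : ℚ))⁄Qb) :=
    KerRedGen.intB_of_coeffs h₁ h₂ h₃ h₄ h₆
  -- multiples of a kernel point stay in the kernel
  have hmul : ∀ {T : ((Leg (α : ℚ) (β : ℚ))⁄Qb).Point},
      KerRed A.valuation ((Leg (α : ℚ) (β : ℚ))⁄Qb) T → ∀ k : ℕ,
      KerRed A.valuation ((Leg (α : ℚ) (β : ℚ))⁄Qb) (k • T) := by
    intro T hT k
    induction k with
    | zero => rw [zero_nsmul]; exact kerRed_zero _ _
    | succ k ih =>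
      rw [succ_nsmul]
      exact kerRed_add A.valuation hB.b₂ hB.b₄ hB.b₆ hB.b₈ ih hT
  -- a primitive `p`-th root of unity
  have : NeZero (p : Qb) := ⟨by exact_mod_cast hp.ne_zero⟩
  obtain ⟨ζ, hζ⟩ : ∃ ζ : Qb, IsPrimitiveRoot ζ p :=
    HasEnoughRootsOfUnity.exists_primitiveRoot Qb p
  obtain ⟨hlam, hlamp⟩ := Fermat.Agent.S36.CycloBase.valuation_lam A hp hA hζ
  -- the two points
  obtain ⟨T, hT0, hT, hTk, hE1, hTval⟩ := hKer
  obtain ⟨R, hRp, xR, hRx, hxR⟩ := hNear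
  rcases T with _ | ⟨xT, yT, hTn⟩
  · exact absurd rfl hT0
  obtain ⟨yR, hRn, rfl⟩ := hRx
  have hxT : 1 < A.valuation xT := (kerRed_some_iff A.valuation hTn).mp hTk
  have hPP : A.valuation xT ^ ((p - 1) / 2) * A.valuation (p : Qb) = 1 := by
    rw [mul_comm]; exact hTval xT ⟨yT, hTn, rfl⟩
  -- `R ∉ ⟨T⟩`
  have hRT : ∀ k : ℕ, Point.some xR yR hRn ≠ k • Point.some xT yT hTn := by
    intro k hk
    have hker := hmul hTk k
    rw [← hk, kerRed_some_iff] at hker
    exact absurd hxR (not_lt.mpr hker.le)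
  -- the component law
  obtain ⟨hα, n, hn⟩ := hComp hRn hRp hxR
  -- the inertia action
  have hS : ∀ σ ∈ A.inertiaSubgroupIn ℚ, ∃ k j : ℕ,
      σ ζ = ζ ^ k ∧ σ • Point.some xT yT hTn = k • Point.some xT yT hTn ∧
        σ • Point.some xR yR hRn = Point.some xR yR hRn + j • Point.some xT yT hTn := by
    intro σ hσ
    obtain ⟨k, hk⟩ := Shape.exists_smul_T (Leg (α : ℚ) (β : ℚ)) p hT hTk hE1 hσ
    obtain ⟨j, hj⟩ := ShapeLeg.exists_shift_leg A p α β hp hα0 hvp hv2 hvβ hvαβ hvα hT hT0 hRp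
      hRT hE1 hσ hk
    exact ⟨k, j, Chi.chi_line (Leg (α : ℚ) (β : ℚ)) A hp hvp h₁ h₂ h₃ h₄ h₆ hζ hlamp hTn hxT hT
      hPP hσ hk, hk, hj⟩
  have hP : A.valuation (ζ - 1) ≤ A.valuation (xT / yT) :=
    (Chi.val_param_eq (Leg (α : ℚ) (β : ℚ)) A hp hvp h₁ h₂ h₃ h₄ h₆ hlamp hTn.1 hxT hPP).ge
  obtain ⟨b, hb0, hbA, hbA', hb⟩ := Peu.exists_unit_b (Leg (α : ℚ) (β : ℚ)) A p hp hp2 ζ hζ hlam
    (leg_a₃ α β) (leg_a₆ α β) h₁ h₂ hb₂ (Point.some xT yT hTn) (Point.some xR yR hRn)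
    hT hRp hRT hxT hP hxR (by rw [hva₄]; exact hα) n hn hS
    (fun x hx0 hx => Ram.exists_valuation_eq_zpow_of_fixed A hp hA x hx0 hx)
    (fun b hb0 hb m hm hpm => Ram.exists_inertia_kummer A hp hA hζ b hb0 hb m hm hpm)
    (fun b hb0 hb m hm hpm σ hσ hσζ hσb z hzA hz =>
      Ram.ram A hp hA hζ b hb0 hb m hm hpm σ hσ hσζ hσb z hzA hz)
  exact ⟨Point.some xT yT hTn, Point.some xR yR hRn, ζ, b, hT, hRp, hT0, hRT, hζ, hb0, hbA, hbA',
    hb⟩


/-- **(Near)** Some `p`-torsion point of the Legendre model reduces to the node. -/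
def NearStatement : Prop :=
  ∀ (A : ValuationSubring Qb) (p : ℕ) (α β d : ℤ), LegTop.LegHyp A p α β d →
    ∃ R : ((Leg (α : ℚ) (β : ℚ))⁄Qb).Point, p • R = 0 ∧
      ∃ x, HasXc ((Leg (α : ℚ) (β : ℚ))⁄Qb) R x ∧ A.valuation x < 1

/-- `(Node)` and the weak clause of `(Ker)` give `(Near)`. -/
theorem nearStatement_of_node (hKer : LegTop.KerStatement) (hNode : LegTop.NodeStatement) :
    NearStatement := by
  intro A p α β d H
  obtain ⟨-, -, -, -, -, ⟨R, hRp, hRk⟩, -⟩ := hKer A p α β d H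
  rcases R with _ | ⟨x, y, h⟩
  · exact absurd (kerRed_zero _ _) hRk
  · refine ⟨Point.some x y h, hRp, x, ⟨y, h, rfl⟩, ?_⟩
    have hle : A.valuation x ≤ 1 := by
      by_contra hcon
      exact hRk ((kerRed_some_iff A.valuation h).mpr (not_le.mp hcon))
    exact lt_of_le_of_ne hle (hNode A p α β d H x y h hRp)

/-- The shape on the Legendre model from `(Ker)` and `(Near)`. -/
theorem legShape_of_ker_near (hKer : LegTop.KerStatement) (hNear : NearStatement)
    (A : ValuationSubring Qb) (p : ℕ) (α β d : ℤ) (H : LegTop.LegHyp A p α β d) :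
    Transport.Shape (Leg (α : ℚ) (β : ℚ)) p A := by
  obtain ⟨T, hT0, hT, hTk, hE1, -, hPeq⟩ := hKer A p α β d H
  exact shape_of_inputs A p α β H.hp H.h5 H.alpha_ne_zero H.val_p_lt H.val_two H.val_beta
    H.val_alpha_add_beta H.val_alpha_lt
    ⟨T, hT0, hT, hTk, hE1, fun x hx => by rw [mul_comm]; exact hPeq x hx⟩ (hNear A p α β d H)
    (fun h hQ hx => H.comp_law h hQ hx)

/-- **Strand G on the Legendre model** from `(Ker)` and `(Near)`. -/
theorem legGStatement_of_ker_near (hKer : LegTop.KerStatement) (hNear : NearStatement) :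
    Transport.LegGStatement :=
  fun A p α β d hp h5 hA hd hpd hα hβ hαβ =>
    legShape_of_ker_near hKer hNear A p α β d ⟨hp, h5, hA, hd, hpd, hα, hβ, hαβ⟩

/-- **Strand G** (`Contract.GStatement`) from `(Ker)` and `(Near)`. -/
theorem gStatement_of_ker_near (hKer : LegTop.KerStatement) (hNear : NearStatement) :
    Fermat.Agent.S44.Contract.GStatement :=
  GShell.gStatement_of_leg (legGStatement_of_ker_near hKer hNear)

end Fermat.Agent.S44.G.NearTop
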