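import Fermat.Agent.Lib.TorsionCard.Product

set_option autoImplicit false

/-!
# The division denominators at a 2-torsion abscissa

`F` an algebraically closed field of characteristic zero, `W` an elliptic curve over `F`,
`c` a root of `psiSq W = 4X³ + b₂X² + 2b₄X + b₆` (the abscissa of a point of order two).
For odd `n` the denominator `denX W n` of the `x`-coordinate of `n • P` takes the value

  `(denX W n).eval c = ((phiTwo W).eval c) ^ ((n ^ 2 - 1) / 4)`

at `c`, where `phiTwo W = X⁴ - b₄X² - 2b₆X - b₈`.  (`(phiTwo W).eval c` is the square of the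
product of the differences of `c` with the two other 2-torsion abscissae.)

Proof: evaluate the exact three-term identities `Lib.TorsionCard.ident_seq` at `c`; the point
`P₂` above `c` satisfies `2 • P₂ = 0`, so `denX (2j+2)` vanishes at `c` and
`numX (2j+3) = c * denX (2j+3)` at `c`.
-/

namespace Fermat.Agent.S44.G.TwoTors

open Polynomial WeierstrassCurve WeierstrassCurve.Affine
open Fermat.Agent.Lib.TorsionCard

variable {F : Type*} [Field F] [DecidableEq F] (W : WeierstrassCurve.Affine F)
  [IsAlgClosed F] [CharZero F] [W.IsElliptic]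

omit [DecidableEq F] [IsAlgClosed F] [CharZero F] in
/-- `phiTwo` does not vanish at a root of `psiSq`. -/
theorem phiTwo_eval_ne_zero {c : F} (hc : (psiSq W).eval c = 0) : (phiTwo W).eval c ≠ 0 := by
  intro h
  rw [eval_psiSq] at hc
  rw [eval_phiTwo] at h
  exact not_both_zero W (Δ_ne_zero' W) c hc h

/-- The values at a 2-torsion abscissa `c` of `numX (2j+2)` and `denX (2j+1)`. -/
theorem eval_pair {c : F} (hc : (psiSq W).eval c = 0) (j : ℕ) :
    (numX W (2 * j + 2)).eval c = (phiTwo W).eval c ^ ((j + 1) ^ 2) ∧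
      (denX W (2 * j + 1)).eval c = (phiTwo W).eval c ^ (j ^ 2 + j) := by
  have hφ := phiTwo_eval_ne_zero W hc
  obtain ⟨y, hy⟩ := exists_nonsingular W two_ne_zero c
  have hP : HasXc W (Point.some c y hy) c := hasXc_some hy
  generalize Point.some c y hy = P at hP
  have h2P : 2 • P = 0 :=
    (denX_eval_eq_zero_iff W 2 (by norm_num) hP).mp (by rw [denX_two]; exact hc)
  have heven : ∀ i : ℕ, (2 * i + 2) • P = 0 := by
    intro i
    rw [show 2 * i + 2 = 2 * (i + 1) by ring, mul_nsmul, h2P, smul_zero]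
  have hodd : ∀ i : ℕ, (2 * i + 3) • P = P := by
    intro i
    rw [show 2 * i + 3 = (2 * i + 2) + 1 by ring, succ_nsmul, heven i, zero_add]
  -- the two evaluated relations
  have R1 : ∀ i : ℕ, (numX W (2 * i + 2)).eval c ^ 2 =
      (denX W (2 * i + 1)).eval c * (denX W (2 * i + 3)).eval c := by
    intro i
    have h0 := (ident_seq W (2 * i + 1) (by omega)).2.1
    have hB : (denX W (2 * i + 2)).eval c = 0 :=
      (denX_eval_eq_zero_iff W (2 * i + 2) (by omega) hP).mpr (heven i)
    have h := congrArg (Polynomial.eval c) h0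
    rw [eval_g0, eval_mul] at h
    rw [show 2 * i + 1 + 1 = 2 * i + 2 by ring, show 2 * i + 1 + 2 = 2 * i + 3 by ring, hB] at h
    rw [← h]
    ring
  have R2 : ∀ i : ℕ, (denX W (2 * i + 3)).eval c ^ 2 * (phiTwo W).eval c =
      (numX W (2 * i + 2)).eval c * (numX W (2 * i + 4)).eval c := by
    intro i
    have h2 := (ident_seq W (2 * i + 2) (by omega)).1
    have hP' : HasXc W ((2 * i + 3) • P) c := by rw [hodd i]; exact hP
    have hA : c * (denX W (2 * i + 3)).eval c = (numX W (2 * i + 3)).eval c :=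
      mul_denX_eval W (2 * i + 3) (by omega) hP hP'
    have h := congrArg (Polynomial.eval c) h2
    rw [eval_g2, eval_mul] at h
    rw [show 2 * i + 2 + 1 = 2 * i + 3 by ring, show 2 * i + 2 + 2 = 2 * i + 4 by ring,
      ← hA] at h
    rw [← h, eval_phiTwo]
    ring
  induction j with
  | zero =>
    refine ⟨?_, ?_⟩
    · simp
    · simp
  | succ j ih =>
    obtain ⟨ihA, ihB⟩ := ih
    have r1 := R1 j
    have r2 := R2 j
    rw [ihA, ihB] at r1
    have hB' : (denX W (2 * (j + 1) + 1)).eval c
        = (phiTwo W).eval c ^ ((j + 1) ^ 2 + (j + 1)) := by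
      rw [show 2 * (j + 1) + 1 = 2 * j + 3 by ring]
      have e : (phiTwo W).eval c ^ (j ^ 2 + j) * (phiTwo W).eval c ^ ((j + 1) ^ 2 + (j + 1))
          = (phiTwo W).eval c ^ (j ^ 2 + j) * (denX W (2 * j + 3)).eval c := by
        rw [← r1, ← pow_add, ← pow_mul]
        congr 1
        ring
      exact (mul_left_cancel₀ (pow_ne_zero _ hφ) e).symm
    refine ⟨?_, hB'⟩
    rw [show 2 * (j + 1) + 1 = 2 * j + 3 by ring] at hB'
    rw [ihA, hB'] at r2
    rw [show 2 * (j + 1) + 2 = 2 * j + 4 by ring]
    have e : (phiTwo W).eval c ^ ((j + 1) ^ 2) * (phiTwo W).eval c ^ ((j + 1 + 1) ^ 2)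
        = (phiTwo W).eval c ^ ((j + 1) ^ 2) * (numX W (2 * j + 4)).eval c := by
      rw [← r2, ← pow_add, ← pow_mul, ← pow_succ]
      congr 1
      ring
    exact (mul_left_cancel₀ (pow_ne_zero _ hφ) e).symm

/-- **Value of the `n`-division denominator at a 2-torsion abscissa**, `n` odd. -/
theorem denX_eval_two_torsion {c : F} (hc : (psiSq W).eval c = 0) {n : ℕ} (hn : Odd n) :
    (denX W n).eval c = (phiTwo W).eval c ^ ((n ^ 2 - 1) / 4) := by
  obtain ⟨j, rfl⟩ := hn
  rw [(eval_pair W hc j).2]
  congr 1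
  have h : (2 * j + 1) ^ 2 - 1 = 4 * (j ^ 2 + j) := by
    have : (2 * j + 1) ^ 2 = 4 * (j ^ 2 + j) + 1 := by ring
    omega
  rw [h, Nat.mul_div_cancel_left _ (by norm_num : 0 < 4)]

/-- The `n`-division denominator does not vanish at a 2-torsion abscissa, `n` odd. -/
theorem denX_eval_two_torsion_ne_zero {c : F} (hc : (psiSq W).eval c = 0) {n : ℕ}
    (hn : Odd n) : (denX W n).eval c ≠ 0 := by
  rw [denX_eval_two_torsion W hc hn]
  exact pow_ne_zero _ (phiTwo_eval_ne_zero W hc)

end Fermat.Agent.S44.G.TwoTors
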