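import Mathlib

/-!
# The line identity for the `U`-invariant on the Legendre nodal model

`W : y² = x³ + (c² - α) x² - α c² x` (`a₁ = a₃ = a₆ = 0`, `a₂ = c² - α`, `a₄ = -(α c²)`),
i.e. `y² = x (x - α) (x + c²)`.  For two points `(x₁, y₁)`, `(x₂, y₂)` which are not inverse to
each other let `ℓ = W.slope x₁ x₂ y₁ y₂`, `μ = y₁ - ℓ x₁`, `x₃ = W.addX x₁ x₂ ℓ`,
`y₃' = W.negAddY x₁ x₂ y₁ ℓ` (the third intersection point of the line `y = ℓ x + μ`).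
Then `x₁, x₂, x₃` are the roots of `X³ + (a₂ - ℓ²) X² + (a₄ - 2 ℓ μ) X - μ²` (`sym1`, `sym2`,
`sym3`) and

`(y₁ - c x₁) (y₂ - c x₂) (y₃' - c x₃) = μ³ + α μ (ℓ - c) (μ - c² (ℓ - c))`   (`line_prod`)

together with its twin for `-c` (`line_prod_neg`).  Chord and tangent case at once.
Consequently `U (x, y) = (y - c x) / (y + c x)` is multiplicative modulo `α`.
-/

set_option autoImplicit false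

namespace Fermat.Agent.S44.G.UIdent

open WeierstrassCurve WeierstrassCurve.Affine

section Algebra

variable {K : Type*} [Field K]

/-- Pure algebra: the line with slope `L` through two points of `y² = x³ + a₂ x² + a₄ x`
(chord or tangent) and the Vieta relations for its third intersection point. -/
theorem vieta_aux {a₂ a₄ x₁ y₁ x₂ y₂ L : K}
    (E₁ : y₁ ^ 2 = x₁ ^ 3 + a₂ * x₁ ^ 2 + a₄ * x₁)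
    (E₂ : y₂ ^ 2 = x₂ ^ 3 + a₂ * x₂ ^ 2 + a₄ * x₂)
    (hL : (x₁ ≠ x₂ ∧ L * (x₁ - x₂) = y₁ - y₂) ∨
      (x₁ = x₂ ∧ y₁ = y₂ ∧ L * (2 * y₁) = 3 * x₁ ^ 2 + 2 * a₂ * x₁ + a₄)) :
    y₂ = L * x₂ + (y₁ - L * x₁) ∧
    x₁ * x₂ + x₁ * (L ^ 2 - a₂ - x₁ - x₂) + x₂ * (L ^ 2 - a₂ - x₁ - x₂) =
      a₄ - 2 * L * (y₁ - L * x₁) ∧
    x₁ * x₂ * (L ^ 2 - a₂ - x₁ - x₂) = (y₁ - L * x₁) ^ 2 := by
  rcases hL with ⟨hx, hs⟩ | ⟨rfl, rfl, hs⟩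
  · have hd : x₁ - x₂ ≠ 0 := sub_ne_zero.mpr hx
    refine ⟨by linear_combination hs, mul_left_cancel₀ hd ?_, mul_left_cancel₀ hd ?_⟩
    · linear_combination E₁ - E₂ + (2 * y₂ - (L * (x₁ - x₂) - (y₁ - y₂))) * hs
    · linear_combination
        x₂ * E₁ - x₁ * E₂ + x₁ * (2 * y₂ - (L * (x₁ - x₂) - (y₁ - y₂))) * hs
  · refine ⟨by ring, ?_, ?_⟩
    · linear_combination hs
    · linear_combination (-1 : K) * E₁ + x₁ * hs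

/-- Pure algebra: the product identity, from the Vieta relations. -/
theorem prod_aux {c α x₁ x₂ L μ : K}
    (s2 : x₁ * x₂ + x₁ * (L ^ 2 - (c ^ 2 - α) - x₁ - x₂) + x₂ * (L ^ 2 - (c ^ 2 - α) - x₁ - x₂) =
      -(α * c ^ 2) - 2 * L * μ)
    (s3 : x₁ * x₂ * (L ^ 2 - (c ^ 2 - α) - x₁ - x₂) = μ ^ 2) :
    ((L - c) * x₁ + μ) * ((L - c) * x₂ + μ) * ((L - c) * (L ^ 2 - (c ^ 2 - α) - x₁ - x₂) + μ) =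
        μ ^ 3 + α * μ * (L - c) * (μ - c ^ 2 * (L - c)) ∧
    ((L + c) * x₁ + μ) * ((L + c) * x₂ + μ) * ((L + c) * (L ^ 2 - (c ^ 2 - α) - x₁ - x₂) + μ) =
        μ ^ 3 + α * μ * (L + c) * (μ - c ^ 2 * (L + c)) := by
  constructor
  · linear_combination (L - c) ^ 3 * s3 + (L - c) ^ 2 * μ * s2
  · linear_combination (L + c) ^ 3 * s3 + (L + c) ^ 2 * μ * s2

end Algebra

section Curve

variable {K : Type*} [Field K] [DecidableEq K] {W : WeierstrassCurve.Affine K} {c α : K}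

omit [DecidableEq K] in
/-- The Weierstrass equation when `a₁ = a₃ = a₆ = 0`. -/
theorem equation_eq (h₁ : W.a₁ = 0) (h₃ : W.a₃ = 0) (h₆ : W.a₆ = 0) {x y : K}
    (e : W.Equation x y) : y ^ 2 = x ^ 3 + W.a₂ * x ^ 2 + W.a₄ * x := by
  have h := (W.equation_iff x y).mp e
  rw [h₁, h₃, h₆] at h
  linear_combination h

omit [DecidableEq K] in
/-- Negation of the ordinate when `a₁ = a₃ = 0`. -/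
theorem negY_eq (h₁ : W.a₁ = 0) (h₃ : W.a₃ = 0) (x y : K) : W.negY x y = -y := by
  simp only [negY, h₁, h₃]
  ring

/-- The defining property of the slope, chord or tangent case. -/
theorem slope_spec (h₁ : W.a₁ = 0) (h₃ : W.a₃ = 0) {x₁ y₁ x₂ y₂ : K}
    (e₁ : W.Equation x₁ y₁) (e₂ : W.Equation x₂ y₂)
    (hxy : ¬(x₁ = x₂ ∧ y₁ = W.negY x₂ y₂)) :
    (x₁ ≠ x₂ ∧ W.slope x₁ x₂ y₁ y₂ * (x₁ - x₂) = y₁ - y₂) ∨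
      (x₁ = x₂ ∧ y₁ = y₂ ∧
        W.slope x₁ x₂ y₁ y₂ * (2 * y₁) = 3 * x₁ ^ 2 + 2 * W.a₂ * x₁ + W.a₄) := by
  by_cases hx : x₁ = x₂
  · have hyne : y₁ ≠ W.negY x₂ y₂ := fun hy => hxy ⟨hx, hy⟩
    have hy : y₁ = y₂ := Y_eq_of_Y_ne e₁ e₂ hx hyne
    refine Or.inr ⟨hx, hy, ?_⟩
    subst hx hy
    have h2y : 2 * y₁ ≠ 0 := by
      intro h0
      apply hyne
      rw [negY_eq h₁ h₃]
      linear_combination h0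
    have e : y₁ - -y₁ = 2 * y₁ := by ring
    rw [slope_of_Y_ne rfl hyne, negY_eq h₁ h₃, h₁, e, div_mul_cancel₀ _ h2y]
    ring
  · refine Or.inl ⟨hx, ?_⟩
    rw [slope_of_X_ne hx]
    exact div_mul_cancel₀ _ (sub_ne_zero.mpr hx)

set_option linter.unusedVariables false in
/-- The second point lies on the line `y = ℓ x + μ`. -/
theorem line₂ (h₁ : W.a₁ = 0) (h₃ : W.a₃ = 0) (h₆ : W.a₆ = 0) (h₂ : W.a₂ = c ^ 2 - α)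
    (h₄ : W.a₄ = -(α * c ^ 2)) {x₁ y₁ x₂ y₂ : K} (e₁ : W.Equation x₁ y₁) (e₂ : W.Equation x₂ y₂)
    (hxy : ¬(x₁ = x₂ ∧ y₁ = W.negY x₂ y₂)) :
    y₂ = W.slope x₁ x₂ y₁ y₂ * x₂ + (y₁ - W.slope x₁ x₂ y₁ y₂ * x₁) :=
  (vieta_aux (equation_eq h₁ h₃ h₆ e₁) (equation_eq h₁ h₃ h₆ e₂) (slope_spec h₁ h₃ e₁ e₂ hxy)).1

set_option linter.unusedVariables false in
/-- The third intersection point lies on the line `y = ℓ x + μ`. -/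
theorem line₃ (h₁ : W.a₁ = 0) (h₃ : W.a₃ = 0) (h₆ : W.a₆ = 0) (h₂ : W.a₂ = c ^ 2 - α)
    (h₄ : W.a₄ = -(α * c ^ 2)) {x₁ y₁ x₂ y₂ : K} (e₁ : W.Equation x₁ y₁) (e₂ : W.Equation x₂ y₂)
    (hxy : ¬(x₁ = x₂ ∧ y₁ = W.negY x₂ y₂)) :
    W.negAddY x₁ x₂ y₁ (W.slope x₁ x₂ y₁ y₂) =
      W.slope x₁ x₂ y₁ y₂ * W.addX x₁ x₂ (W.slope x₁ x₂ y₁ y₂) +
        (y₁ - W.slope x₁ x₂ y₁ y₂ * x₁) := by
  simp only [negAddY]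
  ring

set_option linter.unusedVariables false in
/-- First Vieta relation (the definition of `addX`). -/
theorem sym1 (h₁ : W.a₁ = 0) (h₃ : W.a₃ = 0) (h₆ : W.a₆ = 0) (h₂ : W.a₂ = c ^ 2 - α)
    (h₄ : W.a₄ = -(α * c ^ 2)) {x₁ y₁ x₂ y₂ : K} (e₁ : W.Equation x₁ y₁) (e₂ : W.Equation x₂ y₂)
    (hxy : ¬(x₁ = x₂ ∧ y₁ = W.negY x₂ y₂)) :
    x₁ + x₂ + W.addX x₁ x₂ (W.slope x₁ x₂ y₁ y₂) = W.slope x₁ x₂ y₁ y₂ ^ 2 - (c ^ 2 - α) := by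
  simp only [addX, h₁, h₂]
  ring

set_option linter.unusedVariables false in
/-- Second Vieta relation. -/
theorem sym2 (h₁ : W.a₁ = 0) (h₃ : W.a₃ = 0) (h₆ : W.a₆ = 0) (h₂ : W.a₂ = c ^ 2 - α)
    (h₄ : W.a₄ = -(α * c ^ 2)) {x₁ y₁ x₂ y₂ : K} (e₁ : W.Equation x₁ y₁) (e₂ : W.Equation x₂ y₂)
    (hxy : ¬(x₁ = x₂ ∧ y₁ = W.negY x₂ y₂)) :
    x₁ * x₂ + x₁ * W.addX x₁ x₂ (W.slope x₁ x₂ y₁ y₂) +
        x₂ * W.addX x₁ x₂ (W.slope x₁ x₂ y₁ y₂) =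
      -(α * c ^ 2) - 2 * W.slope x₁ x₂ y₁ y₂ * (y₁ - W.slope x₁ x₂ y₁ y₂ * x₁) := by
  have key := (vieta_aux (equation_eq h₁ h₃ h₆ e₁) (equation_eq h₁ h₃ h₆ e₂)
    (slope_spec h₁ h₃ e₁ e₂ hxy)).2.1
  rw [h₄] at key
  simp only [addX, h₁]
  linear_combination key

set_option linter.unusedVariables false in
/-- Third Vieta relation: `x₁ x₂ x₃ = μ²`. -/
theorem sym3 (h₁ : W.a₁ = 0) (h₃ : W.a₃ = 0) (h₆ : W.a₆ = 0) (h₂ : W.a₂ = c ^ 2 - α)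
    (h₄ : W.a₄ = -(α * c ^ 2)) {x₁ y₁ x₂ y₂ : K} (e₁ : W.Equation x₁ y₁) (e₂ : W.Equation x₂ y₂)
    (hxy : ¬(x₁ = x₂ ∧ y₁ = W.negY x₂ y₂)) :
    x₁ * x₂ * W.addX x₁ x₂ (W.slope x₁ x₂ y₁ y₂) =
      (y₁ - W.slope x₁ x₂ y₁ y₂ * x₁) ^ 2 := by
  have key := (vieta_aux (equation_eq h₁ h₃ h₆ e₁) (equation_eq h₁ h₃ h₆ e₂)
    (slope_spec h₁ h₃ e₁ e₂ hxy)).2.2
  simp only [addX, h₁]
  linear_combination key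

/-- Both product identities, with the slope abstracted. -/
theorem line_prod_both (h₁ : W.a₁ = 0) (h₃ : W.a₃ = 0) (h₆ : W.a₆ = 0) (h₂ : W.a₂ = c ^ 2 - α)
    (h₄ : W.a₄ = -(α * c ^ 2)) {x₁ y₁ x₂ y₂ : K} (e₁ : W.Equation x₁ y₁) (e₂ : W.Equation x₂ y₂)
    (hxy : ¬(x₁ = x₂ ∧ y₁ = W.negY x₂ y₂)) :
    (y₁ - c * x₁) * (y₂ - c * x₂) *
        (W.negAddY x₁ x₂ y₁ (W.slope x₁ x₂ y₁ y₂) - c * W.addX x₁ x₂ (W.slope x₁ x₂ y₁ y₂)) =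
      (y₁ - W.slope x₁ x₂ y₁ y₂ * x₁) ^ 3 +
        α * (y₁ - W.slope x₁ x₂ y₁ y₂ * x₁) * (W.slope x₁ x₂ y₁ y₂ - c) *
          ((y₁ - W.slope x₁ x₂ y₁ y₂ * x₁) - c ^ 2 * (W.slope x₁ x₂ y₁ y₂ - c)) ∧
    (y₁ + c * x₁) * (y₂ + c * x₂) *
        (W.negAddY x₁ x₂ y₁ (W.slope x₁ x₂ y₁ y₂) + c * W.addX x₁ x₂ (W.slope x₁ x₂ y₁ y₂)) =
      (y₁ - W.slope x₁ x₂ y₁ y₂ * x₁) ^ 3 +
        α * (y₁ - W.slope x₁ x₂ y₁ y₂ * x₁) * (W.slope x₁ x₂ y₁ y₂ + c) *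
          ((y₁ - W.slope x₁ x₂ y₁ y₂ * x₁) - c ^ 2 * (W.slope x₁ x₂ y₁ y₂ + c)) := by
  obtain ⟨l2, s2, s3⟩ := vieta_aux (equation_eq h₁ h₃ h₆ e₁) (equation_eq h₁ h₃ h₆ e₂)
    (slope_spec h₁ h₃ e₁ e₂ hxy)
  rw [h₂, h₄] at s2
  rw [h₂] at s3
  simp only [negAddY, addX, h₁, h₂]
  generalize W.slope x₁ x₂ y₁ y₂ = L at l2 s2 s3 ⊢
  obtain ⟨p1, p2⟩ := prod_aux s2 s3
  constructor
  · rw [l2]
    linear_combination p1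
  · rw [l2]
    linear_combination p2

/-- **The line identity** (`#5473 (B)`):
`(y₁ - c x₁) (y₂ - c x₂) (y₃' - c x₃) = μ³ + α μ (ℓ - c) (μ - c² (ℓ - c))`. -/
theorem line_prod (h₁ : W.a₁ = 0) (h₃ : W.a₃ = 0) (h₆ : W.a₆ = 0) (h₂ : W.a₂ = c ^ 2 - α)
    (h₄ : W.a₄ = -(α * c ^ 2)) {x₁ y₁ x₂ y₂ : K} (e₁ : W.Equation x₁ y₁) (e₂ : W.Equation x₂ y₂)
    (hxy : ¬(x₁ = x₂ ∧ y₁ = W.negY x₂ y₂)) :
    (y₁ - c * x₁) * (y₂ - c * x₂) *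
        (W.negAddY x₁ x₂ y₁ (W.slope x₁ x₂ y₁ y₂) - c * W.addX x₁ x₂ (W.slope x₁ x₂ y₁ y₂)) =
      (y₁ - W.slope x₁ x₂ y₁ y₂ * x₁) ^ 3 +
        α * (y₁ - W.slope x₁ x₂ y₁ y₂ * x₁) * (W.slope x₁ x₂ y₁ y₂ - c) *
          ((y₁ - W.slope x₁ x₂ y₁ y₂ * x₁) - c ^ 2 * (W.slope x₁ x₂ y₁ y₂ - c)) :=
  (line_prod_both h₁ h₃ h₆ h₂ h₄ e₁ e₂ hxy).1

/-- The twin of `line_prod` for `-c`. -/
theorem line_prod_neg (h₁ : W.a₁ = 0) (h₃ : W.a₃ = 0) (h₆ : W.a₆ = 0) (h₂ : W.a₂ = c ^ 2 - α)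
    (h₄ : W.a₄ = -(α * c ^ 2)) {x₁ y₁ x₂ y₂ : K} (e₁ : W.Equation x₁ y₁) (e₂ : W.Equation x₂ y₂)
    (hxy : ¬(x₁ = x₂ ∧ y₁ = W.negY x₂ y₂)) :
    (y₁ + c * x₁) * (y₂ + c * x₂) *
        (W.negAddY x₁ x₂ y₁ (W.slope x₁ x₂ y₁ y₂) + c * W.addX x₁ x₂ (W.slope x₁ x₂ y₁ y₂)) =
      (y₁ - W.slope x₁ x₂ y₁ y₂ * x₁) ^ 3 +
        α * (y₁ - W.slope x₁ x₂ y₁ y₂ * x₁) * (W.slope x₁ x₂ y₁ y₂ + c) *
          ((y₁ - W.slope x₁ x₂ y₁ y₂ * x₁) - c ^ 2 * (W.slope x₁ x₂ y₁ y₂ + c)) :=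
  (line_prod_both h₁ h₃ h₆ h₂ h₄ e₁ e₂ hxy).2

/-- Difference of the two product identities: the defect of multiplicativity of
`U = (y - c x) / (y + c x)` is divisible by `α`. -/
theorem line_cross (h₁ : W.a₁ = 0) (h₃ : W.a₃ = 0) (h₆ : W.a₆ = 0) (h₂ : W.a₂ = c ^ 2 - α)
    (h₄ : W.a₄ = -(α * c ^ 2)) {x₁ y₁ x₂ y₂ : K} (e₁ : W.Equation x₁ y₁) (e₂ : W.Equation x₂ y₂)
    (hxy : ¬(x₁ = x₂ ∧ y₁ = W.negY x₂ y₂)) :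
    (y₁ - c * x₁) * (y₂ - c * x₂) *
        (W.negAddY x₁ x₂ y₁ (W.slope x₁ x₂ y₁ y₂) - c * W.addX x₁ x₂ (W.slope x₁ x₂ y₁ y₂)) -
      (y₁ + c * x₁) * (y₂ + c * x₂) *
        (W.negAddY x₁ x₂ y₁ (W.slope x₁ x₂ y₁ y₂) + c * W.addX x₁ x₂ (W.slope x₁ x₂ y₁ y₂)) =
      2 * α * c * (y₁ - W.slope x₁ x₂ y₁ y₂ * x₁) *
        (2 * c ^ 2 * W.slope x₁ x₂ y₁ y₂ - (y₁ - W.slope x₁ x₂ y₁ y₂ * x₁)) := by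
  rw [line_prod h₁ h₃ h₆ h₂ h₄ e₁ e₂ hxy, line_prod_neg h₁ h₃ h₆ h₂ h₄ e₁ e₂ hxy]
  ring

/-- Point level: if `P₁ + P₂ = P₃` with all three affine, then `P₁, P₂, -P₃` lie on a line
`y = L x + μ`, with the Vieta relations and the two product identities. -/
theorem exists_line (h₁ : W.a₁ = 0) (h₃ : W.a₃ = 0) (h₆ : W.a₆ = 0) (h₂ : W.a₂ = c ^ 2 - α)
    (h₄ : W.a₄ = -(α * c ^ 2)) {x₁ y₁ x₂ y₂ x₃ y₃ : K} {hP₁ : W.Nonsingular x₁ y₁}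
    {hP₂ : W.Nonsingular x₂ y₂} {hP₃ : W.Nonsingular x₃ y₃}
    (hsum : Point.some x₁ y₁ hP₁ + Point.some x₂ y₂ hP₂ = Point.some x₃ y₃ hP₃) :
    ∃ L μ : K, y₁ = L * x₁ + μ ∧ y₂ = L * x₂ + μ ∧ -y₃ = L * x₃ + μ ∧
      x₁ + x₂ + x₃ = L ^ 2 - (c ^ 2 - α) ∧
      x₁ * x₂ + x₁ * x₃ + x₂ * x₃ = -(α * c ^ 2) - 2 * L * μ ∧
      x₁ * x₂ * x₃ = μ ^ 2 ∧
      (y₁ - c * x₁) * (y₂ - c * x₂) * (-y₃ - c * x₃) =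
        μ ^ 3 + α * μ * (L - c) * (μ - c ^ 2 * (L - c)) ∧
      (y₁ + c * x₁) * (y₂ + c * x₂) * (-y₃ + c * x₃) =
        μ ^ 3 + α * μ * (L + c) * (μ - c ^ 2 * (L + c)) := by
  have hxy : ¬(x₁ = x₂ ∧ y₁ = W.negY x₂ y₂) := fun hxy =>
    Point.some_ne_zero hP₃ (hsum.symm.trans (Point.add_of_Y_eq hxy.1 hxy.2))
  have key := Point.add_some (h₁ := hP₁) (h₂ := hP₂) hxy
  rw [hsum] at key
  obtain ⟨ex, ey⟩ := Point.some.inj key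
  have ey' : -y₃ = W.negAddY x₁ x₂ y₁ (W.slope x₁ x₂ y₁ y₂) := by
    rw [ey, addY, negY_eq h₁ h₃, neg_neg]
  rw [ex, ey']
  exact ⟨W.slope x₁ x₂ y₁ y₂, y₁ - W.slope x₁ x₂ y₁ y₂ * x₁, by ring,
    line₂ h₁ h₃ h₆ h₂ h₄ hP₁.1 hP₂.1 hxy, line₃ h₁ h₃ h₆ h₂ h₄ hP₁.1 hP₂.1 hxy,
    sym1 h₁ h₃ h₆ h₂ h₄ hP₁.1 hP₂.1 hxy, sym2 h₁ h₃ h₆ h₂ h₄ hP₁.1 hP₂.1 hxy,
    sym3 h₁ h₃ h₆ h₂ h₄ hP₁.1 hP₂.1 hxy, line_prod h₁ h₃ h₆ h₂ h₄ hP₁.1 hP₂.1 hxy,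
    line_prod_neg h₁ h₃ h₆ h₂ h₄ hP₁.1 hP₂.1 hxy⟩

end Curve

end Fermat.Agent.S44.G.UIdent
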